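import Fermat.Agent.CFT.Global.HP.LocalNorm

/-!
# (CA) in the division shape

Restatements of `LN.exists_norm_approx` with the congruence written as `x / q ^ N ∈ A` instead of
`x ∈ lvl A q N`, for `b : Qbˣ` and for `b : Qb` with `b ∈ K`, `b ≠ 0`.
-/

set_option autoImplicit false

open scoped Pointwise

namespace Fermat.Agent.CFT.Global.HP.LN

open Fermat.Agent.Lib Fermat.Agent.CFT.Cyclic groupCohomology

local notation "Qb" => AlgebraicClosure ℚ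
local notation "Gq" => (AlgebraicClosure ℚ ≃ₐ[ℚ] AlgebraicClosure ℚ)

attribute [local instance] Fermat.Agent.Lib.FrobProfinite.isAlgebraic_Qb
  Fermat.Agent.Lib.FrobProfinite.isAlgClosure_Qb

/-- Membership in `q ^ N • A` in division form. -/
lemma mem_lvl_iff_div {A : ValuationSubring Qb} {q : ℕ} (hq : q.Prime) {N : ℕ} {x : Qb} :
    x ∈ lvl A q N ↔ x / (q : Qb) ^ N ∈ A := by
  have hq0 : ((q : Qb)) ^ N ≠ 0 := pow_ne_zero _ (Nat.cast_ne_zero.mpr hq.ne_zero)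
  constructor
  · rintro ⟨w, hw, rfl⟩
    rwa [mul_div_cancel_left₀ _ hq0]
  · intro h
    exact ⟨_, h, by field_simp⟩

variable {p : ℕ} [Fact p.Prime] {A : ValuationSubring Qb} {q : ℕ}

/-- (CA), division shape, `b : Qbˣ` fixed by `Fix K`. -/
theorem exists_norm_approx_div (hq : q.Prime) (hA : A.LiesOverPrime q)
    (K L : IntermediateField ℚ Qb) [FiniteDimensional ℚ L] (hKL : K ≤ L)
    (χ : K.fixingSubgroup → ZMod p) (hχ : ∀ σ τ, χ (σ * τ) = χ σ + χ τ)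
    (hker : ∀ g : K.fixingSubgroup, χ g = 0 ↔ (g : Gq) ∈ L.fixingSubgroup)
    (s : K.fixingSubgroup) (hs : χ s = 1)
    (b : Qbˣ) (hbfix : ∀ g : K.fixingSubgroup, (g : Gq) • b = b)
    (hloc : ∃ u : ↥(A.decompositionSubgroup ℚ ⊓ K.fixingSubgroup) → Qbˣ,
      IsLevelConstant₁ (Subgroup.subtype (A.decompositionSubgroup ℚ ⊓ K.fixingSubgroup)) u ∧
      ∀ g h : ↥(A.decompositionSubgroup ℚ ⊓ K.fixingSubgroup),
        carry χ b (⟨g, g.2.2⟩, ⟨h, h.2.2⟩) = (g : Gq) • u h / u (g * h) * u g)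
    (N : ℕ) :
    ∃ y ∈ L, y ≠ 0 ∧
      ((b : Qb) - ∏ k ∈ Finset.range p, ((s : Gq) ^ k) y) / (q : Qb) ^ N ∈ A := by
  obtain ⟨y, hyL, hy0, hy⟩ := exists_norm_approx hq hA K L hKL χ hχ hker s hs b hbfix hloc N
  exact ⟨y, hyL, hy0, (mem_lvl_iff_div hq).mp hy⟩

/-- (CA), division shape, `b : Qb` with `b ∈ K`, `b ≠ 0`. -/
theorem exists_norm_approx_div' (hq : q.Prime) (hA : A.LiesOverPrime q)
    (K L : IntermediateField ℚ Qb) [FiniteDimensional ℚ L] (hKL : K ≤ L)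
    (χ : K.fixingSubgroup → ZMod p) (hχ : ∀ σ τ, χ (σ * τ) = χ σ + χ τ)
    (hker : ∀ g : K.fixingSubgroup, χ g = 0 ↔ (g : Gq) ∈ L.fixingSubgroup)
    (s : K.fixingSubgroup) (hs : χ s = 1)
    (b : Qb) (hbK : b ∈ K) (hb : b ≠ 0)
    (hloc : ∃ u : ↥(A.decompositionSubgroup ℚ ⊓ K.fixingSubgroup) → Qbˣ,
      IsLevelConstant₁ (Subgroup.subtype (A.decompositionSubgroup ℚ ⊓ K.fixingSubgroup)) u ∧
      ∀ g h : ↥(A.decompositionSubgroup ℚ ⊓ K.fixingSubgroup),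
        carry χ (Units.mk0 b hb) (⟨g, g.2.2⟩, ⟨h, h.2.2⟩) = (g : Gq) • u h / u (g * h) * u g)
    (N : ℕ) :
    ∃ y ∈ L, y ≠ 0 ∧
      (b - ∏ k ∈ Finset.range p, ((s : Gq) ^ k) y) / (q : Qb) ^ N ∈ A := by
  have hbfix : ∀ g : K.fixingSubgroup, (g : Gq) • Units.mk0 b hb = Units.mk0 b hb := by
    intro g
    apply Units.ext
    rw [coe_smul_units]
    exact g.2 ⟨b, hbK⟩
  exact exists_norm_approx_div hq hA K L hKL χ hχ hker s hs (Units.mk0 b hb) hbfix hloc N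

end Fermat.Agent.CFT.Global.HP.LN
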