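import Mathlib

/-!
# Hilbert 90 for level-constant 1-cocycles on subgroups of `Gal(ℚ̄/ℚ)`

Let `H` be any subgroup of `Gq = Gal(ℚ̄/ℚ)` and `u : H → ℚ̄ˣ` a 1-cocycle
(`u (g * h) = g • u h * u g`) which is *level-constant*: there is a finite extension `F/ℚ` with
`u (g * s) = u g` for all `s ∈ H ∩ Fix F`.  Then `u` is a coboundary: `u g = g • γ / γ`.

The proof is the classical Poincaré-series argument (Artin independence of characters applied to
the finitely many restrictions to `F` of the elements of `H`); no closedness of `H` and no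
normality of `F` is needed.
-/

set_option autoImplicit false

namespace Fermat.Agent.CFT.Global.HP.LN

local notation "Qb" => AlgebraicClosure ℚ
local notation "Gq" => (AlgebraicClosure ℚ ≃ₐ[ℚ] AlgebraicClosure ℚ)

/-- Restriction of an automorphism of `ℚ̄` to an intermediate field. -/
noncomputable def resHom (F : IntermediateField ℚ Qb) (τ : Gq) : F →ₐ[ℚ] Qb :=
  (τ : Qb →ₐ[ℚ] Qb).comp F.val

lemma resHom_apply (F : IntermediateField ℚ Qb) (τ : Gq) (x : F) :
    resHom F τ x = τ (x : Qb) := rfl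

lemma resHom_mul_apply (F : IntermediateField ℚ Qb) (g τ : Gq) (x : F) :
    resHom F (g * τ) x = g (resHom F τ x) := rfl

lemma resHom_eq_iff (F : IntermediateField ℚ Qb) (τ τ' : Gq) :
    resHom F τ = resHom F τ' ↔ τ⁻¹ * τ' ∈ F.fixingSubgroup := by
  rw [IntermediateField.mem_fixingSubgroup_iff]
  constructor
  · intro h x hx
    have h1 : τ x = τ' x := DFunLike.congr_fun h ⟨x, hx⟩
    show τ⁻¹ (τ' x) = x
    rw [← h1]
    exact τ.symm_apply_apply x
  · intro h
    ext x
    have h1 : τ⁻¹ (τ' (x : Qb)) = x := h x x.2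
    have h2 : τ (τ⁻¹ (τ' (x : Qb))) = τ' (x : Qb) := τ.apply_symm_apply _
    rw [h1] at h2
    exact h2

/-- **Hilbert 90 for level-constant cocycles.** -/
theorem hilbert90_level (H : Subgroup Gq) (u : H → Qbˣ)
    (hcoc : ∀ g h : H, u (g * h) = g • u h * u g)
    (hlev : ∃ F : IntermediateField ℚ Qb, FiniteDimensional ℚ F ∧
      ∀ g s : H, (s : Gq) ∈ F.fixingSubgroup → u (g * s) = u g) :
    ∃ γ : Qbˣ, ∀ g : H, u g = g • γ / γ := by
  classical
  obtain ⟨F, hF, hu⟩ := hlev
  have := hF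
  let r : H → (F →ₐ[ℚ] Qb) := fun τ => resHom F (τ : Gq)
  let ι := Set.range r
  have : Finite ι := Finite.of_injective (fun t : ι => (t : F →ₐ[ℚ] Qb)) Subtype.val_injective
  let _ : Fintype ι := Fintype.ofFinite ι
  have hrep : ∀ t : ι, ∃ τ : H, r τ = t := fun t => t.2
  choose rep hrep using hrep
  have hu' : ∀ τ τ' : H, r τ = r τ' → u τ = u τ' := by
    intro τ τ' h
    have hs : ((τ⁻¹ * τ' : H) : Gq) ∈ F.fixingSubgroup :=
      (resHom_eq_iff F (τ : Gq) (τ' : Gq)).mp h
    have := hu τ (τ⁻¹ * τ') hs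
    rw [mul_inv_cancel_left] at this
    exact this.symm
  let P : F → Qb := fun x => ∑ t : ι, (u (rep t) : Qb) * (t : F →ₐ[ℚ] Qb) x
  have hne : ∃ x : F, P x ≠ 0 := by
    by_contra hcon
    push Not at hcon
    let v : ι → (F →* Qb) := fun t => ((t : F →ₐ[ℚ] Qb) : F →* Qb)
    have hv : Function.Injective v := by
      intro t t' h
      apply Subtype.ext
      ext x
      exact DFunLike.congr_fun h x
    have hli := (linearIndependent_monoidHom F Qb).comp v hv
    rw [Fintype.linearIndependent_iff] at hli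
    have h0 : ∑ t : ι, (u (rep t) : Qb) • ((fun f : F →* Qb => (f : F → Qb)) ∘ v) t = 0 := by
      funext x
      simp only [Finset.sum_apply, Pi.smul_apply, Function.comp_apply, smul_eq_mul,
        Pi.zero_apply]
      exact hcon x
    have t0 : ι := ⟨r 1, 1, rfl⟩
    exact (u (rep t0)).ne_zero (hli _ h0 t0)
  obtain ⟨x, hx⟩ := hne
  have key : ∀ g : H, (g : Gq) (P x) = (((u g)⁻¹ : Qbˣ) : Qb) * P x := by
    intro g
    let e : ι → ι := fun t => ⟨r (g * rep t), _, rfl⟩
    have he_inj : Function.Injective e := by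
      intro t t' h
      have h1 : r (g * rep t) = r (g * rep t') := congrArg Subtype.val h
      apply Subtype.ext
      rw [← hrep t, ← hrep t']
      ext y
      have h2 : (g : Gq) (r (rep t) y) = (g : Gq) (r (rep t') y) := DFunLike.congr_fun h1 y
      exact (g : Gq).injective h2
    have he : Function.Bijective e := Finite.injective_iff_bijective.mp he_inj
    have hterm : ∀ t : ι, (g : Gq) ((u (rep t) : Qb) * (t : F →ₐ[ℚ] Qb) x)
        = (((u g)⁻¹ : Qbˣ) : Qb) * ((u (rep (e t)) : Qb) * ((e t : ι) : F →ₐ[ℚ] Qb) x) := by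
      intro t
      have h1 : u (rep (e t)) = u (g * rep t) := hu' _ _ (hrep (e t))
      have h2 : ((e t : ι) : F →ₐ[ℚ] Qb) x = (g : Gq) ((t : F →ₐ[ℚ] Qb) x) := by
        show r (g * rep t) x = _
        rw [← hrep t]
        rfl
      have h3 : (g : Gq) (u (rep t) : Qb) = ((g • u (rep t) : Qbˣ) : Qb) := rfl
      rw [h1, h2, hcoc, map_mul, h3, Units.val_mul, Units.val_inv_eq_inv_val]
      have hug : ((u g : Qbˣ) : Qb) ≠ 0 := (u g).ne_zero
      field_simp
    calc (g : Gq) (P x) = ∑ t : ι, (g : Gq) ((u (rep t) : Qb) * (t : F →ₐ[ℚ] Qb) x) := by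
          simp only [P, map_sum]
      _ = ∑ t : ι, (((u g)⁻¹ : Qbˣ) : Qb) *
            ((u (rep (e t)) : Qb) * ((e t : ι) : F →ₐ[ℚ] Qb) x) :=
          Finset.sum_congr rfl fun t _ => hterm t
      _ = (((u g)⁻¹ : Qbˣ) : Qb) *
            ∑ t : ι, ((u (rep (e t)) : Qb) * ((e t : ι) : F →ₐ[ℚ] Qb) x) := by
          rw [Finset.mul_sum]
      _ = (((u g)⁻¹ : Qbˣ) : Qb) * P x := by
          congr 1
          exact he.sum_comp (fun t : ι => (u (rep t) : Qb) * (t : F →ₐ[ℚ] Qb) x)
  refine ⟨(Units.mk0 (P x) hx)⁻¹, fun g => ?_⟩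
  apply Units.ext
  have h4 : ((g • (Units.mk0 (P x) hx)⁻¹ : Qbˣ) : Qb) = ((g : Gq) (P x))⁻¹ := by
    show (g : Gq) (((Units.mk0 (P x) hx)⁻¹ : Qbˣ) : Qb) = _
    rw [Units.val_inv_eq_inv_val, Units.val_mk0, map_inv₀]
  rw [Units.val_div_eq_div_val, h4, key g, Units.val_inv_eq_inv_val, Units.val_inv_eq_inv_val,
    Units.val_mk0]
  have hug : ((u g : Qbˣ) : Qb) ≠ 0 := (u g).ne_zero
  field_simp

end Fermat.Agent.CFT.Global.HP.LN
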