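import Mathlib
import Fermat.Prelude.Def_FLTPrelim_Ramification
import Fermat.Agent.Lib.DecompLift
import Fermat.Agent.CFT.Global.HP.H90Level

/-!
# A number field is dense in its decomposition (henselisation) field

`Qb = AlgebraicClosure ℚ`, `A` a valuation subring of `Qb` lying over the prime `q`,
`L ≤ Qb` finite over `ℚ`.  The fixed field of `A.decompositionSubgroup ℚ ⊓ L.fixingSubgroup` is the
henselisation of `L` at the place cut out by `A`.  We prove, completion-free and elementarily: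

* `exists_idempotent`: for `E ≤ F` finite, an algebraic integer `e ∈ F` which is `≡ 1` modulo
  `q ^ N • A` and whose conjugates `τ e` (`τ ∈ Fix E`, `τ|F` not induced by the decomposition group)
  are `≡ 0` modulo `q ^ N • A`;
* `exists_approx_of_fixed`: every `z` fixed by `A.decompositionSubgroup ℚ ⊓ L.fixingSubgroup` is
  approximated by elements of `L` to any precision `q ^ N • A`.

`lvl A q N` is the additive subgroup `q ^ N • A` of `Qb`.
-/

set_option autoImplicit false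

open scoped Pointwise

namespace Fermat.Agent.CFT.Global.HP.LN

open Fermat.Agent.Lib

local notation "Qb" => AlgebraicClosure ℚ
local notation "Gq" => (AlgebraicClosure ℚ ≃ₐ[ℚ] AlgebraicClosure ℚ)

attribute [local instance] Fermat.Agent.Lib.FrobProfinite.isAlgebraic_Qb
  Fermat.Agent.Lib.FrobProfinite.isAlgClosure_Qb

section lvl

variable (A : ValuationSubring Qb) (q : ℕ)

/-- The additive subgroup `q ^ N • A` of `Qb`. -/
def lvl (N : ℕ) : AddSubgroup Qb where
  carrier := {x | ∃ w ∈ A, x = (q : Qb) ^ N * w}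
  add_mem' := by
    rintro _ _ ⟨w, hw, rfl⟩ ⟨w', hw', rfl⟩
    exact ⟨w + w', A.add_mem _ _ hw hw', by ring⟩
  zero_mem' := ⟨0, A.zero_mem, by simp⟩
  neg_mem' := by
    rintro _ ⟨w, hw, rfl⟩
    exact ⟨-w, A.neg_mem _ hw, by ring⟩

variable {A q}

lemma mem_lvl {N : ℕ} {x : Qb} : x ∈ lvl A q N ↔ ∃ w ∈ A, x = (q : Qb) ^ N * w := Iff.rfl

lemma natCast_mem_A (k : ℕ) : (k : Qb) ∈ A := natCast_mem A k

lemma lvl_mul_mem {N : ℕ} {x a : Qb} (hx : x ∈ lvl A q N) (ha : a ∈ A) : x * a ∈ lvl A q N := by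
  obtain ⟨w, hw, rfl⟩ := hx
  exact ⟨w * a, A.mul_mem _ _ hw ha, by ring⟩

lemma mul_lvl_mem {N : ℕ} {x a : Qb} (ha : a ∈ A) (hx : x ∈ lvl A q N) : a * x ∈ lvl A q N := by
  rw [mul_comm]; exact lvl_mul_mem hx ha

lemma lvl_le {N : ℕ} {x : Qb} (hx : x ∈ lvl A q N) : x ∈ A := by
  obtain ⟨w, hw, rfl⟩ := hx
  exact A.mul_mem _ _ (A.pow_mem (natCast_mem_A q) N) hw

lemma lvl_anti {N N' : ℕ} (h : N ≤ N') {x : Qb} (hx : x ∈ lvl A q N') : x ∈ lvl A q N := by
  obtain ⟨w, hw, rfl⟩ := hx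
  obtain ⟨k, rfl⟩ := Nat.exists_eq_add_of_le h
  exact ⟨(q : Qb) ^ k * w, A.mul_mem _ _ (A.pow_mem (natCast_mem_A q) k) hw, by ring⟩

lemma lvl_zero_iff {x : Qb} : x ∈ lvl A q 0 ↔ x ∈ A := by
  constructor
  · exact lvl_le
  · intro h; exact ⟨x, h, by simp⟩

lemma lvl_pow_mem {N : ℕ} {x : Qb} (hx : x ∈ lvl A q N) {b : ℕ} (hb : 1 ≤ b) :
    x ^ b ∈ lvl A q N := by
  obtain ⟨b, rfl⟩ : ∃ b', b = b' + 1 := ⟨b - 1, by omega⟩
  rw [pow_succ]
  exact mul_lvl_mem (A.pow_mem (lvl_le hx) b) hx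

lemma lvl_sum_mem {N : ℕ} {ι : Type*} (s : Finset ι) (f : ι → Qb)
    (h : ∀ i ∈ s, f i ∈ lvl A q N) : ∑ i ∈ s, f i ∈ lvl A q N :=
  AddSubgroup.sum_mem _ h

/-- The decomposition group preserves `A`. -/
lemma decomp_mem {d : Gq} (hd : d ∈ A.decompositionSubgroup ℚ) {x : Qb} (hx : x ∈ A) :
    d x ∈ A := by
  have h1 : d • A = A := MulAction.mem_stabilizer_iff.mp hd
  have h2 : d • x ∈ d • A := ValuationSubring.smul_mem_pointwise_smul d x A hx
  rw [h1] at h2
  exact h2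

lemma decomp_lvl_mem {d : Gq} (hd : d ∈ A.decompositionSubgroup ℚ) {N : ℕ} {x : Qb}
    (hx : x ∈ lvl A q N) : d x ∈ lvl A q N := by
  obtain ⟨w, hw, rfl⟩ := hx
  exact ⟨d w, decomp_mem hd hw, by simp⟩

lemma lvl_nonunits (hA : A.LiesOverPrime q) {N : ℕ} (hN : 1 ≤ N) {x : Qb}
    (hx : x ∈ lvl A q N) : x ∈ A.nonunits := by
  obtain ⟨w, hw, rfl⟩ := lvl_anti hN hx
  rw [A.mem_nonunits_iff, pow_one, map_mul]
  have h1 : A.valuation (q : Qb) < 1 := A.mem_nonunits_iff.mp hA
  have h2 : A.valuation w ≤ 1 := (A.valuation_le_one_iff w).mpr hw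
  calc A.valuation (q : Qb) * A.valuation w ≤ A.valuation (q : Qb) * 1 := by gcongr
    _ < 1 := by rw [mul_one]; exact h1

/-- Units of `A`: elements of `A` outside the maximal ideal have their inverse in `A`. -/
lemma inv_mem_of_not_nonunits {x : Qb} (hx : x ∈ A) (hx' : x ∉ A.nonunits) : x⁻¹ ∈ A := by
  have h1 : A.valuation x ≤ 1 := (A.valuation_le_one_iff x).mpr hx
  have h2 : ¬ A.valuation x < 1 := fun h => hx' (A.mem_nonunits_iff.mpr h)
  have h3 : A.valuation x = 1 := le_antisymm h1 (not_lt.mp h2)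
  rw [← A.valuation_le_one_iff, map_inv₀, h3, inv_one]

lemma valuation_eq_one_of_not_nonunits {x : Qb} (hx : x ∈ A) (hx' : x ∉ A.nonunits) :
    A.valuation x = 1 := by
  have h1 : A.valuation x ≤ 1 := (A.valuation_le_one_iff x).mpr hx
  have h2 : ¬ A.valuation x < 1 := fun h => hx' (A.mem_nonunits_iff.mpr h)
  exact le_antisymm h1 (not_lt.mp h2)

/-- An integer prime to `q` is a unit of `A`. -/
lemma natCast_not_nonunits (hq : q.Prime) (hA : A.LiesOverPrime q) {k : ℕ} (hk : ¬ q ∣ k) :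
    (k : Qb) ∉ A.nonunits := by
  intro hmem
  have hcop : Nat.Coprime q k := (Nat.Prime.coprime_iff_not_dvd hq).mpr hk
  have hb := Nat.gcd_eq_gcd_ab q k
  rw [hcop.gcd_eq_one] at hb
  have h1 : A.valuation (q : Qb) < 1 := A.mem_nonunits_iff.mp hA
  have h2 : A.valuation (k : Qb) < 1 := A.mem_nonunits_iff.mp hmem
  have h3 : ∀ n : ℤ, A.valuation (n : Qb) ≤ 1 := fun n =>
    (A.valuation_le_one_iff _).mpr (intCast_mem A n)
  have h4 : (1 : Qb) = (q : Qb) * ((q.gcdA k : ℤ) : Qb) + (k : Qb) * ((q.gcdB k : ℤ) : Qb) := by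
    have := congrArg (fun n : ℤ => (n : Qb)) hb
    simp only [Int.cast_natCast, Int.cast_add, Int.cast_mul] at this
    exact this
  have h5 : A.valuation (1 : Qb) < 1 := by
    rw [h4]
    refine A.valuation.map_add_lt ?_ ?_
    · rw [map_mul]
      calc A.valuation (q : Qb) * A.valuation ((q.gcdA k : ℤ) : Qb)
          ≤ A.valuation (q : Qb) * 1 := by gcongr; exact h3 _
        _ < 1 := by rw [mul_one]; exact h1
    · rw [map_mul]
      calc A.valuation (k : Qb) * A.valuation ((q.gcdB k : ℤ) : Qb)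
          ≤ A.valuation (k : Qb) * 1 := by gcongr; exact h3 _
        _ < 1 := by rw [mul_one]; exact h2
  rw [map_one] at h5
  exact lt_irrefl _ h5

/-- (Q1) Every positive integer divides a power of `q` in `A`. -/
lemma exists_pow_div_natCast_mem (hq : q.Prime) (hA : A.LiesOverPrime q) {k : ℕ} (hk : k ≠ 0) :
    ∃ v : ℕ, (q : Qb) ^ v / (k : Qb) ∈ A := by
  obtain ⟨e, m, hm, rfl⟩ := Nat.exists_eq_pow_mul_and_not_dvd hk q hq.ne_one
  refine ⟨e, ?_⟩
  have hq0 : (q : Qb) ≠ 0 := Nat.cast_ne_zero.mpr hq.ne_zero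
  have h1 : (q : Qb) ^ e / ((q ^ e * m : ℕ) : Qb) = ((m : ℕ) : Qb)⁻¹ := by
    push_cast
    have hm0 : (m : Qb) ≠ 0 := by
      rintro h
      have : m = 0 := by exact_mod_cast h
      subst this
      exact hm (dvd_zero q)
    field_simp
  rw [h1]
  exact inv_mem_of_not_nonunits (natCast_mem_A m) (natCast_not_nonunits hq hA hm)

/-- Every element of `Qb` has a positive integer multiple which is an algebraic integer. -/
lemma exists_nat_mul_isIntegral (z : Qb) : ∃ m : ℕ, m ≠ 0 ∧ IsIntegral ℤ ((m : Qb) * z) := by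
  obtain ⟨y, hy, hyz⟩ := (DecompLift.isAlgebraic_int z).exists_integral_multiple
  refine ⟨y.natAbs, Int.natAbs_ne_zero.mpr hy, ?_⟩
  have h1 : (y : Qb) * z = y • z := by rw [zsmul_eq_mul]
  rcases Int.natAbs_eq y with h | h
  · have : ((y.natAbs : ℕ) : Qb) = (y : Qb) := by
      conv_rhs => rw [h]
      simp
    rw [this, h1]; exact hyz
  · have : ((y.natAbs : ℕ) : Qb) = -(y : Qb) := by
      conv_rhs => rw [h]
      simp
    rw [this, neg_mul, h1]; exact hyz.neg

/-- (Q2) Every element of `Qb` is multiplied into `A` by a power of `q`. -/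
lemma exists_pow_mul_mem (hq : q.Prime) (hA : A.LiesOverPrime q) (c : Qb) :
    ∃ M : ℕ, (q : Qb) ^ M * c ∈ A := by
  obtain ⟨m, hm, hint⟩ := exists_nat_mul_isIntegral c
  obtain ⟨v, hv⟩ := exists_pow_div_natCast_mem hq hA hm
  refine ⟨v, ?_⟩
  have hm0 : (m : Qb) ≠ 0 := Nat.cast_ne_zero.mpr hm
  have : (q : Qb) ^ v * c = (q : Qb) ^ v / (m : Qb) * ((m : Qb) * c) := by field_simp
  rw [this]
  exact A.mul_mem _ _ hv (DecompLift.mem_of_isIntegral A hint)

/-- A nonzero element is not divisible by arbitrarily high powers of `q`. -/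
lemma exists_not_mem_lvl (hq : q.Prime) (hA : A.LiesOverPrime q) {c : Qb} (hc : c ≠ 0) :
    ∃ M : ℕ, ∀ N, M ≤ N → c ∉ lvl A q N := by
  obtain ⟨M, hM⟩ := exists_pow_mul_mem hq hA c⁻¹
  refine ⟨M + 1, fun N hN hmem => ?_⟩
  obtain ⟨w, hw, rfl⟩ := lvl_anti hN hmem
  have hq0 : (q : Qb) ≠ 0 := Nat.cast_ne_zero.mpr hq.ne_zero
  have hw0 : w ≠ 0 := by
    rintro rfl
    simp at hc
  have h1 : (1 : Qb) = (q : Qb) ^ 1 * (w * ((q : Qb) ^ M * ((q : Qb) ^ (M + 1) * w)⁻¹)) := by
    field_simp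
    ring
  have h2 : (1 : Qb) ∈ lvl A q 1 := ⟨_, A.mul_mem _ _ hw hM, h1⟩
  have h3 := A.mem_nonunits_iff.mp (lvl_nonunits hA le_rfl h2)
  rw [map_one] at h3
  exact lt_irrefl _ h3

end lvl


section periodic

variable {A : ValuationSubring Qb} {q : ℕ}

/-- Periodicity of the powers of an algebraic integer modulo `q ^ N`. -/
lemma exists_pow_sub_pow {w : Qb} (hw : IsIntegral ℤ w) (q N : ℕ) (hqN : q ^ N ≠ 0) :
    ∃ i j : ℕ, i < j ∧ ∃ r : Qb, IsIntegral ℤ r ∧ w ^ j - w ^ i = (q : Qb) ^ N * r := by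
  classical
  set d := (minpoly ℤ w).natDegree with hd
  have hspan : ∀ k : ℕ, ∃ c : Fin d → ℤ, ∑ i, c i • w ^ (i : ℕ) = w ^ k := by
    intro k
    have := hw.mem_span_pow (y := w ^ k) ⟨Polynomial.X ^ k, by simp⟩
    rw [Submodule.mem_span_range_iff_exists_fun] at this
    exact this
  choose c hc using hspan
  have : NeZero (q ^ N) := ⟨hqN⟩
  let f : ℕ → (Fin d → ZMod (q ^ N)) := fun k i => (c k i : ZMod (q ^ N))
  obtain ⟨i, j, hij, hfij⟩ := Finite.exists_ne_map_eq_of_infinite f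
  wlog hlt : i < j generalizing i j
  · exact this j i hij.symm hfij.symm (lt_of_le_of_ne (not_lt.mp hlt) hij.symm)
  refine ⟨i, j, hlt, ?_⟩
  have hdvd : ∀ l : Fin d, ((q ^ N : ℕ) : ℤ) ∣ c j l - c i l := by
    intro l
    have := congrFun hfij l
    exact (ZMod.intCast_eq_intCast_iff_dvd_sub _ _ _).mp this
  choose m hm using hdvd
  refine ⟨∑ l, m l • w ^ (l : ℕ), ?_, ?_⟩
  · exact IsIntegral.sum _ fun l _ => (hw.pow _).smul _
  · rw [← hc j, ← hc i, ← Finset.sum_sub_distrib, Finset.mul_sum]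
    refine Finset.sum_congr rfl fun l _ => ?_
    rw [← sub_smul, hm l, zsmul_eq_mul, zsmul_eq_mul]
    push_cast
    ring

/-- (P1) A unit of `A` which is an algebraic integer has a power `≡ 1` modulo `q ^ N • A`. -/
lemma exists_pow_sub_one_mem_lvl (hq : q.Prime) {w : Qb} (hw : IsIntegral ℤ w)
    (hw' : w ∉ A.nonunits) (N : ℕ) : ∃ b : ℕ, 1 ≤ b ∧ w ^ b - 1 ∈ lvl A q N := by
  obtain ⟨i, j, hij, r, hr, h⟩ := exists_pow_sub_pow hw q N (pow_ne_zero _ hq.ne_zero)
  have hwA : w ∈ A := DecompLift.mem_of_isIntegral A hw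
  have hinv : w⁻¹ ∈ A := inv_mem_of_not_nonunits hwA hw'
  have hw0 : w ≠ 0 := by
    rintro rfl
    exact hw' (by rw [A.mem_nonunits_iff, map_zero]; exact zero_lt_one)
  refine ⟨j - i, by omega, (w⁻¹) ^ i * r,
    A.mul_mem _ _ (A.pow_mem hinv i) (DecompLift.mem_of_isIntegral A hr), ?_⟩
  have hj : w ^ j = w ^ (j - i) * w ^ i := by rw [← pow_add]; congr 1; omega
  rw [hj] at h
  have hwi : w ^ i ≠ 0 := pow_ne_zero _ hw0
  apply mul_right_cancel₀ hwi
  rw [inv_pow]
  have : (q : Qb) ^ N * ((w ^ i)⁻¹ * r) * w ^ i = (q : Qb) ^ N * r := by field_simp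
  rw [this, ← h]
  ring

/-- (P2) An algebraic integer in the maximal ideal of `A` has a power in `q ^ N • A`. -/
lemma exists_pow_mem_lvl (hq : q.Prime) {w : Qb} (hw : IsIntegral ℤ w)
    (hw' : w ∈ A.nonunits) (N : ℕ) : ∃ a : ℕ, w ^ a ∈ lvl A q N := by
  obtain ⟨i, j, hij, r, hr, h⟩ := exists_pow_sub_pow hw q N (pow_ne_zero _ hq.ne_zero)
  set u := 1 - w ^ (j - i) with hu
  have hpow : A.valuation (w ^ (j - i)) < 1 := by
    rw [map_pow]
    exact pow_lt_one₀ zero_le (A.mem_nonunits_iff.mp hw') (by omega)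
  have huval : A.valuation u = 1 := by
    rw [hu, sub_eq_add_neg,
      A.valuation.map_add_eq_of_lt_left (by rw [Valuation.map_neg, map_one]; exact hpow), map_one]
  have hu0 : u ≠ 0 := by
    rintro h0
    rw [h0, map_zero] at huval
    exact zero_ne_one huval
  have huinv : u⁻¹ ∈ A := by
    rw [← A.valuation_le_one_iff, map_inv₀, huval, inv_one]
  refine ⟨i, -(r * u⁻¹), A.neg_mem _ (A.mul_mem _ _ (DecompLift.mem_of_isIntegral A hr) huinv), ?_⟩
  have hj : w ^ j = w ^ (j - i) * w ^ i := by rw [← pow_add]; congr 1; omega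
  rw [hj] at h
  have h2 : w ^ i * u = -((q : Qb) ^ N * r) := by rw [← h, hu]; ring
  have h3 : w ^ i = -((q : Qb) ^ N * r) * u⁻¹ := by
    rw [← h2, mul_assoc, mul_inv_cancel₀ hu0, mul_one]
  rw [h3]; ring

/-- If `τ|F` is not induced by an element of the decomposition group of `A`, some algebraic
integer of `F` is a unit at `A` while its `τ`-conjugate lies in the maximal ideal of `A`. -/
lemma exists_separating (hq : q.Prime) (hA : A.LiesOverPrime q) (F : IntermediateField ℚ Qb)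
    (τ : Gq) (hτ : ¬ ∃ σ ∈ A.decompositionSubgroup ℚ, ∀ x ∈ F, σ x = τ x) :
    ∃ x ∈ F, IsIntegral ℤ x ∧ x ∉ A.nonunits ∧ τ x ∈ A.nonunits := by
  by_contra hcon
  push Not at hcon
  apply hτ
  refine DecompLift.exists_decomp_lift F A hq hA τ fun x hx hxi => ⟨fun h => ?_, fun h => ?_⟩
  · by_contra hτx
    have hτi : IsIntegral ℤ (τ x) := map_isIntegral_int τ hxi
    obtain ⟨b, hb, hmem⟩ := exists_pow_sub_one_mem_lvl (A := A) hq hτi hτx 1
    have h1 : τ (1 - x ^ b) ∈ A.nonunits := by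
      have h0 : τ (1 - x ^ b) = -((τ x) ^ b - 1) := by rw [map_sub, map_one, map_pow]; ring
      rw [h0]
      exact lvl_nonunits hA le_rfl ((lvl A q 1).neg_mem hmem)
    have h2 : (1 - x ^ b) ∉ A.nonunits := by
      rw [A.mem_nonunits_iff, not_lt]
      have hpow : A.valuation (x ^ b) < 1 := by
        rw [map_pow]
        exact pow_lt_one₀ zero_le (A.mem_nonunits_iff.mp h) (by omega)
      rw [sub_eq_add_neg,
        A.valuation.map_add_eq_of_lt_left (by rw [Valuation.map_neg, map_one]; exact hpow), map_one]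
    exact hcon (1 - x ^ b) (F.sub_mem F.one_mem (pow_mem hx b))
      ((isIntegral_one).sub (hxi.pow b)) h2 h1
  · by_contra hx'
    exact hcon x hx hxi hx' h

end periodic


section density

variable {A : ValuationSubring Qb} {q : ℕ}

/-- **CRT idempotent.** For `E ≤ F` finite over `ℚ` there is an algebraic integer `e ∈ F` with
`e ≡ 1` modulo `q ^ N • A` such that for every `τ ∈ Fix E`, either `τ|F` is induced by an element
of the decomposition group of `A` fixing `E`, or `τ e ≡ 0` modulo `q ^ N • A`. -/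
theorem exists_idempotent (hq : q.Prime) (hA : A.LiesOverPrime q)
    (E F : IntermediateField ℚ Qb) [FiniteDimensional ℚ F] (hEF : E ≤ F) (N : ℕ) :
    ∃ e ∈ F, IsIntegral ℤ e ∧ e - 1 ∈ lvl A q N ∧
      ∀ τ ∈ E.fixingSubgroup,
        (∃ d ∈ A.decompositionSubgroup ℚ ⊓ E.fixingSubgroup, ∀ x ∈ F, d x = τ x) ∨
          τ e ∈ lvl A q N := by
  classical
  let r : E.fixingSubgroup → (F →ₐ[ℚ] Qb) := fun τ => resHom F (τ : Gq)
  let ι := Set.range r
  have : Finite ι := Finite.of_injective (fun t : ι => (t : F →ₐ[ℚ] Qb)) Subtype.val_injective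
  let _ : Fintype ι := Fintype.ofFinite ι
  have hrep : ∀ t : ι, ∃ τ : E.fixingSubgroup, r τ = t := fun t => t.2
  choose rep hrep using hrep
  let good : ι → Prop := fun t =>
    ∃ d ∈ A.decompositionSubgroup ℚ ⊓ E.fixingSubgroup, resHom F d = (t : F →ₐ[ℚ] Qb)
  have hsep : ∀ t : ι, ¬ good t →
      ∃ x ∈ F, IsIntegral ℤ x ∧ x ∉ A.nonunits ∧ (rep t : Gq) x ∈ A.nonunits := by
    intro t ht
    apply exists_separating hq hA F
    rintro ⟨σ, hσ, hσx⟩
    apply ht
    refine ⟨σ, ⟨hσ, ?_⟩, ?_⟩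
    · show σ ∈ E.fixingSubgroup
      rw [IntermediateField.mem_fixingSubgroup_iff]
      intro x hx
      rw [hσx x (hEF hx)]
      exact (IntermediateField.mem_fixingSubgroup_iff _ _).mp (rep t).2 x hx
    · rw [← hrep t]
      ext x
      exact hσx x x.2
  have hX : ∀ t : ι, ∃ X : Qb, X ∈ F ∧ IsIntegral ℤ X ∧ X ∉ A.nonunits ∧
      (¬ good t → (rep t : Gq) X ∈ lvl A q N) := by
    intro t
    by_cases ht : good t
    · refine ⟨1, F.one_mem, isIntegral_one, ?_, fun h => absurd ht h⟩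
      rw [A.mem_nonunits_iff, map_one]
      exact lt_irrefl _
    · obtain ⟨x, hxF, hxi, hxu, hτx⟩ := hsep t ht
      obtain ⟨a, ha⟩ := exists_pow_mem_lvl (A := A) hq (map_isIntegral_int (rep t : Gq) hxi) hτx N
      refine ⟨x ^ a, pow_mem hxF a, hxi.pow a, ?_, fun _ => by rw [map_pow]; exact ha⟩
      rw [A.mem_nonunits_iff, map_pow,
        valuation_eq_one_of_not_nonunits (DecompLift.mem_of_isIntegral A hxi) hxu, one_pow]
      exact lt_irrefl _
  choose X hXF hXi hXu hXbad using hX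
  set x := ∏ t, X t with hx
  have hxF : x ∈ F := prod_mem fun t _ => hXF t
  have hxi : IsIntegral ℤ x := IsIntegral.prod _ fun t _ => hXi t
  have hxu : x ∉ A.nonunits := by
    rw [A.mem_nonunits_iff, hx, map_prod,
      Finset.prod_eq_one fun t _ => valuation_eq_one_of_not_nonunits
        (DecompLift.mem_of_isIntegral A (hXi t)) (hXu t)]
    exact lt_irrefl _
  have hxbad : ∀ t : ι, ¬ good t → (rep t : Gq) x ∈ lvl A q N := by
    intro t ht
    rw [hx, map_prod, ← Finset.mul_prod_erase Finset.univ _ (Finset.mem_univ t)]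
    refine lvl_mul_mem (hXbad t ht) ?_
    exact DecompLift.mem_of_isIntegral A
      (IsIntegral.prod _ fun s _ => map_isIntegral_int _ (hXi s))
  obtain ⟨b, hb, hbm⟩ := exists_pow_sub_one_mem_lvl (A := A) hq hxi hxu N
  refine ⟨x ^ b, pow_mem hxF b, hxi.pow b, hbm, fun τ hτ => ?_⟩
  let t : ι := ⟨r ⟨τ, hτ⟩, _, rfl⟩
  by_cases ht : good t
  · left
    obtain ⟨d, hd, hdt⟩ := ht
    exact ⟨d, hd, fun y hy => DFunLike.congr_fun hdt ⟨y, hy⟩⟩
  · right
    have h1 : τ x = (rep t : Gq) x := (DFunLike.congr_fun (hrep t) ⟨x, hxF⟩).symm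
    rw [map_pow, h1]
    exact lvl_pow_mem (hxbad t ht) hb

/-- **Density.** `L` is `A`-adically dense in its decomposition field: an element fixed by
`A.decompositionSubgroup ℚ ⊓ L.fixingSubgroup` is congruent to elements of `L` modulo
`q ^ N • A`, for every `N`. -/
theorem exists_approx_of_fixed (hq : q.Prime) (hA : A.LiesOverPrime q)
    (L : IntermediateField ℚ Qb) [FiniteDimensional ℚ L] (z : Qb)
    (hz : ∀ g ∈ A.decompositionSubgroup ℚ ⊓ L.fixingSubgroup, g z = z) (N : ℕ) :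
    ∃ y ∈ L, z - y ∈ lvl A q N := by
  classical
  let F : IntermediateField ℚ Qb := L ⊔ IntermediateField.adjoin ℚ {z}
  have hzint : IsIntegral ℚ z := Algebra.IsIntegral.isIntegral z
  have : FiniteDimensional ℚ (IntermediateField.adjoin ℚ {z}) :=
    IntermediateField.adjoin.finiteDimensional hzint
  have : FiniteDimensional ℚ F := IntermediateField.finiteDimensional_sup L _
  have hLF : L ≤ F := le_sup_left
  have hzF : z ∈ F :=
    (le_sup_right : IntermediateField.adjoin ℚ {z} ≤ F) (IntermediateField.mem_adjoin_simple_self ℚ z)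
  obtain ⟨m, hm, hmz⟩ := exists_nat_mul_isIntegral z
  set z₀ := (m : Qb) * z with hz₀
  have hz₀F : z₀ ∈ F := F.mul_mem (natCast_mem F m) hzF
  have hz₀fix : ∀ g ∈ A.decompositionSubgroup ℚ ⊓ L.fixingSubgroup, g z₀ = z₀ := by
    intro g hg
    rw [hz₀, map_mul, map_natCast, hz g hg]
  let r : L.fixingSubgroup → (F →ₐ[ℚ] Qb) := fun τ => resHom F (τ : Gq)
  let ι := Set.range r
  have : Finite ι := Finite.of_injective (fun t : ι => (t : F →ₐ[ℚ] Qb)) Subtype.val_injective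
  let _ : Fintype ι := Fintype.ofFinite ι
  have hrep : ∀ t : ι, ∃ τ : L.fixingSubgroup, r τ = t := fun t => t.2
  choose rep hrep using hrep
  let good : ι → Prop := fun t =>
    ∃ d ∈ A.decompositionSubgroup ℚ ⊓ L.fixingSubgroup, resHom F d = (t : F →ₐ[ℚ] Qb)
  set nD := (Finset.univ.filter good).card with hnD
  have hnD0 : nD ≠ 0 := by
    have h1 : (⟨r 1, 1, rfl⟩ : ι) ∈ Finset.univ.filter good := by
      simp only [Finset.mem_filter, Finset.mem_univ, true_and]
      exact ⟨1, Subgroup.one_mem _, rfl⟩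
    exact Finset.card_ne_zero_of_mem h1
  obtain ⟨v, hv⟩ := exists_pow_div_natCast_mem (A := A) hq hA (mul_ne_zero hnD0 hm)
  obtain ⟨e, heF, hei, he1, hebad⟩ := exists_idempotent (A := A) hq hA L F hLF (N + v)
  set w := e * z₀ with hw
  have hwF : w ∈ F := F.mul_mem heF hz₀F
  let y₀ : Qb := ∑ t : ι, (rep t : Gq) w
  have hy₀L : y₀ ∈ L := by
    have hgal : IsGalois ℚ Qb := Fermat.Agent.Lib.FrobProfinite.isGalois_Qb
    rw [← InfiniteGalois.fixedField_fixingSubgroup L, IntermediateField.mem_fixedField_iff]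
    intro g hg
    let π : ι → ι := fun t => ⟨r (⟨g, hg⟩ * rep t), _, rfl⟩
    have hπ_inj : Function.Injective π := by
      intro t t' h
      have h1 : r (⟨g, hg⟩ * rep t) = r (⟨g, hg⟩ * rep t') := congrArg Subtype.val h
      apply Subtype.ext
      rw [← hrep t, ← hrep t']
      ext y
      have h2 : g (r (rep t) y) = g (r (rep t') y) := DFunLike.congr_fun h1 y
      exact g.injective h2
    have hπ : Function.Bijective π := Finite.injective_iff_bijective.mp hπ_inj
    have hterm : ∀ t : ι, g ((rep t : Gq) w) = (rep (π t) : Gq) w := fun t =>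
      (DFunLike.congr_fun (hrep (π t)) ⟨w, hwF⟩).symm
    show g (∑ t : ι, (rep t : Gq) w) = ∑ t : ι, (rep t : Gq) w
    rw [map_sum, Finset.sum_congr rfl fun t _ => hterm t]
    exact hπ.sum_comp (fun t => (rep t : Gq) w)
  have hcong : y₀ - (nD : Qb) * z₀ ∈ lvl A q (N + v) := by
    have h1 : (nD : Qb) * z₀ = ∑ t : ι, if good t then z₀ else 0 := by
      rw [← Finset.sum_filter, Finset.sum_const, nsmul_eq_mul]
    rw [h1, ← Finset.sum_sub_distrib]
    refine lvl_sum_mem _ _ fun t _ => ?_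
    have hz₀A : ∀ τ : Gq, τ z₀ ∈ A := fun τ =>
      DecompLift.mem_of_isIntegral A (map_isIntegral_int τ hmz)
    by_cases ht : good t
    · rw [if_pos ht]
      obtain ⟨d, hd, hdt⟩ := ht
      have h2 : (rep t : Gq) w = d w := DFunLike.congr_fun ((hrep t).trans hdt.symm) ⟨w, hwF⟩
      have h3 : d e * z₀ - z₀ = d (e - 1) * z₀ := by rw [map_sub, map_one]; ring
      rw [h2, hw, map_mul, hz₀fix d hd, h3]
      have hz₀A' : z₀ ∈ A := DecompLift.mem_of_isIntegral A hmz
      exact lvl_mul_mem (decomp_lvl_mem hd.1 he1) hz₀A'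
    · rw [if_neg ht, sub_zero, hw, map_mul]
      rcases hebad (rep t : Gq) (rep t).2 with ⟨d, hd, hdx⟩ | h
      · exfalso
        apply ht
        refine ⟨d, hd, ?_⟩
        rw [← hrep t]
        ext x
        exact hdx x x.2
      · exact lvl_mul_mem h (hz₀A _)
  obtain ⟨c, hc, hceq⟩ := hcong
  refine ⟨y₀ / ((nD : Qb) * (m : Qb)),
    L.div_mem hy₀L (L.mul_mem (natCast_mem L nD) (natCast_mem L m)), ?_⟩
  refine ⟨-(c * ((q : Qb) ^ v / ((nD * m : ℕ) : Qb))), A.neg_mem _ (A.mul_mem _ _ hc hv), ?_⟩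
  have hnD' : (nD : Qb) ≠ 0 := Nat.cast_ne_zero.mpr hnD0
  have hm' : (m : Qb) ≠ 0 := Nat.cast_ne_zero.mpr hm
  have hy₀ : y₀ = (nD : Qb) * ((m : Qb) * z) + (q : Qb) ^ (N + v) * c := by
    rw [← hceq]; ring
  rw [hy₀]
  push_cast
  field_simp
  ring

end density

end Fermat.Agent.CFT.Global.HP.LN
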