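import Fermat.Agent.CFT.Global.HasseNorm.Split
import Fermat.Agent.S55.Glue.PlacesAbove

/-!
# The Hasse norm theorem inside `Qb` (link (CA') of the HP chain)

`Qb := AlgebraicClosure ℚ`, `Gq := Qb ≃ₐ[ℚ] Qb`.  `K ≤ L` intermediate fields of `Qb / ℚ`, `L`
finite over `ℚ`, `L / K` cyclic of prime degree `p`, encoded (as in `HP/LocalNorm.lean`) by an
additive character `χ : Fix K → ZMod p` with kernel `Fix L` and an element `s` with `χ s = 1`.

* `HNTStmt p`: the Hasse norm theorem for Galois extensions of degree `p` of abstract number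
  fields, approximate norms needed only at the nonsplit places (for `p ≠ 2` this is
  `HasseNorm.hasse_norm'`; it is discharged in `HP/NormQbFinal.lean`, to keep the import closure
  of this file small).
* `exists_norm_eq`: if `b ∈ Kˣ` is approximated, at every valuation subring `A` of `Qb` over a
  prime number `q` and to every precision `q ^ N`, by norms `∏_{k<p} s^k y` of nonzero elements
  `y ∈ L`, then `b = ∏_{k<p} s^k y` for some `y ∈ L`.

Dictionary used: `Gal(L/K) ≅ ZMod p` through `χ` (`resL`, `exists_pow_eq`, `pow_injOn`),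
`Algebra.norm = ∏_{k<p} s^k` (`coe_norm`), every finite place of `K` is cut out by a valuation
subring of `Qb` (`S14.Wiring.ValRing.exists_valuationSubring_full`), and
`x / q ^ N ∈ A` for all `N` gives `ApproxNorm` (`valuation_div_sub_one_le`).
-/

set_option autoImplicit false

open scoped NumberField WithZero
open IsDedekindDomain

namespace Fermat.Agent.CFT.Global.HP.NormQb

local notation "Qb" => AlgebraicClosure ℚ
local notation "Gq" => (AlgebraicClosure ℚ ≃ₐ[ℚ] AlgebraicClosure ℚ)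

open Fermat.Agent.CFT.Global.HasseNorm
open Fermat.Agent.S14.Wiring.ValRing

/-- The Hasse norm theorem for cyclic extensions of degree `p` of abstract number fields, in the
form consumed here (approximate norms only needed at the places with one prime above). -/
def HNTStmt (p : ℕ) : Prop :=
  ∀ (K L : Type) [Field K] [NumberField K] [Field L] [NumberField L] [Algebra K L]
    [IsGalois K L], Module.finrank K L = p → ∀ b : K, b ≠ 0 →
    (∀ v : HeightOneSpectrum (𝓞 K), Nonsplit K L v → ApproxNorm K L v b) →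
    ∃ y : L, Algebra.norm K y = b

local instance isAlgebraic_Qb' : Algebra.IsAlgebraic ℚ Qb := AlgebraicClosure.isAlgebraic ℚ

local instance isAlgClosure_K (K : IntermediateField ℚ Qb) : IsAlgClosure ↥K Qb :=
  ⟨inferInstance, Algebra.IsAlgebraic.tower_top (K := ℚ) ↥K⟩

local instance normal_K (K : IntermediateField ℚ Qb) : Normal ↥K Qb :=
  IsAlgClosure.normal ↥K Qb

local instance isAlgClosure_Qb' : IsAlgClosure ℚ Qb := ⟨inferInstance, inferInstance⟩

local instance normal_Qb' : Normal ℚ Qb := IsAlgClosure.normal ℚ Qb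

local instance isGalois_Qb' : IsGalois ℚ Qb := ⟨⟩

section Galois

variable {p : ℕ} [hp : Fact p.Prime] {K L : IntermediateField ℚ Qb}


theorem chi_one (χ : ↥K.fixingSubgroup → ZMod p) (hadd : ∀ g h, χ (g * h) = χ g + χ h) :
    χ 1 = 0 := by
  have h := hadd 1 1
  rw [mul_one] at h
  exact left_eq_add.mp h

theorem chi_inv (χ : ↥K.fixingSubgroup → ZMod p) (hadd : ∀ g h, χ (g * h) = χ g + χ h)
    (g : ↥K.fixingSubgroup) : χ g⁻¹ = -χ g := by
  have h := hadd g⁻¹ g
  rw [inv_mul_cancel, chi_one χ hadd] at h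
  exact eq_neg_of_add_eq_zero_left h.symm

theorem chi_pow (χ : ↥K.fixingSubgroup → ZMod p) (hadd : ∀ g h, χ (g * h) = χ g + χ h)
    (g : ↥K.fixingSubgroup) (k : ℕ) : χ (g ^ k) = k * χ g := by
  induction k with
  | zero => simp [chi_one χ hadd]
  | succ k ih => rw [pow_succ, hadd, ih]; push_cast; ring

/-- `L` is stable under `Gal(Qb/K)` when `Fix L` is the kernel of a character of `Gal(Qb/K)`. -/
theorem apply_mem_of_ker (hKL : K ≤ L) (χ : ↥K.fixingSubgroup → ZMod p)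
    (hadd : ∀ g h, χ (g * h) = χ g + χ h)
    (hker : ∀ g, χ g = 0 ↔ (g : Gq) ∈ L.fixingSubgroup)
    (g : ↥K.fixingSubgroup) {x : Qb} (hx : x ∈ L) : (g : Gq) x ∈ L := by
  rw [← InfiniteGalois.fixedField_fixingSubgroup L, IntermediateField.mem_fixedField_iff]
  intro h hh
  have hhK : h ∈ K.fixingSubgroup := IntermediateField.fixingSubgroup_le hKL hh
  have h1 : χ (g⁻¹ * ⟨h, hhK⟩ * g) = 0 := by
    rw [hadd, hadd, chi_inv χ hadd, (hker ⟨h, hhK⟩).mpr hh]
    ring
  have h2 := (hker _).mp h1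
  have h3 : ((g⁻¹ * ⟨h, hhK⟩ * g : ↥K.fixingSubgroup) : Gq) x = x :=
    (IntermediateField.mem_fixingSubgroup_iff L _).mp h2 x hx
  have h4 : ((g : Gq)⁻¹ * h * (g : Gq)) x = x := h3
  have h5 : (g : Gq) (((g : Gq)⁻¹ * h * (g : Gq)) x) = h ((g : Gq) x) := by
    simp [AlgEquiv.mul_apply]
  rw [← h5, h4]

end Galois

section Tower

variable {p : ℕ} [hp : Fact p.Prime] {K L : IntermediateField ℚ Qb} (hKL : K ≤ L)

/-- `L` as an intermediate field of `Qb / K`. -/
noncomputable abbrev LK : IntermediateField ↥K Qb := IntermediateField.extendScalars hKL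

/-- `L / K` is normal when `Fix L` is the kernel of a character of `Gal(Qb/K)`. -/
theorem normal_LK (χ : ↥K.fixingSubgroup → ZMod p) (hadd : ∀ g h, χ (g * h) = χ g + χ h)
    (hker : ∀ g, χ g = 0 ↔ (g : Gq) ∈ L.fixingSubgroup) : Normal ↥K ↥(LK hKL) := by
  rw [IntermediateField.normal_iff_forall_map_le']
  intro σ y hy
  rw [IntermediateField.mem_map] at hy
  obtain ⟨x, hx, rfl⟩ := hy
  exact apply_mem_of_ker hKL χ hadd hker ((IntermediateField.fixingSubgroupEquiv K).symm σ) hx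

/-- Restriction `Gal(Qb/K) → Gal(L/K)`. -/
noncomputable def resL [Normal ↥K ↥(LK hKL)] :
    ↥K.fixingSubgroup →* (↥(LK hKL) ≃ₐ[↥K] ↥(LK hKL)) :=
  (AlgEquiv.restrictNormalHom ↥(LK hKL)).comp (IntermediateField.fixingSubgroupEquiv K).toMonoidHom

theorem resL_apply [Normal ↥K ↥(LK hKL)] (g : ↥K.fixingSubgroup) (y : ↥(LK hKL)) :
    ((resL hKL g y : ↥(LK hKL)) : Qb) = (g : Gq) (y : Qb) :=
  AlgEquiv.restrictNormal_commutes (IntermediateField.fixingSubgroupEquiv K g) ↥(LK hKL) y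

theorem resL_surjective [Normal ↥K ↥(LK hKL)] : Function.Surjective (resL hKL) := by
  intro τ
  obtain ⟨σ, hσ⟩ := AlgEquiv.restrictNormalHom_surjective (F := ↥K) (K₁ := ↥(LK hKL))
    (E := Qb) τ
  exact ⟨(IntermediateField.fixingSubgroupEquiv K).symm σ, by
    show AlgEquiv.restrictNormalHom ↥(LK hKL)
      ((IntermediateField.fixingSubgroupEquiv K) ((IntermediateField.fixingSubgroupEquiv K).symm σ))
      = τ
    rw [MulEquiv.apply_symm_apply, hσ]⟩

theorem resL_eq_iff [Normal ↥K ↥(LK hKL)] (χ : ↥K.fixingSubgroup → ZMod p)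
    (hadd : ∀ g h, χ (g * h) = χ g + χ h)
    (hker : ∀ g, χ g = 0 ↔ (g : Gq) ∈ L.fixingSubgroup) (g h : ↥K.fixingSubgroup) :
    resL hKL g = resL hKL h ↔ χ g = χ h := by
  have key : χ (g⁻¹ * h) = 0 ↔ χ g = χ h := by
    rw [hadd, chi_inv χ hadd]
    constructor
    · intro h0
      have : χ h = χ g := by linear_combination h0
      exact this.symm
    · intro h0
      rw [h0]; ring
  rw [← key, hker, IntermediateField.mem_fixingSubgroup_iff]
  constructor
  · intro hgh x hx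
    have h1 := congrArg (fun τ : ↥(LK hKL) ≃ₐ[↥K] ↥(LK hKL) =>
      ((τ (⟨x, hx⟩ : ↥(LK hKL)) : ↥(LK hKL)) : Qb)) hgh
    simp only [resL_apply] at h1
    show (g : Gq)⁻¹ ((h : Gq) x) = x
    rw [← h1]
    exact (g : Gq).symm_apply_apply x
  · intro hfix
    apply AlgEquiv.ext
    intro y
    apply Subtype.ext
    rw [resL_apply, resL_apply]
    have h1 : (g : Gq)⁻¹ ((h : Gq) (y : Qb)) = (y : Qb) := hfix (y : Qb) y.2
    calc (g : Gq) (y : Qb) = (g : Gq) ((g : Gq)⁻¹ ((h : Gq) (y : Qb))) := by rw [h1]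
      _ = (h : Gq) (y : Qb) := (g : Gq).apply_symm_apply _

end Tower

section Cyclic

variable {p : ℕ} [hp : Fact p.Prime] {K L : IntermediateField ℚ Qb} (hKL : K ≤ L)
  [Normal ↥K ↥(LK hKL)]
  (χ : ↥K.fixingSubgroup → ZMod p) (hadd : ∀ g h, χ (g * h) = χ g + χ h)
  (hker : ∀ g, χ g = 0 ↔ (g : Gq) ∈ L.fixingSubgroup) (s : ↥K.fixingSubgroup) (hs : χ s = 1)

include hadd hker hs

theorem exists_pow_eq (τ : ↥(LK hKL) ≃ₐ[↥K] ↥(LK hKL)) :
    ∃ k, k < p ∧ (resL hKL s) ^ k = τ := by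
  obtain ⟨g, rfl⟩ := resL_surjective hKL τ
  refine ⟨(χ g).val, ZMod.val_lt _, ?_⟩
  rw [← map_pow, resL_eq_iff hKL χ hadd hker, chi_pow χ hadd, hs, mul_one,
    ZMod.natCast_zmod_val]

theorem pow_injOn :
    Set.InjOn (fun k : ℕ => (resL hKL s) ^ k) (Finset.range p : Set ℕ) := by
  intro k hk j hj hkj
  simp only at hkj
  rw [← map_pow, ← map_pow, resL_eq_iff hKL χ hadd hker, chi_pow χ hadd, chi_pow χ hadd, hs,
    mul_one, mul_one] at hkj
  have h1 := (ZMod.natCast_eq_natCast_iff' k j p).mp hkj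
  rw [Nat.mod_eq_of_lt (Finset.mem_range.mp hk), Nat.mod_eq_of_lt (Finset.mem_range.mp hj)] at h1
  exact h1

theorem image_pow_eq_univ [Fintype (↥(LK hKL) ≃ₐ[↥K] ↥(LK hKL))]
    [DecidableEq (↥(LK hKL) ≃ₐ[↥K] ↥(LK hKL))] :
    (Finset.range p).image (fun k : ℕ => (resL hKL s) ^ k) = Finset.univ := by
  ext τ
  simp only [Finset.mem_image, Finset.mem_range, Finset.mem_univ, iff_true]
  exact exists_pow_eq hKL χ hadd hker s hs τ

theorem card_aut_eq : Nat.card (↥(LK hKL) ≃ₐ[↥K] ↥(LK hKL)) = p := by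
  classical
  have hfin : Finite (↥(LK hKL) ≃ₐ[↥K] ↥(LK hKL)) := by
    refine Finite.of_surjective (fun k : Fin p => (resL hKL s) ^ (k : ℕ)) fun τ => ?_
    obtain ⟨k, hk, rfl⟩ := exists_pow_eq hKL χ hadd hker s hs τ
    exact ⟨⟨k, hk⟩, rfl⟩
  have := Fintype.ofFinite (↥(LK hKL) ≃ₐ[↥K] ↥(LK hKL))
  rw [Nat.card_eq_fintype_card, ← Finset.card_univ, ← image_pow_eq_univ hKL χ hadd hker s hs,
    Finset.card_image_of_injOn (pow_injOn hKL χ hadd hker s hs), Finset.card_range]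

theorem finrank_eq [FiniteDimensional ↥K ↥(LK hKL)] [IsGalois ↥K ↥(LK hKL)] :
    Module.finrank ↥K ↥(LK hKL) = p := by
  rw [← IsGalois.card_aut_eq_finrank, card_aut_eq hKL χ hadd hker s hs]

theorem coe_norm [FiniteDimensional ↥K ↥(LK hKL)] [IsGalois ↥K ↥(LK hKL)] (y : ↥(LK hKL)) :
    ((Algebra.norm ↥K y : ↥K) : Qb) = ∏ k ∈ Finset.range p, ((s : Gq) ^ k) (y : Qb) := by
  classical
  have h := Algebra.norm_eq_prod_automorphisms ↥K y
  have h2 := congrArg (fun z : ↥(LK hKL) => (z : Qb)) h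
  have h3 : ((algebraMap ↥K ↥(LK hKL) (Algebra.norm ↥K y) : ↥(LK hKL)) : Qb) =
      ((Algebra.norm ↥K y : ↥K) : Qb) := rfl
  simp only [h3] at h2
  rw [h2, ← image_pow_eq_univ hKL χ hadd hker s hs,
    Finset.prod_image (pow_injOn hKL χ hadd hker s hs)]
  have h4 : ((∏ k ∈ Finset.range p, ((resL hKL s) ^ k) y : ↥(LK hKL)) : Qb) =
      ∏ k ∈ Finset.range p, ((((resL hKL s) ^ k) y : ↥(LK hKL)) : Qb) :=
    map_prod (LK hKL).val _ _
  rw [h4]
  refine Finset.prod_congr rfl fun k _ => ?_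
  rw [← map_pow, resL_apply]
  rfl

end Cyclic

section Val

/-- `v(ℓ) ≤ exp (-1)` when `ℓ ∈ v`. -/
theorem valuation_natCast_le {F : Type*} [Field F] [NumberField F]
    (v : HeightOneSpectrum (𝓞 F)) (ℓ : ℕ) (h : ((ℓ : ℕ) : 𝓞 F) ∈ v.asIdeal) :
    v.valuation F (ℓ : F) ≤ WithZero.exp (-1 : ℤ) := by
  have h1 : (ℓ : F) = algebraMap (𝓞 F) F ((ℓ : ℕ) : 𝓞 F) := by simp
  rw [h1, HeightOneSpectrum.valuation_of_algebraMap]
  have h2 := (v.intValuation_le_pow_iff_mem ((ℓ : ℕ) : 𝓞 F) 1).mpr (by rwa [pow_one])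
  simpa using h2

/-- A level of approximation adapted to the size of `b`. -/
theorem exists_level (β : ℤᵐ⁰) (hβ : β ≠ 0) (n : ℕ) :
    ∃ N : ℕ, WithZero.exp (-(N : ℤ)) < β ∧ WithZero.exp (-(N : ℤ)) ≤ β * WithZero.exp (-(n : ℤ)) := by
  refine ⟨(max ((n : ℤ) - WithZero.log β) (1 - WithZero.log β)).toNat, ?_, ?_⟩
  · have h1 : (1 - WithZero.log β) ≤
        ((max ((n : ℤ) - WithZero.log β) (1 - WithZero.log β)).toNat : ℤ) :=
      (le_max_right _ _).trans (Int.self_le_toNat _)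
    conv_rhs => rw [← WithZero.exp_log hβ]
    rw [WithZero.exp_lt_exp]
    omega
  · have h1 : ((n : ℤ) - WithZero.log β) ≤
        ((max ((n : ℤ) - WithZero.log β) (1 - WithZero.log β)).toNat : ℤ) :=
      (le_max_left _ _).trans (Int.self_le_toNat _)
    conv_rhs => rw [← WithZero.exp_log hβ]
    rw [← WithZero.exp_add, WithZero.exp_le_exp]
    omega

/-- From an additive approximation of `b` by `c` to the multiplicative one. -/
theorem valuation_div_sub_one_le {F : Type*} [Field F] [NumberField F]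
    (v : HeightOneSpectrum (𝓞 F)) {b c : F} (n : ℕ) {N : ℕ}
    (hN1 : WithZero.exp (-(N : ℤ)) < v.valuation F b)
    (hN2 : WithZero.exp (-(N : ℤ)) ≤ v.valuation F b * WithZero.exp (-(n : ℤ)))
    (h : v.valuation F (b - c) ≤ WithZero.exp (-(N : ℤ))) :
    v.valuation F (b / c - 1) ≤ WithZero.exp (-(n : ℤ)) := by
  have hlt : v.valuation F (b - c) < v.valuation F b := lt_of_le_of_lt h hN1
  have hc : v.valuation F c = v.valuation F b := by
    have h1 : c = b - (b - c) := by ring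
    rw [h1]
    exact Valuation.map_sub_eq_of_lt_left _ hlt
  have hb0 : v.valuation F b ≠ 0 := fun h0 => by
    rw [h0] at hN1
    exact not_lt_zero hN1
  have hc0 : c ≠ 0 := by
    rintro rfl
    rw [map_zero] at hc
    exact hb0 hc.symm
  have h2 : b / c - 1 = (b - c) / c := by
    field_simp
  rw [h2, map_div₀, hc, div_le_iff₀ (zero_lt_iff.mpr hb0), mul_comm]
  exact h.trans hN2

end Val

section Main

variable {p : ℕ} [hp : Fact p.Prime]

/-- The identity ring isomorphism between `L` and `L` viewed over `K`. -/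
noncomputable def eLK {K L : IntermediateField ℚ Qb} (hKL : K ≤ L) : ↥L ≃+* ↥(LK hKL) where
  toFun x := ⟨x.1, x.2⟩
  invFun x := ⟨x.1, x.2⟩
  left_inv _ := rfl
  right_inv _ := rfl
  map_mul' _ _ := rfl
  map_add' _ _ := rfl

/-- **Hasse norm theorem inside `Qb`** (the instantiation of `HNTStmt` at intermediate fields of
`Qb`): `L / K` cyclic of degree `p` cut out by the character `χ` of `Gal(Qb/K)`, `s` with
`χ s = 1`.  If `b ∈ Kˣ` is approximated, at every valuation subring `A` of `Qb` over a prime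
number, by norms `∏_{k<p} s^k y` of elements `y ∈ L`, then `b` is a norm from `L`. -/
theorem exists_norm_eq (hHNT : HNTStmt p) (K L : IntermediateField ℚ Qb) [FiniteDimensional ℚ L]
    (hKL : K ≤ L) (χ : ↥K.fixingSubgroup → ZMod p) (hadd : ∀ g h, χ (g * h) = χ g + χ h)
    (hker : ∀ g, χ g = 0 ↔ (g : Gq) ∈ L.fixingSubgroup) (s : ↥K.fixingSubgroup) (hs : χ s = 1)
    (b : Qb) (hbK : b ∈ K) (hb : b ≠ 0)
    (happ : ∀ q : ℕ, q.Prime → ∀ A : ValuationSubring Qb, A.LiesOverPrime q → ∀ N : ℕ,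
      ∃ y ∈ L, y ≠ 0 ∧ (b - ∏ k ∈ Finset.range p, ((s : Gq) ^ k) y) / (q : Qb) ^ N ∈ A) :
    ∃ y ∈ L, ∏ k ∈ Finset.range p, ((s : Gq) ^ k) y = b := by
  have hfdK : FiniteDimensional ℚ ↥K :=
    FiniteDimensional.of_injective (IntermediateField.inclusion hKL).toLinearMap
      (IntermediateField.inclusion_injective hKL)
  have hnfK : NumberField ↥K := ⟨⟩
  have hnfL : NumberField ↥L := ⟨⟩
  have hnfLK : NumberField ↥(LK hKL) := NumberField.of_ringEquiv ↥L ↥(LK hKL) (eLK hKL)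
  have hnorm : Normal ↥K ↥(LK hKL) := normal_LK hKL χ hadd hker
  have hgal : IsGalois ↥K ↥(LK hKL) := ⟨⟩
  have hb' : (⟨b, hbK⟩ : ↥K) ≠ 0 := fun h => hb (congrArg Subtype.val h)
  have happrox : ∀ v : HeightOneSpectrum (𝓞 ↥K), Nonsplit ↥K ↥(LK hKL) v →
      ApproxNorm ↥K ↥(LK hKL) v ⟨b, hbK⟩ := by
    intro v _
    obtain ⟨ℓ, A, hℓ, hℓv, hAℓ, -, hdict, -, -⟩ := exists_valuationSubring_full K v
    intro n
    have hβ : v.valuation ↥K (⟨b, hbK⟩ : ↥K) ≠ 0 := by
      rw [Ne, map_eq_zero]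
      exact hb'
    obtain ⟨N, hN1, hN2⟩ := exists_level _ hβ n
    obtain ⟨y, hyL, hy0, hyA⟩ := happ ℓ hℓ A hAℓ N
    have hy0' : (⟨y, hyL⟩ : ↥(LK hKL)) ≠ 0 := fun h => hy0 (congrArg Subtype.val h)
    refine ⟨⟨y, hyL⟩, hy0', ?_⟩
    apply valuation_div_sub_one_le v n hN1 hN2
    have hmem : ((((⟨b, hbK⟩ : ↥K) - Algebra.norm ↥K (⟨y, hyL⟩ : ↥(LK hKL))) / (ℓ : ↥K) ^ N :
        ↥K) : Qb) ∈ A := by
      have h1 : ((((⟨b, hbK⟩ : ↥K) - Algebra.norm ↥K (⟨y, hyL⟩ : ↥(LK hKL))) / (ℓ : ↥K) ^ N :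
          ↥K) : Qb) = (b - ∏ k ∈ Finset.range p, ((s : Gq) ^ k) y) / (ℓ : Qb) ^ N := by
        rw [← coe_norm hKL χ hadd hker s hs (⟨y, hyL⟩ : ↥(LK hKL))]
        simp
      rw [h1]
      exact hyA
    have h2 := (hdict _).mp hmem
    rw [map_div₀, map_pow, div_le_one₀ (by
      rw [zero_lt_iff]
      refine pow_ne_zero _ ?_
      rw [Ne, map_eq_zero]
      exact_mod_cast hℓ.ne_zero)] at h2
    refine h2.trans ?_
    calc v.valuation ↥K (ℓ : ↥K) ^ N ≤ WithZero.exp (-1 : ℤ) ^ N :=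
          pow_le_pow_left₀ zero_le' (valuation_natCast_le v ℓ hℓv) N
      _ = WithZero.exp (-(N : ℤ)) := by
          rw [← WithZero.exp_nsmul]
          simp
  obtain ⟨y, hy⟩ := hHNT ↥K ↥(LK hKL) (finrank_eq hKL χ hadd hker s hs) ⟨b, hbK⟩ hb' happrox
  refine ⟨(y : Qb), y.2, ?_⟩
  rw [← coe_norm hKL χ hadd hker s hs y, hy]

end Main

end Fermat.Agent.CFT.Global.HP.NormQb
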