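import Mathlib
import Fermat.Prelude.Def_FLTPrelim_Ramification
import Fermat.Agent.Lib.DecompLift
import Fermat.Agent.Lib.ValFrac

/-!
# Density of a number field in its decomposition field

`Qb = AlgebraicClosure ℚ`, `A` a valuation subring of `Qb` lying over the prime `q`, `L` a finite
extension of `ℚ` inside `Qb`.  If `z : Qb` is fixed by every element of the decomposition group of
`A` fixing `L` (i.e. `z` lies in the decomposition field = henselisation of `L` at `A`), then `z`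
can be approximated `A`-adically by elements of `L`:

  `∀ N, ∃ y ∈ L, (z - y) / q ^ N ∈ A`     (`exists_approx_of_fixed`).

No completions, no `HeightOneSpectrum`.  Side lemmas of independent use:
* `exists_pow_val_le`       : an algebraic integer in the maximal ideal of `A` has a power
                              divisible by `q` (rank one);
* `exists_pow_sub_one_lt`   : an algebraic integer which is a unit of `A` has finite order in the
                              residue field.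
-/

set_option autoImplicit false

open scoped Pointwise IntermediateField

namespace Fermat.Agent.CFT.Global.HP.DenseHensel

open Fermat.Agent.Lib

local notation "Qb" => AlgebraicClosure ℚ
local notation "Gq" => (AlgebraicClosure ℚ ≃ₐ[ℚ] AlgebraicClosure ℚ)

section Val

variable (A : ValuationSubring Qb)

theorem val_le_one_of_integral {x : Qb} (hx : IsIntegral ℤ x) : A.valuation x ≤ 1 :=
  DecompLift.val_le_one_of_isIntegral A hx

theorem val_ne_zero_of_ne_zero {x : Qb} (hx : x ≠ 0) : A.valuation x ≠ 0 :=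
  (A.valuation.ne_zero_iff).mpr hx

/-- **Rank one.** An algebraic integer in the maximal ideal of `A` has a power divisible
by `q`. -/
theorem exists_pow_val_le {q : ℕ} (hq : q.Prime) (hA : (q : Qb) ∈ A.nonunits)
    (t : Qb) (ht : IsIntegral ℤ t) (htA : A.valuation t < 1) :
    ∃ k : ℕ, 0 < k ∧ A.valuation t ^ k ≤ A.valuation (q : Qb) := by
  classical
  have hvq : A.valuation (q : Qb) < 1 := A.mem_nonunits_iff.mp hA
  by_cases ht0 : t = 0
  · exact ⟨1, one_pos, by rw [ht0, map_zero, pow_one]; exact zero_le⟩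
  set f := minpoly ℤ t with hf
  have hmonic : f.Monic := minpoly.monic ht
  have hroot : Polynomial.aeval t f = 0 := minpoly.aeval ℤ t
  set n := f.natDegree with hn
  have hex : ∃ j, ¬ ((q : ℤ) ∣ f.coeff j) := by
    refine ⟨n, ?_⟩
    rw [hn, Polynomial.Monic.coeff_natDegree hmonic]
    intro h
    have h2 := Int.natAbs_dvd_natAbs.mpr h
    simp only [Int.natAbs_natCast, Int.natAbs_one, Nat.dvd_one] at h2
    exact hq.one_lt.ne' h2
  set j := Nat.find hex with hj
  have hjspec : ¬ ((q : ℤ) ∣ f.coeff j) := Nat.find_spec hex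
  have hjmin : ∀ i, i < j → (q : ℤ) ∣ f.coeff i := fun i hi => by
    by_contra h
    exact Nat.find_min hex hi h
  have hjn : j ≤ n := Nat.find_min' hex (by
    rw [hn, Polynomial.Monic.coeff_natDegree hmonic]
    intro h
    have h2 := Int.natAbs_dvd_natAbs.mpr h
    simp only [Int.natAbs_natCast, Int.natAbs_one, Nat.dvd_one] at h2
    exact hq.one_lt.ne' h2)
  -- the relation
  have hsum : ∑ i ∈ Finset.range (n + 1), (f.coeff i : Qb) * t ^ i = 0 := by
    have := hroot
    rw [Polynomial.aeval_eq_sum_range] at this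
    simpa [zsmul_eq_mul] using this
  have hvt1 : A.valuation t ≤ 1 := htA.le
  have hvint : ∀ c : ℤ, A.valuation (c : Qb) ≤ 1 := fun c =>
    (A.valuation_le_one_iff _).mpr (intCast_mem A c)
  -- split the sum
  have hsplit : (f.coeff j : Qb) * t ^ j =
      - (∑ i ∈ Finset.range j, (f.coeff i : Qb) * t ^ i)
      - ∑ i ∈ Finset.Ico (j + 1) (n + 1), (f.coeff i : Qb) * t ^ i := by
    have h1 : ∑ i ∈ Finset.range (n + 1), (f.coeff i : Qb) * t ^ i =
        ∑ i ∈ Finset.range j, (f.coeff i : Qb) * t ^ i +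
          ((f.coeff j : Qb) * t ^ j + ∑ i ∈ Finset.Ico (j + 1) (n + 1), (f.coeff i : Qb) * t ^ i) := by
      rw [← Finset.sum_range_add_sum_Ico _ (by omega : j ≤ n + 1),
        Finset.sum_eq_sum_Ico_succ_bot (by omega : j < n + 1)]
    rw [h1] at hsum
    linear_combination hsum
  have hlow : A.valuation (∑ i ∈ Finset.range j, (f.coeff i : Qb) * t ^ i) ≤
      A.valuation (q : Qb) := by
    refine A.valuation.map_sum_le fun i hi => ?_
    obtain ⟨b, hb⟩ := hjmin i (Finset.mem_range.mp hi)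
    rw [hb]
    push_cast
    rw [map_mul, map_mul, map_pow]
    calc A.valuation (q : Qb) * A.valuation (b : Qb) * A.valuation t ^ i
        ≤ A.valuation (q : Qb) * 1 * 1 :=
          mul_le_mul' (mul_le_mul' le_rfl (hvint b)) (pow_le_one' hvt1 i)
      _ = A.valuation (q : Qb) := by rw [mul_one, mul_one]
  have hhigh : A.valuation (∑ i ∈ Finset.Ico (j + 1) (n + 1), (f.coeff i : Qb) * t ^ i) ≤
      A.valuation t ^ (j + 1) := by
    refine A.valuation.map_sum_le fun i hi => ?_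
    have hi' : j + 1 ≤ i := (Finset.mem_Ico.mp hi).1
    rw [map_mul, map_pow]
    calc A.valuation (f.coeff i : Qb) * A.valuation t ^ i
        ≤ 1 * A.valuation t ^ (j + 1) :=
          mul_le_mul' (hvint _) (pow_le_pow_right_of_le_one' hvt1 hi')
      _ = A.valuation t ^ (j + 1) := one_mul _
  have hvj : A.valuation ((f.coeff j : Qb) * t ^ j) = A.valuation t ^ j := by
    rw [map_mul, map_pow, ValFrac.valuation_intCast_eq_one A q hq hA _ hjspec, one_mul]
  have hmax : A.valuation t ^ j ≤ max (A.valuation (q : Qb)) (A.valuation t ^ (j + 1)) := by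
    rw [← hvj, hsplit]
    refine le_trans (A.valuation.map_sub _ _) ?_
    rw [Valuation.map_neg]
    exact max_le_max hlow hhigh
  have hvt0 : A.valuation t ≠ 0 := val_ne_zero_of_ne_zero A ht0
  have hlt : A.valuation t ^ (j + 1) < A.valuation t ^ j := by
    rw [pow_succ]
    calc A.valuation t ^ j * A.valuation t < A.valuation t ^ j * 1 := by
          exact mul_lt_mul_of_pos_left htA (pow_pos (zero_lt_iff.mpr hvt0) j)
      _ = A.valuation t ^ j := mul_one _
  have hfin : A.valuation t ^ j ≤ A.valuation (q : Qb) := by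
    rcases le_max_iff.mp hmax with h | h
    · exact h
    · exact absurd h (not_le.mpr hlt)
  refine ⟨j, ?_, hfin⟩
  rcases Nat.eq_zero_or_pos j with h0 | h0
  · rw [h0, pow_zero] at hfin
    exact absurd hfin (not_le.mpr hvq)
  · exact h0

theorem val_intCast_le_one (c : ℤ) : A.valuation (c : Qb) ≤ 1 :=
  (A.valuation_le_one_iff _).mpr (intCast_mem A c)

/-- `v(1 - x ^ n) ≤ v(1 - x)` for `x ∈ A`. -/
theorem val_one_sub_pow_le {x : Qb} (hx : A.valuation x ≤ 1) (n : ℕ) :
    A.valuation (1 - x ^ n) ≤ A.valuation (1 - x) := by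
  rw [← mul_neg_geom_sum x n, map_mul]
  have h : A.valuation (∑ i ∈ Finset.range n, x ^ i) ≤ 1 :=
    A.valuation.map_sum_le fun i _ => by rw [map_pow]; exact pow_le_one' hx i
  exact mul_le_of_le_one_right' h

/-- The decomposition group preserves `A`. -/
theorem map_mem_of_mem_decomp {σ : Gq} (hσ : σ ∈ A.decompositionSubgroup ℚ) {x : Qb}
    (hx : x ∈ A) : σ x ∈ A := by
  have h1 : σ • x ∈ σ • A := ValuationSubring.smul_mem_pointwise_smul _ x A hx
  have h2 : σ • A = A := hσ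
  rw [h2] at h1
  exact h1

/-- A nonzero natural number is, up to a unit of `A`, a power of `q`. -/
theorem exists_pow_le_val_natCast {q : ℕ} (hq : q.Prime) (hA : (q : Qb) ∈ A.nonunits)
    (n : ℕ) (hn : n ≠ 0) : ∃ c : ℕ, A.valuation (q : Qb) ^ c ≤ A.valuation (n : Qb) := by
  obtain ⟨c, n', hn', rfl⟩ := Nat.exists_eq_pow_mul_and_not_dvd hn q hq.ne_one
  refine ⟨c, ?_⟩
  have h1 : A.valuation (((n' : ℤ) : Qb)) = 1 :=
    ValFrac.valuation_intCast_eq_one A q hq hA (n' : ℤ) (by exact_mod_cast hn')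
  rw [Int.cast_natCast] at h1
  rw [Nat.cast_mul, Nat.cast_pow, map_mul, map_pow, h1, mul_one]

/-- **Finite residue order.** An algebraic integer which is a unit of `A` has a power congruent
to `1` modulo the maximal ideal of `A`. -/
theorem exists_pow_sub_one_lt {q : ℕ} (hq : q.Prime) (hA : (q : Qb) ∈ A.nonunits)
    (y : Qb) (hy : IsIntegral ℤ y) (hyA : ¬ A.valuation y < 1) :
    ∃ m : ℕ, 0 < m ∧ A.valuation (y ^ m - 1) < 1 := by
  classical
  have hvq : A.valuation (q : Qb) < 1 := A.mem_nonunits_iff.mp hA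
  have hvy : A.valuation y = 1 := le_antisymm (val_le_one_of_integral A hy) (not_lt.mp hyA)
  obtain ⟨n, s, hs⟩ := Submodule.fg_iff_exists_fin_generating_family.mp hy.fg_adjoin_singleton
  have hle : Algebra.adjoin ℤ {y} ≤ integralClosure ℤ Qb :=
    Algebra.adjoin_le (by rintro _ rfl; exact hy)
  have hsint : ∀ k, IsIntegral ℤ (s k) := by
    intro k
    have hk : s k ∈ Subalgebra.toSubmodule (Algebra.adjoin ℤ {y}) := by
      rw [← hs]; exact Submodule.subset_span ⟨k, rfl⟩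
    exact hle hk
  have hpow : ∀ i : ℕ, ∃ c : Fin n → ℤ, ∑ k, c k • s k = y ^ i := by
    intro i
    have hi : y ^ i ∈ Subalgebra.toSubmodule (Algebra.adjoin ℤ {y}) :=
      pow_mem (Algebra.self_mem_adjoin_singleton ℤ y) i
    rw [← hs] at hi
    exact (Submodule.mem_span_range_iff_exists_fun ℤ).mp hi
  choose c hc using hpow
  have : NeZero q := ⟨hq.ne_zero⟩
  have key : ∀ i j : ℕ, (fun k : Fin n => ((c i k : ℤ) : ZMod q)) =
      (fun k : Fin n => ((c j k : ℤ) : ZMod q)) → A.valuation (y ^ i - y ^ j) < 1 := by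
    intro i j h
    rw [← hc i, ← hc j, ← Finset.sum_sub_distrib]
    refine lt_of_le_of_lt (A.valuation.map_sum_le (g := A.valuation (q : Qb)) fun k _ => ?_) hvq
    have hk : ((c i k : ℤ) : ZMod q) = ((c j k : ℤ) : ZMod q) := congrFun h k
    obtain ⟨d, hd⟩ := (ZMod.intCast_eq_intCast_iff_dvd_sub _ _ q).mp hk
    have hd' : ((c j k : ℤ) : Qb) - (c i k : Qb) = (q : Qb) * (d : Qb) := by
      exact_mod_cast congrArg (Int.cast : ℤ → Qb) hd
    have h3 : c i k • s k - c j k • s k = -((q : Qb) * (d : Qb) * s k) := by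
      rw [zsmul_eq_mul, zsmul_eq_mul]
      linear_combination (-(s k)) * hd'
    rw [h3, Valuation.map_neg, map_mul, map_mul]
    calc A.valuation (q : Qb) * A.valuation (d : Qb) * A.valuation (s k)
        ≤ A.valuation (q : Qb) * 1 * 1 :=
          mul_le_mul' (mul_le_mul' le_rfl (val_intCast_le_one A d))
            (val_le_one_of_integral A (hsint k))
      _ = A.valuation (q : Qb) := by rw [mul_one, mul_one]
  have fin : ∀ i j : ℕ, i < j → A.valuation (y ^ j - y ^ i) < 1 →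
      ∃ m : ℕ, 0 < m ∧ A.valuation (y ^ m - 1) < 1 := by
    intro i j hij h
    refine ⟨j - i, Nat.sub_pos_of_lt hij, ?_⟩
    have h4 : y ^ j - y ^ i = y ^ i * (y ^ (j - i) - 1) := by
      rw [mul_sub, ← pow_add, Nat.add_sub_cancel' hij.le, mul_one]
    rw [h4, map_mul, map_pow, hvy, one_pow, one_mul] at h
    exact h
  obtain ⟨i, j, hij, hfij⟩ := Finite.exists_ne_map_eq_of_infinite
    (fun i : ℕ => fun k : Fin n => ((c i k : ℤ) : ZMod q))
  rcases lt_or_gt_of_ne hij with h | h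
  · exact fin i j h (key j i hfij.symm)
  · exact fin j i h (key i j hfij)

/-- **Separation.** If `τ` moves the prime of `A` at the algebraic integer `x ∈ F`, there is an
algebraic integer `a ∈ F` with `a ≡ 1` and `τ a ≡ 0` modulo `q ^ M` in `A`. -/
theorem exists_sep {q : ℕ} (hq : q.Prime) (hA : (q : Qb) ∈ A.nonunits)
    (F : IntermediateField ℚ Qb) (τ : Gq) (x : Qb) (hxF : x ∈ F) (hx : IsIntegral ℤ x)
    (hsep : ¬ (x ∈ A.nonunits ↔ τ x ∈ A.nonunits)) (M : ℕ) :
    ∃ a ∈ F, IsIntegral ℤ a ∧ A.valuation (a - 1) ≤ A.valuation (q : Qb) ^ M ∧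
      A.valuation (τ a) ≤ A.valuation (q : Qb) ^ M := by
  -- first a separating element modulo the maximal ideal
  have stepA : ∃ w ∈ F, IsIntegral ℤ w ∧ A.valuation (1 - w) < 1 ∧ A.valuation (τ w) < 1 := by
    rw [A.mem_nonunits_iff, A.mem_nonunits_iff] at hsep
    by_cases h1 : A.valuation x < 1
    · have h2 : ¬ A.valuation (τ x) < 1 := fun h => hsep ⟨fun _ => h, fun _ => h1⟩
      obtain ⟨m, hm, hm1⟩ := exists_pow_sub_one_lt A hq hA (τ x) (map_isIntegral_int τ hx) h2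
      refine ⟨1 - x ^ m, sub_mem (one_mem F) (pow_mem hxF m), isIntegral_one.sub (hx.pow m),
        ?_, ?_⟩
      · rw [sub_sub_cancel, map_pow]
        exact pow_lt_one' h1 hm.ne'
      · rw [map_sub, map_one, map_pow, ← Valuation.map_neg, neg_sub]
        exact hm1
    · have h2 : A.valuation (τ x) < 1 := by
        by_contra h
        exact hsep ⟨fun h' => absurd h' h1, fun h' => absurd h' h⟩
      obtain ⟨m, hm, hm1⟩ := exists_pow_sub_one_lt A hq hA x hx h1
      refine ⟨x ^ m, pow_mem hxF m, hx.pow m, ?_, ?_⟩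
      · rw [← Valuation.map_neg, neg_sub]
        exact hm1
      · rw [map_pow, map_pow]
        exact pow_lt_one' h2 hm.ne'
  obtain ⟨w, hwF, hw, hw1, hw2⟩ := stepA
  obtain ⟨k₁, -, hk₁⟩ := exists_pow_val_le A hq hA (1 - w) (isIntegral_one.sub hw) hw1
  obtain ⟨k₂, -, hk₂⟩ := exists_pow_val_le A hq hA (τ w) (map_isIntegral_int τ hw) hw2
  have hτw : IsIntegral ℤ (τ w) := map_isIntegral_int τ hw
  set K := (k₁ + k₂) * M with hK
  have hK1 : k₁ * M ≤ K := Nat.mul_le_mul_right M (Nat.le_add_right k₁ k₂)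
  have hK2 : k₂ * M ≤ K := Nat.mul_le_mul_right M (Nat.le_add_left k₂ k₁)
  refine ⟨1 - (1 - w ^ K) ^ K, sub_mem (one_mem F) (pow_mem (sub_mem (one_mem F) (pow_mem hwF K)) K),
    isIntegral_one.sub ((isIntegral_one.sub (hw.pow K)).pow K), ?_, ?_⟩
  · have h3 : 1 - (1 - w ^ K) ^ K - 1 = -((1 - w ^ K) ^ K) := by ring
    rw [h3, Valuation.map_neg, map_pow]
    calc A.valuation (1 - w ^ K) ^ K ≤ A.valuation (1 - w) ^ K :=
          pow_le_pow_left' (val_one_sub_pow_le A (val_le_one_of_integral A hw) K) K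
      _ ≤ A.valuation (1 - w) ^ (k₁ * M) := pow_le_pow_right_of_le_one' hw1.le hK1
      _ = (A.valuation (1 - w) ^ k₁) ^ M := pow_mul _ _ _
      _ ≤ A.valuation (q : Qb) ^ M := pow_le_pow_left' hk₁ M
  · have h3 : τ (1 - (1 - w ^ K) ^ K) = 1 - (1 - (τ w) ^ K) ^ K := by
      simp only [map_sub, map_one, map_pow]
    rw [h3]
    calc A.valuation (1 - (1 - (τ w) ^ K) ^ K) ≤ A.valuation (1 - (1 - (τ w) ^ K)) :=
          val_one_sub_pow_le A
            (val_le_one_of_integral A (isIntegral_one.sub (hτw.pow K))) K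
      _ = A.valuation (τ w) ^ K := by rw [sub_sub_cancel, map_pow]
      _ ≤ A.valuation (τ w) ^ (k₂ * M) := pow_le_pow_right_of_le_one' hw2.le hK2
      _ = (A.valuation (τ w) ^ k₂) ^ M := pow_mul _ _ _
      _ ≤ A.valuation (q : Qb) ^ M := pow_le_pow_left' hk₂ M

theorem prod_le_of_le_one {ι : Type*} [DecidableEq ι] (s : Finset ι) (f : ι → A.ValueGroup)
    (hf : ∀ i ∈ s, f i ≤ 1) {i₀ : ι} (h₀ : i₀ ∈ s) : ∏ i ∈ s, f i ≤ f i₀ := by
  rw [← Finset.mul_prod_erase s f h₀]
  exact mul_le_of_le_one_right' (Finset.prod_le_one' fun i hi => hf i (Finset.mem_of_mem_erase hi))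

end Val

section Main

attribute [local instance] Fermat.Agent.Lib.FrobProfinite.isAlgebraic_Qb
  Fermat.Agent.Lib.FrobProfinite.isAlgClosure_Qb

/-- Approximation inside a given finite Galois field `F ⊇ L(z)`. -/
theorem exists_approx_aux (F : IntermediateField ℚ Qb) [Normal ℚ F] [FiniteDimensional ℚ F]
    (L : IntermediateField ℚ Qb) (hLF : L ≤ F)
    (A : ValuationSubring Qb) {q : ℕ} (hq : q.Prime) (hA : A.LiesOverPrime q) (z : Qb)
    (hzF : z ∈ F)
    (hz : ∀ σ : Gq, σ ∈ A.decompositionSubgroup ℚ → σ ∈ L.fixingSubgroup → σ z = z) (N : ℕ) :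
    ∃ y ∈ L, (z - y) / (q : Qb) ^ N ∈ A := by
  classical
  have hA' : (q : Qb) ∈ A.nonunits := hA
  have hq0 : (q : Qb) ≠ 0 := Nat.cast_ne_zero.mpr hq.ne_zero
  have hvq0 : A.valuation (q : Qb) ≠ 0 := val_ne_zero_of_ne_zero A hq0
  have hvqpos : ∀ n : ℕ, 0 < A.valuation (q : Qb) ^ n := fun n =>
    pow_pos (zero_lt_iff.mpr hvq0) n
  obtain ⟨r, hr⟩ : ∃ r : Gq →* (F ≃ₐ[ℚ] F), ∀ (σ : Gq) (x : F), ((r σ x : F) : Qb) = σ x :=
    ⟨AlgEquiv.restrictNormalHom F, fun σ x => AlgEquiv.restrictNormal_commutes σ F x⟩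
  obtain ⟨H, hH⟩ : ∃ H : Subgroup (F ≃ₐ[ℚ] F), ∀ g : F ≃ₐ[ℚ] F, g ∈ H ↔
      ∃ τ : Gq, τ ∈ L.fixingSubgroup ∧ r τ = g :=
    ⟨L.fixingSubgroup.map r, fun g => Subgroup.mem_map⟩
  have hHlift : ∀ γ : H, ∃ τ : Gq, τ ∈ L.fixingSubgroup ∧ r τ = γ.1 := fun γ => (hH γ.1).mp γ.2
  have hHmem : ∀ σ : Gq, σ ∈ L.fixingSubgroup → r σ ∈ H := fun σ hσ => (hH _).mpr ⟨σ, hσ, rfl⟩
  have : Fintype H := Fintype.ofFinite H
  obtain ⟨I, hI⟩ : ∃ I : H → Prop, ∀ γ : H, I γ ↔
      ∃ δ : Gq, δ ∈ A.decompositionSubgroup ℚ ∧ δ ∈ L.fixingSubgroup ∧ r δ = γ.1 :=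
    ⟨_, fun _ => Iff.rfl⟩
  have hint : ∀ (γ : H) (b : F), IsIntegral ℤ (b : Qb) → IsIntegral ℤ ((γ.1 b : F) : Qb) := by
    intro γ b hb
    obtain ⟨τ, -, hτγ⟩ := hHlift γ
    rw [← hτγ, hr]
    exact map_isIntegral_int τ hb
  -- an integer multiple of `z` which is integral
  obtain ⟨m, hm0, hmz⟩ := (DecompLift.isAlgebraic_int z).exists_integral_multiple
  rw [zsmul_eq_mul] at hmz
  -- the number of automorphisms coming from the decomposition group
  obtain ⟨d, hd⟩ : ∃ d : ℕ, d = (Finset.univ.filter I).card := ⟨_, rfl⟩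
  have hd0 : d ≠ 0 := by
    have h1 : (1 : H) ∈ Finset.univ.filter I := by
      rw [Finset.mem_filter]
      exact ⟨Finset.mem_univ _, (hI 1).mpr ⟨1, one_mem _, one_mem _, map_one r⟩⟩
    rw [hd]
    exact Finset.card_ne_zero_of_mem h1
  obtain ⟨c, hc⟩ := exists_pow_le_val_natCast A hq hA' (m.natAbs * d)
    (Nat.mul_ne_zero (Int.natAbs_ne_zero.mpr hm0) hd0)
  obtain ⟨M, hM⟩ : ∃ M : ℕ, M = N + c := ⟨_, rfl⟩
  -- separating elements
  have hsepγ : ∀ γ : H, ¬ I γ → ∃ a : F, IsIntegral ℤ (a : Qb) ∧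
      A.valuation ((a : Qb) - 1) ≤ A.valuation (q : Qb) ^ M ∧
      A.valuation (((γ.1 a : F) : Qb)) ≤ A.valuation (q : Qb) ^ M := by
    intro γ hγ
    obtain ⟨τ, hτL, hτγ⟩ := hHlift γ
    have hex : ∃ x ∈ F, IsIntegral ℤ x ∧ ¬ (x ∈ A.nonunits ↔ τ x ∈ A.nonunits) := by
      by_contra hcon
      push Not at hcon
      obtain ⟨σ, hσD, hσF⟩ := DecompLift.exists_decomp_lift F A hq hA τ
        (fun x hx hxi => hcon x hx hxi)
      refine hγ ((hI γ).mpr ⟨σ, hσD, ?_, ?_⟩)
      · rw [IntermediateField.mem_fixingSubgroup_iff]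
        intro x hx
        rw [hσF x (hLF hx)]
        exact (IntermediateField.mem_fixingSubgroup_iff L τ).mp hτL x hx
      · rw [← hτγ]
        ext x
        rw [hr, hr]
        exact hσF x x.2
    obtain ⟨x, hxF, hxi, hsep⟩ := hex
    obtain ⟨a, haF, hai, ha1, ha2⟩ := exists_sep A hq hA' F τ x hxF hxi hsep M
    refine ⟨⟨a, haF⟩, hai, ha1, ?_⟩
    rw [← hτγ, hr]
    exact ha2
  choose! a hai ha1 ha2 using hsepγ
  obtain ⟨S₂, hS₂⟩ : ∃ S₂ : Finset H, S₂ = Finset.univ.filter (fun γ => ¬ I γ) := ⟨_, rfl⟩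
  have hS₂mem : ∀ γ : H, γ ∈ S₂ ↔ ¬ I γ := by
    intro γ
    rw [hS₂, Finset.mem_filter]
    exact ⟨fun h => h.2, fun h => ⟨Finset.mem_univ _, h⟩⟩
  obtain ⟨e, he⟩ : ∃ e : F, e = ∏ γ ∈ S₂, a γ := ⟨_, rfl⟩
  have hprod : IsIntegral ℤ (e : Qb) ∧
      A.valuation ((e : Qb) - 1) ≤ A.valuation (q : Qb) ^ M := by
    rw [he]
    refine Finset.prod_induction a (fun b : F => IsIntegral ℤ (b : Qb) ∧
      A.valuation ((b : Qb) - 1) ≤ A.valuation (q : Qb) ^ M) ?_ ?_ ?_
    · rintro b₁ b₂ ⟨h1, h1'⟩ ⟨h2, h2'⟩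
      refine ⟨?_, ?_⟩
      · show IsIntegral ℤ ((b₁ : Qb) * (b₂ : Qb))
        exact h1.mul h2
      · show A.valuation ((b₁ : Qb) * (b₂ : Qb) - 1) ≤ _
        have h3 : (b₁ : Qb) * (b₂ : Qb) - 1 = (b₁ : Qb) * ((b₂ : Qb) - 1) + ((b₁ : Qb) - 1) := by
          ring
        rw [h3]
        refine le_trans (A.valuation.map_add _ _) (max_le ?_ h1')
        rw [map_mul]
        calc A.valuation (b₁ : Qb) * A.valuation ((b₂ : Qb) - 1)
            ≤ 1 * A.valuation (q : Qb) ^ M := mul_le_mul' (val_le_one_of_integral A h1) h2'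
          _ = A.valuation (q : Qb) ^ M := one_mul _
    · refine ⟨?_, ?_⟩
      · show IsIntegral ℤ (1 : Qb)
        exact isIntegral_one
      · show A.valuation ((1 : Qb) - 1) ≤ _
        rw [sub_self, map_zero]
        exact zero_le
    · intro γ hγ
      exact ⟨hai γ ((hS₂mem γ).mp hγ), ha1 γ ((hS₂mem γ).mp hγ)⟩
  obtain ⟨hei, he1⟩ := hprod
  have he2 : ∀ γ₀ : H, ¬ I γ₀ →
      A.valuation (((γ₀.1 e : F) : Qb)) ≤ A.valuation (q : Qb) ^ M := by
    intro γ₀ hγ₀
    have h1 : ((γ₀.1 e : F) : Qb) = ∏ γ ∈ S₂, ((γ₀.1 (a γ) : F) : Qb) := by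
      rw [he]
      show F.val (γ₀.1 (∏ γ ∈ S₂, a γ)) = ∏ γ ∈ S₂, F.val (γ₀.1 (a γ))
      rw [map_prod, map_prod]
    rw [h1, map_prod]
    refine le_trans (prod_le_of_le_one A S₂ _ (fun γ hγ => ?_) ((hS₂mem γ₀).mpr hγ₀)) (ha2 γ₀ hγ₀)
    exact val_le_one_of_integral A (hint γ₀ (a γ) (hai γ ((hS₂mem γ).mp hγ)))
  have he3 : ∀ δ : Gq, δ ∈ A.decompositionSubgroup ℚ →
      A.valuation (δ (e : Qb) - 1) ≤ A.valuation (q : Qb) ^ M := by
    intro δ hδ
    have h1 : ((e : Qb) - 1) / (q : Qb) ^ M ∈ A := by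
      refine (A.valuation_le_one_iff _).mp ?_
      rw [map_div₀, map_pow]
      exact (div_le_one₀ (hvqpos M)).mpr he1
    have h2 := map_mem_of_mem_decomp A hδ h1
    rw [map_div₀, map_sub, map_one, map_pow, map_natCast] at h2
    have h3 := (A.valuation_le_one_iff _).mpr h2
    rw [map_div₀, map_pow] at h3
    exact (div_le_one₀ (hvqpos M)).mp h3
  -- the averaged trace
  obtain ⟨x₀, hx₀⟩ : ∃ x₀ : F, x₀ = e * ⟨z, hzF⟩ := ⟨_, rfl⟩
  obtain ⟨S, hS⟩ : ∃ S : Qb, S = ∑ γ : H, ((γ.1 x₀ : F) : Qb) := ⟨_, rfl⟩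
  have hSfix : ∀ σ : Gq, σ ∈ L.fixingSubgroup → σ S = S := by
    intro σ hσ
    rw [hS, map_sum,
      ← Equiv.sum_comp (Equiv.mulLeft (⟨r σ, hHmem σ hσ⟩ : H)) (fun γ : H => ((γ.1 x₀ : F) : Qb))]
    refine Finset.sum_congr rfl fun γ _ => ?_
    rw [← hr σ (γ.1 x₀)]
    rfl
  have hSL : S ∈ L := by
    obtain ⟨l, hl⟩ := (InfiniteGalois.mem_range_algebraMap_iff_fixed (k := L) (K := Qb) S).mpr
      (fun f => hSfix (f.restrictScalars ℚ) (by
        rw [IntermediateField.mem_fixingSubgroup_iff]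
        intro x hx
        exact f.commutes ⟨x, hx⟩))
    rw [← hl]
    exact l.2
  have hdQ : (d : Qb) ≠ 0 := Nat.cast_ne_zero.mpr hd0
  refine ⟨S / d, div_mem hSL (natCast_mem L d), ?_⟩
  -- the estimate
  have hsum : (d : Qb) * z - S = ∑ γ : H, ((if I γ then z else 0) - ((γ.1 x₀ : F) : Qb)) := by
    rw [Finset.sum_sub_distrib, ← Finset.sum_filter, Finset.sum_const, nsmul_eq_mul, ← hd, ← hS]
  have hterm : ∀ γ : H, A.valuation ((m : Qb) * ((if I γ then z else 0) - ((γ.1 x₀ : F) : Qb))) ≤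
      A.valuation (q : Qb) ^ M := by
    intro γ
    have hx₀' : ((γ.1 x₀ : F) : Qb) = ((γ.1 e : F) : Qb) * ((γ.1 ⟨z, hzF⟩ : F) : Qb) := by
      rw [hx₀, map_mul]
      rfl
    by_cases hγ : I γ
    · rw [if_pos hγ, hx₀']
      obtain ⟨δ, hδD, hδL, hδγ⟩ := (hI γ).mp hγ
      rw [← hδγ, hr, hr]
      show A.valuation ((m : Qb) * (z - δ (e : Qb) * δ z)) ≤ _
      rw [hz δ hδD hδL]
      have h4 : (m : Qb) * (z - δ (e : Qb) * z) = -((δ (e : Qb) - 1) * ((m : Qb) * z)) := by ring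
      rw [h4, Valuation.map_neg, map_mul]
      calc A.valuation (δ (e : Qb) - 1) * A.valuation ((m : Qb) * z)
          ≤ A.valuation (q : Qb) ^ M * 1 :=
            mul_le_mul' (he3 δ hδD) (val_le_one_of_integral A hmz)
        _ = A.valuation (q : Qb) ^ M := mul_one _
    · rw [if_neg hγ, hx₀', zero_sub, mul_neg, Valuation.map_neg]
      obtain ⟨τ, -, hτγ⟩ := hHlift γ
      have h6 : ((γ.1 ⟨z, hzF⟩ : F) : Qb) = τ z := by
        rw [← hτγ, hr]
      have h7 : (m : Qb) * (((γ.1 e : F) : Qb) * τ z) = ((γ.1 e : F) : Qb) * τ ((m : Qb) * z) := by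
        rw [map_mul, map_intCast]
        ring
      rw [h6, h7, map_mul]
      calc A.valuation (((γ.1 e : F) : Qb)) * A.valuation (τ ((m : Qb) * z))
          ≤ A.valuation (q : Qb) ^ M * 1 :=
            mul_le_mul' (he2 γ hγ) (val_le_one_of_integral A (map_isIntegral_int τ hmz))
        _ = A.valuation (q : Qb) ^ M := mul_one _
  have hbig : A.valuation ((m : Qb) * ((d : Qb) * z - S)) ≤ A.valuation (q : Qb) ^ M := by
    rw [hsum, Finset.mul_sum]
    exact A.valuation.map_sum_le fun γ _ => hterm γ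
  have hzy : (m : Qb) * ((d : Qb) * z - S) = ((m : Qb) * (d : Qb)) * (z - S / d) := by
    field_simp
  have hvm : A.valuation (m : Qb) = A.valuation ((m.natAbs : ℕ) : Qb) := by
    rcases Int.natAbs_eq m with h | h
    · conv_lhs => rw [h, Int.cast_natCast]
    · conv_lhs => rw [h, Int.cast_neg, Valuation.map_neg, Int.cast_natCast]
  have hc' : A.valuation (q : Qb) ^ c ≤ A.valuation ((m : Qb) * (d : Qb)) := by
    rw [map_mul, hvm, ← map_mul, ← Nat.cast_mul]
    exact hc
  have hfin : A.valuation (z - S / d) ≤ A.valuation (q : Qb) ^ N := by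
    have h8 : A.valuation (q : Qb) ^ c * A.valuation (z - S / d) ≤
        A.valuation (q : Qb) ^ c * A.valuation (q : Qb) ^ N := by
      calc A.valuation (q : Qb) ^ c * A.valuation (z - S / d)
          ≤ A.valuation ((m : Qb) * (d : Qb)) * A.valuation (z - S / d) :=
            mul_le_mul' hc' le_rfl
        _ = A.valuation ((m : Qb) * ((d : Qb) * z - S)) := by rw [hzy]; exact (map_mul _ _ _).symm
        _ ≤ A.valuation (q : Qb) ^ M := hbig
        _ = A.valuation (q : Qb) ^ c * A.valuation (q : Qb) ^ N := by rw [hM, pow_add, mul_comm]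
    exact le_of_mul_le_mul_left h8 (hvqpos c)
  refine (A.valuation_le_one_iff _).mp ?_
  rw [map_div₀, map_pow]
  exact (div_le_one₀ (hvqpos N)).mpr hfin

/-- **Density of a number field in its decomposition field.**  If `z` is fixed by every element
of the decomposition group of `A` fixing the number field `L`, then `z` is an `A`-adic limit of
elements of `L`. -/
theorem exists_approx_of_fixed (L : IntermediateField ℚ Qb) [FiniteDimensional ℚ L]
    (A : ValuationSubring Qb) {q : ℕ} (hq : q.Prime) (hA : A.LiesOverPrime q) (z : Qb)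
    (hz : ∀ σ : Gq, σ ∈ A.decompositionSubgroup ℚ → σ ∈ L.fixingSubgroup → σ z = z) (N : ℕ) :
    ∃ y ∈ L, (z - y) / (q : Qb) ^ N ∈ A := by
  have hzint : IsIntegral ℚ z := Algebra.IsIntegral.isIntegral z
  have : FiniteDimensional ℚ ℚ⟮z⟯ := IntermediateField.adjoin.finiteDimensional hzint
  have : Normal ℚ (IntermediateField.normalClosure ℚ (↥(L ⊔ ℚ⟮z⟯)) Qb) :=
    normalClosure.normal ℚ _ Qb
  have : FiniteDimensional ℚ (IntermediateField.normalClosure ℚ (↥(L ⊔ ℚ⟮z⟯)) Qb) :=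
    normalClosure.is_finiteDimensional ℚ _ Qb
  have hE : L ⊔ ℚ⟮z⟯ ≤ IntermediateField.normalClosure ℚ (↥(L ⊔ ℚ⟮z⟯)) Qb :=
    IntermediateField.le_normalClosure _
  exact exists_approx_aux (IntermediateField.normalClosure ℚ (↥(L ⊔ ℚ⟮z⟯)) Qb) L
    (le_sup_left.trans hE) A hq hA z
    (hE ((le_sup_right : ℚ⟮z⟯ ≤ L ⊔ ℚ⟮z⟯) (IntermediateField.mem_adjoin_simple_self ℚ z))) hz N

end Main

end Fermat.Agent.CFT.Global.HP.DenseHensel
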