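import Mathlib
import Fermat.Agent.Lib.DecompLift
import Fermat.Agent.S14.Wiring.ValRing
import Fermat.Agent.Lib.WeakApprox

/-!
# A number field is dense in its decomposition field (helper157)

`Qb = AlgebraicClosure ℚ`, `A` a valuation subring of `Qb` over the prime `q`, `L` a number field
inside `Qb`.  The fixed field of `D_A ⊓ Fix L` (`D_A` the decomposition group of `A`) is the
henselisation of `L` at `A`; we prove, without completions, that `L` is `A`-adically dense in it:

* `exists_pow_mul_mem` : every `x : Qb` has a bounded denominator: `q ^ t * x ∈ A` for some `t`;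
* `exists_approx_of_fixed` : if `z` is fixed by `D_A ⊓ Fix L` then for every `N` there is `y ∈ L`
  with `(z - y) / q ^ N ∈ A`.

Proof: `E = L(z)`; weak approximation in `𝓞 E` gives `e ≡ 1` at the prime of `E` below `A` and
`e ≡ 0` at the other primes of `E` over `q`; `y = Tr_{E/L}(e z)`.  A conjugate `σ z ≠ z` comes from
`g ∈ Fix L` such that `A ∘ g` cuts out another prime of `E` (otherwise the decomposition lifting
lemma gives an element of `D_A ⊓ Fix L` moving `z`), hence `σ e ≡ 0`.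
-/

set_option autoImplicit false
set_option linter.unusedSectionVars false
set_option linter.style.haveILetI false

open scoped NumberField
open IsDedekindDomain

namespace Fermat.Agent.CFT.Global.HP.DensityHensel

local notation "Qb" => AlgebraicClosure ℚ
local notation "Gq" => (AlgebraicClosure ℚ ≃ₐ[ℚ] AlgebraicClosure ℚ)

attribute [local instance] Fermat.Agent.Lib.FrobProfinite.isAlgebraic_Qb
  Fermat.Agent.Lib.FrobProfinite.isAlgClosure_Qb

open Fermat.Agent.S14.Wiring.ValRing

/-- A nonzero element is a nonunit of a valuation subring iff its inverse is not in it. -/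
theorem mem_nonunits_iff_inv_notMem {K : Type*} [Field K] (A : ValuationSubring K) {x : K}
    (hx : x ≠ 0) : x ∈ A.nonunits ↔ x⁻¹ ∉ A := by
  rw [A.mem_nonunits_iff, ← A.valuation_le_one_iff, not_le,
    A.valuation.one_lt_val_iff (inv_ne_zero hx), inv_inv]

/-- Nonunits of the pull-back of a valuation subring along an automorphism. -/
theorem mem_nonunits_comap (A : ValuationSubring Qb) (g : Gq) (x : Qb) :
    x ∈ (A.comap (g : Qb →+* Qb)).nonunits ↔ g x ∈ A.nonunits := by
  by_cases hx : x = 0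
  · subst hx
    rw [map_zero, ValuationSubring.mem_nonunits_iff, ValuationSubring.mem_nonunits_iff]
    simp
  · have hgx : g x ≠ 0 := by
      rw [Ne, map_eq_zero]
      exact hx
    rw [mem_nonunits_iff_inv_notMem _ hx, mem_nonunits_iff_inv_notMem _ hgx,
      ValuationSubring.mem_comap]
    simp

/-- The pull-back of a valuation subring over `q` along an automorphism lies over `q`. -/
theorem liesOverPrime_comap (A : ValuationSubring Qb) {q : ℕ} (hA : A.LiesOverPrime q) (g : Gq) :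
    (A.comap (g : Qb →+* Qb)).LiesOverPrime q := by
  show (q : Qb) ∈ (A.comap (g : Qb →+* Qb)).nonunits
  rw [mem_nonunits_comap, map_natCast]
  exact hA

/-- **Bounded denominators**: every algebraic number becomes `A`-integral after multiplication by
a power of `q`. -/
theorem exists_pow_mul_mem (A : ValuationSubring Qb) {q : ℕ} (hq : q.Prime)
    (hA : A.LiesOverPrime q) (x : Qb) : ∃ t : ℕ, (q : Qb) ^ t * x ∈ A := by
  obtain ⟨d, hd0, hd⟩ :=
    (Fermat.Agent.Lib.DecompLift.isAlgebraic_int x).exists_integral_multiple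
  have hfin : FiniteMultiplicity (q : ℤ) d := by
    rw [Int.finiteMultiplicity_iff]
    refine ⟨?_, hd0⟩
    rw [Int.natAbs_natCast]
    exact hq.ne_one
  obtain ⟨d', hd', hdd⟩ := hfin.exists_eq_pow_mul_and_not_dvd
  refine ⟨multiplicity (q : ℤ) d, ?_⟩
  have h1 : A.valuation ((d' : ℤ) : Qb) = 1 :=
    Fermat.Agent.Lib.ValFrac.valuation_intCast_eq_one A q hq hA d' hdd
  have h2 : A.valuation (d • x) ≤ 1 := (A.valuation_le_one_iff _).mpr (mem_of_isIntegral A hd)
  rw [← A.valuation_le_one_iff]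
  rw [zsmul_eq_mul, hd'] at h2
  push_cast at h2
  rw [map_mul, map_mul, h1, mul_one] at h2
  rw [map_mul]
  exact h2

/-- Transfer of an inequality of valuations through the dictionary. -/
theorem div_mem_of_valuation_le {F : IntermediateField ℚ Qb} [NumberField F]
    {A : ValuationSubring Qb} {v : HeightOneSpectrum (𝓞 F)} (hv : v.asIdeal = primeUnder F A)
    (x y : F) (hy : y ≠ 0) (h : v.valuation F x ≤ v.valuation F y) :
    (x : Qb) / (y : Qb) ∈ A := by
  have h1 : v.valuation F (x / y) ≤ 1 := by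
    rw [map_div₀]
    exact (div_le_one₀ (by rw [zero_lt_iff, Ne, map_eq_zero]; exact hy)).mpr h
  exact (valuation_le_one_iff hv (x / y)).mp h1

/-- **Density of a number field in its decomposition field.**  If `z` is fixed by
`D_A ⊓ Fix L`, then `z` is an `A`-adic limit of elements of `L`. -/
theorem exists_approx_of_fixed (L : IntermediateField ℚ Qb) [FiniteDimensional ℚ L]
    (A : ValuationSubring Qb) {q : ℕ} (hq : q.Prime) (hA : A.LiesOverPrime q) (z : Qb)
    (hz : ∀ g : Gq, g ∈ A.decompositionSubgroup ℚ → g ∈ L.fixingSubgroup → g z = z) (N : ℕ) :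
    ∃ y : Qb, y ∈ L ∧ (z - y) / (q : Qb) ^ N ∈ A := by
  classical
  have hzint : IsIntegral L z := Algebra.IsIntegral.isIntegral z
  let E' : IntermediateField L Qb := IntermediateField.adjoin L {z}
  haveI hfd : FiniteDimensional L E' := IntermediateField.adjoin.finiteDimensional hzint
  haveI h1 : FiniteDimensional ℚ E' := FiniteDimensional.trans ℚ L _
  let E : IntermediateField ℚ Qb := E'.restrictScalars ℚ
  haveI : FiniteDimensional ℚ E := h1
  haveI : NumberField E := ⟨⟩
  have hzE' : z ∈ E' := IntermediateField.mem_adjoin_simple_self L z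
  have hLE : ∀ x ∈ L, x ∈ E := fun x hx => E'.algebraMap_mem ⟨x, hx⟩
  have hqQ : (q : Qb) ≠ 0 := Nat.cast_ne_zero.mpr hq.ne_zero
  -- a common denominator for the conjugates of `z`
  obtain ⟨t, ht⟩ : ∃ t : ℕ, ∀ σ : E' →ₐ[L] Qb, (q : Qb) ^ t * σ ⟨z, hzE'⟩ ∈ A := by
    choose t ht using fun σ : E' →ₐ[L] Qb => exists_pow_mul_mem A hq hA (σ ⟨z, hzE'⟩)
    refine ⟨∑ σ, t σ, fun σ => ?_⟩
    have e : (q : Qb) ^ (∑ σ, t σ) = (q : Qb) ^ (∑ σ, t σ - t σ) * (q : Qb) ^ (t σ) := by
      rw [← pow_add, Nat.sub_add_cancel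
        (Finset.single_le_sum (fun _ _ => Nat.zero_le _) (Finset.mem_univ σ))]
    rw [e, mul_assoc]
    exact mul_mem (pow_mem (natCast_mem A q) _) (ht σ)
  let M : ℕ := N + t
  -- the idempotent
  let v₀ : HeightOneSpectrum (𝓞 E) := placeUnder E A hq hA
  have hv₀ : v₀.asIdeal = primeUnder E A := rfl
  have hq0 : ((q : ℕ) : 𝓞 E) ≠ 0 := Nat.cast_ne_zero.mpr hq.ne_zero
  have hqE0 : (q : E) ≠ 0 := Nat.cast_ne_zero.mpr hq.ne_zero
  have hfin : {v : HeightOneSpectrum (𝓞 E) | v.asIdeal ∣ Ideal.span {((q : ℕ) : 𝓞 E)}}.Finite :=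
    Ideal.finite_factors (by simpa using hq0)
  have hk : ∀ v : HeightOneSpectrum (𝓞 E), ∃ k : ℕ,
      v.valuation E ((q : E) ^ M) = WithZero.exp (-(k : ℤ)) := by
    intro v
    have e : ((q : E) ^ M) = algebraMap (𝓞 E) E (((q : ℕ) : 𝓞 E) ^ M) := by simp
    rw [e, HeightOneSpectrum.valuation_of_algebraMap]
    exact ⟨_, v.intValuation_if_neg (pow_ne_zero _ hq0)⟩
  choose k hk using hk
  obtain ⟨e, he, -⟩ := Fermat.Agent.Lib.WeakApprox.exists_forall_valuation_sub_le
    (R := 𝓞 E) (K := E) (insert v₀ hfin.toFinset) (fun v => if v = v₀ then 1 else 0) k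
  have he₀ : v₀.valuation E (e - 1) ≤ v₀.valuation E ((q : E) ^ M) := by
    have h := he v₀ (Finset.mem_insert_self _ _)
    simp only [if_true] at h
    rw [hk]
    exact h
  have he₁ : ∀ v : HeightOneSpectrum (𝓞 E), ((q : ℕ) : 𝓞 E) ∈ v.asIdeal → v ≠ v₀ →
      v.valuation E e ≤ v.valuation E ((q : E) ^ M) := by
    intro v hv hne
    have hvT : v ∈ insert v₀ hfin.toFinset := by
      refine Finset.mem_insert_of_mem (hfin.mem_toFinset.mpr ?_)
      show v.asIdeal ∣ Ideal.span {((q : ℕ) : 𝓞 E)}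
      rw [Ideal.dvd_span_singleton]
      exact hv
    have h := he v hvT
    simp only [if_neg hne, sub_zero] at h
    rw [hk]
    exact h
  have heE' : (e : Qb) ∈ E' := e.2
  have hcoeq : (((q : E) ^ M : E) : Qb) = (q : Qb) ^ M := by simp
  -- `e ≡ 1` at `A`
  have hA₀ : ((e : Qb) - 1) / (q : Qb) ^ M ∈ A := by
    have h := div_mem_of_valuation_le hv₀ (e - 1) ((q : E) ^ M) (pow_ne_zero _ hqE0) he₀
    rw [hcoeq] at h
    exact h
  -- `σ e ≡ 0` at `A` for the other embeddings
  have key : ∀ σ : E' →ₐ[L] Qb, σ ≠ E'.val → σ ⟨(e : Qb), heE'⟩ / (q : Qb) ^ M ∈ A := by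
    intro σ hσ
    let g₀ : Qb →ₐ[L] Qb := σ.liftNormal Qb
    have hg₀ : ∀ x : E', g₀ (x : Qb) = σ x := fun x => σ.liftNormal_commutes Qb x
    let g : Qb ≃ₐ[L] Qb := AlgEquiv.ofBijective g₀ (Algebra.IsAlgebraic.algHom_bijective g₀)
    let gQ : Gq := g.restrictScalars ℚ
    have hgQ : ∀ x : Qb, gQ x = g₀ x := fun x => rfl
    have hgL : ∀ x ∈ L, gQ x = x := fun x hx => g₀.commutes ⟨x, hx⟩
    have hσz : σ ⟨z, hzE'⟩ ≠ z := by
      intro h
      apply hσ
      refine (IntermediateField.adjoin.powerBasis hzint).algHom_ext ?_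
      rw [IntermediateField.adjoin.powerBasis_gen]
      exact h
    let B : ValuationSubring Qb := A.comap (gQ : Qb →+* Qb)
    have hBq : B.LiesOverPrime q := liesOverPrime_comap A hA gQ
    let v₁ : HeightOneSpectrum (𝓞 E) := placeUnder E B hq hBq
    have hv₁ : v₁.asIdeal = primeUnder E B := rfl
    have hne : v₁ ≠ v₀ := by
      intro heq
      have hprime : primeUnder E B = primeUnder E A := by rw [← hv₁, heq, hv₀]
      have hτ : ∀ x ∈ E, IsIntegral ℤ x → (x ∈ A.nonunits ↔ gQ x ∈ A.nonunits) := by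
        intro x hx hxi
        have hxi' : IsIntegral ℤ (⟨x, hx⟩ : E) :=
          (isIntegral_algebraMap_iff (algebraMap E Qb).injective).mp hxi
        let x' : 𝓞 E := ⟨⟨x, hx⟩, hxi'⟩
        have h1 := mem_primeUnder E A x'
        have h2 := mem_primeUnder E B x'
        rw [hprime] at h2
        have h3 : ((x' : E) : Qb) = x := rfl
        rw [h3] at h1 h2
        rw [A.mem_nonunits_iff, ← h1, h2, ← B.mem_nonunits_iff]
        exact mem_nonunits_comap A gQ x
      obtain ⟨σ', hσ'D, hσ'E⟩ :=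
        Fermat.Agent.Lib.DecompLift.exists_decomp_lift E A hq hA gQ hτ
      have hσ'L : σ' ∈ L.fixingSubgroup := by
        rw [IntermediateField.mem_fixingSubgroup_iff]
        intro x hx
        rw [hσ'E x (hLE x hx)]
        exact hgL x hx
      have h4 := hz σ' hσ'D hσ'L
      rw [hσ'E z hzE', hgQ] at h4
      exact hσz ((hg₀ ⟨z, hzE'⟩).symm.trans h4)
    have hqv₁ : ((q : ℕ) : 𝓞 E) ∈ v₁.asIdeal := by
      rw [hv₁]
      exact (natCast_mem_primeUnder_iff E B q).mpr hBq
    have h5 := div_mem_of_valuation_le hv₁ e ((q : E) ^ M) (pow_ne_zero _ hqE0)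
      (he₁ v₁ hqv₁ hne)
    rw [hcoeq] at h5
    have h6 : gQ ((e : Qb) / (q : Qb) ^ M) ∈ A := ValuationSubring.mem_comap.mp h5
    rw [map_div₀, map_pow, map_natCast, hgQ] at h6
    rw [← hg₀ ⟨(e : Qb), heE'⟩]
    exact h6
  -- the approximation
  let x : E' := ⟨(e : Qb), heE'⟩ * ⟨z, hzE'⟩
  refine ⟨algebraMap L Qb (Algebra.trace L E' x), (Algebra.trace L E' x).2, ?_⟩
  rw [trace_eq_sum_embeddings Qb, ← Finset.add_sum_erase Finset.univ _ (Finset.mem_univ E'.val)]
  have hx0 : E'.val x = (e : Qb) * z := rfl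
  have hsplit : (z - (E'.val x + ∑ σ ∈ Finset.univ.erase E'.val, σ x)) / (q : Qb) ^ N =
      -((((e : Qb) - 1) / (q : Qb) ^ M) * ((q : Qb) ^ t * z)) -
        ∑ σ ∈ Finset.univ.erase E'.val,
          (σ ⟨(e : Qb), heE'⟩ / (q : Qb) ^ M) * ((q : Qb) ^ t * σ ⟨z, hzE'⟩) := by
    have hM : (q : Qb) ^ M = (q : Qb) ^ N * (q : Qb) ^ t := pow_add _ _ _
    have hterm : ∀ σ : E' →ₐ[L] Qb,
        (σ ⟨(e : Qb), heE'⟩ / (q : Qb) ^ M) * ((q : Qb) ^ t * σ ⟨z, hzE'⟩) =
          σ x / (q : Qb) ^ N := by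
      intro σ
      have hσx : σ x = σ ⟨(e : Qb), heE'⟩ * σ ⟨z, hzE'⟩ := map_mul σ _ _
      rw [hσx, hM]
      field_simp
    rw [Finset.sum_congr rfl (fun σ _ => hterm σ), ← Finset.sum_div, hx0, hM]
    field_simp
    ring
  rw [hsplit]
  refine sub_mem (neg_mem (mul_mem hA₀ ?_)) (sum_mem fun σ hσ => mul_mem ?_ (ht σ))
  · exact ht E'.val
  · exact key σ (Finset.ne_of_mem_erase hσ)

end Fermat.Agent.CFT.Global.HP.DensityHensel
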