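import Fermat.Agent.CFT.Global.HasseNorm.Final
import Fermat.Agent.S14.Wiring.ValRing
import Fermat.Agent.CFT.Global.HP.Density

/-!
# Field bridge: the Hasse norm theorem inside `Qb = AlgebraicClosure ℚ` (helper87)

`K ≤ L` finite subfields of `Qb`, `s ∈ Gal(Qb/ℚ)` fixing `K`, stabilising `L`, with `L^s = K`,
`s ^ p = 1` on `L`, `s ≠ 1` on `L` (`p` an odd prime): then `L/K` is cyclic of degree `p`
(`isGalois_extendScalars`, `finrank_extendScalars`), the norm is `y ↦ ∏ k < p, s ^ k y`
(`coe_norm_eq_prod`), and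

* `exists_norm_of_forall_lvl` (FB1): if `b ∈ Kˣ` is congruent to a norm from `L` modulo
  `q ^ N • A` for every prime number `q`, every valuation subring `A` of `Qb` over `q` and every
  `N` (the output shape of `HP.LN.exists_norm_approx`), then `b` is a norm from `L`.

The proof transports the statement to the abstract number fields `↥K` and
`↥(IntermediateField.extendScalars hKL)` (S14 valuation-ring dictionary) and applies
`HasseNorm.hasse_norm_odd_prime`.
-/

set_option autoImplicit false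
set_option linter.unusedSectionVars false
set_option linter.style.haveILetI false

open scoped NumberField WithZero
open IsDedekindDomain

namespace Fermat.Agent.CFT.Global.HP.FB

open Fermat.Agent.CFT.Global.HasseNorm Fermat.Agent.CFT.Global.HP.LN

local notation "Qb" => AlgebraicClosure ℚ
local notation "Gq" => (AlgebraicClosure ℚ ≃ₐ[ℚ] AlgebraicClosure ℚ)

section Galois

variable {K L : IntermediateField ℚ Qb} (hKL : K ≤ L)

/-- `L`, viewed as an extension of `K`, is finite-dimensional. -/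
theorem finiteDimensional_extendScalars [FiniteDimensional ℚ L] :
    FiniteDimensional K (IntermediateField.extendScalars hKL) := by
  let e : L ≃ₗ[ℚ] (IntermediateField.extendScalars hKL) :=
    { toFun := fun x => ⟨x.1, x.2⟩
      invFun := fun x => ⟨x.1, x.2⟩
      map_add' := fun _ _ => rfl
      map_smul' := fun _ _ => rfl
      left_inv := fun _ => rfl
      right_inv := fun _ => rfl }
  haveI : Module.Finite ℚ (IntermediateField.extendScalars hKL) := Module.Finite.equiv e
  exact Module.Finite.of_restrictScalars_finite ℚ K (IntermediateField.extendScalars hKL)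

variable (s : Gq) (hsK : s ∈ K.fixingSubgroup) (hsL : ∀ x ∈ L, s x ∈ L)

/-- The restriction of `s` to `L`, as a `K`-algebra endomorphism. -/
noncomputable def resAlgHom :
    (IntermediateField.extendScalars hKL) →ₐ[K] (IntermediateField.extendScalars hKL) where
  toFun x := ⟨s x.1, hsL x.1 x.2⟩
  map_one' := Subtype.ext (map_one s)
  map_mul' x y := Subtype.ext (map_mul s x.1 y.1)
  map_zero' := Subtype.ext (map_zero s)
  map_add' x y := Subtype.ext (map_add s x.1 y.1)
  commutes' r := Subtype.ext (hsK r)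

/-- The restriction of `s` to `L`, as a `K`-algebra automorphism. -/
noncomputable def resAlgEquiv [FiniteDimensional ℚ L] :
    (IntermediateField.extendScalars hKL) ≃ₐ[K] (IntermediateField.extendScalars hKL) :=
  haveI := finiteDimensional_extendScalars hKL
  AlgEquiv.ofBijective (resAlgHom hKL s hsK hsL) (AlgHom.bijective _)

theorem coe_resAlgEquiv [FiniteDimensional ℚ L] (x : IntermediateField.extendScalars hKL) :
    ((resAlgEquiv hKL s hsK hsL x : IntermediateField.extendScalars hKL) : Qb) = s (x : Qb) := rfl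

theorem coe_resAlgEquiv_pow [FiniteDimensional ℚ L] (k : ℕ)
    (x : IntermediateField.extendScalars hKL) :
    (((resAlgEquiv hKL s hsK hsL ^ k) x : IntermediateField.extendScalars hKL) : Qb) =
      (s ^ k) (x : Qb) := by
  induction k generalizing x with
  | zero => simp
  | succ k ih =>
    rw [pow_succ, pow_succ, AlgEquiv.mul_apply, AlgEquiv.mul_apply, ih, coe_resAlgEquiv]

end Galois

section GaloisProps

variable {K L : IntermediateField ℚ Qb} (hKL : K ≤ L) [FiniteDimensional ℚ L]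
  (s : Gq) (hsK : s ∈ K.fixingSubgroup) (hsL : ∀ x ∈ L, s x ∈ L)
  (hfix : ∀ x ∈ L, s x = x → x ∈ K)

include hsK hsL hfix

theorem fixedField_zpowers_eq_bot :
    IntermediateField.fixedField (Subgroup.zpowers (resAlgEquiv hKL s hsK hsL)) = ⊥ := by
  rw [eq_bot_iff]
  intro y hy
  rw [IntermediateField.mem_fixedField_iff] at hy
  have h1 := hy (resAlgEquiv hKL s hsK hsL) (Subgroup.mem_zpowers _)
  have h2 : s (y : Qb) = y := congrArg Subtype.val h1
  have h3 : (y : Qb) ∈ K := hfix _ y.2 h2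
  rw [IntermediateField.mem_bot]
  exact ⟨⟨_, h3⟩, Subtype.ext rfl⟩

theorem isGalois_extendScalars : IsGalois K (IntermediateField.extendScalars hKL) := by
  haveI := finiteDimensional_extendScalars hKL
  apply IsGalois.of_fixedField_eq_bot
  rw [eq_bot_iff, ← fixedField_zpowers_eq_bot hKL s hsK hsL hfix]
  exact IntermediateField.fixedField_antitone le_top

theorem zpowers_eq_top : Subgroup.zpowers (resAlgEquiv hKL s hsK hsL) = ⊤ := by
  haveI := finiteDimensional_extendScalars hKL
  rw [← IntermediateField.fixingSubgroup_fixedField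
    (Subgroup.zpowers (resAlgEquiv hKL s hsK hsL)),
    fixedField_zpowers_eq_bot hKL s hsK hsL hfix, IntermediateField.fixingSubgroup_bot]

omit hfix in
theorem orderOf_resAlgEquiv {p : ℕ} (hp : p.Prime) (hpow : ∀ x ∈ L, (s ^ p) x = x)
    (hne : ∃ x ∈ L, s x ≠ x) : orderOf (resAlgEquiv hKL s hsK hsL) = p := by
  haveI : Fact p.Prime := ⟨hp⟩
  apply orderOf_eq_prime
  · ext x
    rw [coe_resAlgEquiv_pow]
    exact hpow _ x.2
  · intro h
    obtain ⟨x, hx, hne⟩ := hne
    apply hne
    exact congrArg (fun f : (IntermediateField.extendScalars hKL) ≃ₐ[K]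
      (IntermediateField.extendScalars hKL) =>
        ((f ⟨x, hx⟩ : IntermediateField.extendScalars hKL) : Qb)) h

theorem finrank_extendScalars {p : ℕ} (hp : p.Prime) (hpow : ∀ x ∈ L, (s ^ p) x = x)
    (hne : ∃ x ∈ L, s x ≠ x) :
    Module.finrank K (IntermediateField.extendScalars hKL) = p := by
  haveI := finiteDimensional_extendScalars hKL
  haveI := isGalois_extendScalars hKL s hsK hsL hfix
  rw [← IsGalois.card_aut_eq_finrank, ← orderOf_resAlgEquiv hKL s hsK hsL hp hpow hne,
    ← Nat.card_zpowers, zpowers_eq_top hKL s hsK hsL hfix]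
  exact (Subgroup.card_top).symm

/-- The norm from `L` to `K` is the product over the powers of `s`. -/
theorem coe_norm_eq_prod {p : ℕ} (hp : p.Prime) (hpow : ∀ x ∈ L, (s ^ p) x = x)
    (hne : ∃ x ∈ L, s x ≠ x) (y : IntermediateField.extendScalars hKL) :
    ((Algebra.norm K y : K) : Qb) = ∏ k ∈ Finset.range p, (s ^ k) (y : Qb) := by
  classical
  haveI := finiteDimensional_extendScalars hKL
  haveI := isGalois_extendScalars hKL s hsK hsL hfix
  have h1 := Algebra.norm_eq_prod_automorphisms K y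
  have hord := orderOf_resAlgEquiv hKL s hsK hsL hp hpow hne
  have huniv : (Finset.univ : Finset ((IntermediateField.extendScalars hKL) ≃ₐ[K]
      (IntermediateField.extendScalars hKL))) =
      (Finset.range p).image (fun k => resAlgEquiv hKL s hsK hsL ^ k) := by
    ext τ
    have hτ : τ ∈ Subgroup.zpowers (resAlgEquiv hKL s hsK hsL) := by
      rw [zpowers_eq_top hKL s hsK hsL hfix]
      trivial
    rw [mem_zpowers_iff_mem_range_orderOf, hord] at hτ
    simp only [Finset.mem_univ, true_iff]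
    exact hτ
  have hinj : Set.InjOn (fun k => resAlgEquiv hKL s hsK hsL ^ k)
      (Finset.range p : Set ℕ) := by
    have := pow_injOn_Iio_orderOf (x := resAlgEquiv hKL s hsK hsL)
    rw [hord] at this
    intro a ha b hb hab
    exact this (by simpa using ha) (by simpa using hb) hab
  rw [huniv, Finset.prod_image hinj] at h1
  have h2 := congrArg (IntermediateField.extendScalars hKL).val h1
  rw [map_prod] at h2
  rw [← Finset.prod_congr rfl (fun k _ => coe_resAlgEquiv_pow hKL s hsK hsL k y)]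
  exact h2

end GaloisProps

section Approx

/-- In `ℤᵐ⁰`, `x < 1` means `x ≤ exp (-1)`. -/
theorem le_exp_neg_one_of_lt_one {x : ℤᵐ⁰} (hx : x < 1) : x ≤ WithZero.exp (-1 : ℤ) := by
  have h1 : (1 : ℤᵐ⁰) = WithZero.exp (-1 : ℤ) * WithZero.exp (1 : ℤ) := by
    rw [← WithZero.exp_add]
    simp
  rw [h1] at hx
  exact (WithZero.lt_mul_exp_iff_le WithZero.exp_ne_zero).1 hx

variable {K : IntermediateField ℚ Qb} [NumberField K]

/-- From membership in `ℓ ^ N • A` to a bound on the `v`-adic valuation. -/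
theorem valuation_le_of_mem_lvl (v : HeightOneSpectrum (𝓞 K)) {ℓ : ℕ}
    {A : ValuationSubring Qb} (hℓ : ℓ.Prime) (hℓv : ((ℓ : ℕ) : 𝓞 K) ∈ v.asIdeal)
    (hdict : ∀ x : K, ((x : K) : Qb) ∈ A ↔ v.valuation K x ≤ 1)
    (d : K) (N : ℕ) (hd : (d : Qb) ∈ lvl A ℓ N) :
    v.valuation K d ≤ WithZero.exp (-(N : ℤ)) := by
  obtain ⟨w, hw, hdw⟩ := hd
  have hℓ0 : ((ℓ : ℕ) : K) ≠ 0 := Nat.cast_ne_zero.2 hℓ.ne_zero
  have hℓ0' : ((ℓ : ℕ) : Qb) ≠ 0 := Nat.cast_ne_zero.2 hℓ.ne_zero
  set w₁ : K := d / ((ℓ : ℕ) : K) ^ N with hw₁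
  have hcoe : ((w₁ : K) : Qb) = w := by
    have h1 : ((w₁ : K) : Qb) = (d : Qb) / ((ℓ : ℕ) : Qb) ^ N := by
      rw [hw₁]
      push_cast
      rfl
    rw [h1, hdw, mul_div_assoc, mul_div_cancel₀ _ (pow_ne_zero _ hℓ0')]
  have h1 : v.valuation K w₁ ≤ 1 := (hdict w₁).1 (hcoe ▸ hw)
  have h2 : v.valuation K ((ℓ : ℕ) : K) ≤ WithZero.exp (-1 : ℤ) := by
    apply le_exp_neg_one_of_lt_one
    have h3 : v.valuation K (algebraMap (𝓞 K) K ((ℓ : ℕ) : 𝓞 K)) < 1 :=
      (v.valuation_lt_one_iff_mem _).2 hℓv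
    simpa using h3
  have hd' : d = w₁ * ((ℓ : ℕ) : K) ^ N := by
    rw [hw₁, div_mul_cancel₀ _ (pow_ne_zero _ hℓ0)]
  rw [hd', map_mul, map_pow]
  calc v.valuation K w₁ * v.valuation K ((ℓ : ℕ) : K) ^ N
      ≤ 1 * WithZero.exp (-1 : ℤ) ^ N := mul_le_mul' h1 (pow_le_pow_left' h2 N)
    _ = WithZero.exp (-(N : ℤ)) := by
        rw [one_mul, ← WithZero.exp_nsmul]
        simp

end Approx

open Fermat.Agent.S14.Wiring in
/-- **Field bridge (FB1).** `K ≤ L` finite subfields of `Qb`, `L/K` cyclic of odd prime degree `p`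
with generator induced by `s`.  If `b ∈ Kˣ` is, for every prime number `q`, every valuation
subring `A` of `Qb` over `q` and every `N`, congruent mod `q ^ N • A` to a norm from `L`, then `b`
is a norm from `L`. -/
theorem exists_norm_of_forall_lvl {p : ℕ} (hp : p.Prime) (hodd : Odd p)
    (K L : IntermediateField ℚ Qb) [FiniteDimensional ℚ L] (hKL : K ≤ L)
    (s : Gq) (hsK : s ∈ K.fixingSubgroup) (hsL : ∀ x ∈ L, s x ∈ L)
    (hfix : ∀ x ∈ L, s x = x → x ∈ K) (hpow : ∀ x ∈ L, (s ^ p) x = x)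
    (hne : ∃ x ∈ L, s x ≠ x) (b : Qb) (hbK : b ∈ K) (hb0 : b ≠ 0)
    (happ : ∀ q : ℕ, q.Prime → ∀ A : ValuationSubring Qb, A.LiesOverPrime q → ∀ N : ℕ,
      ∃ y ∈ L, y ≠ 0 ∧ b - ∏ k ∈ Finset.range p, (s ^ k) y ∈ lvl A q N) :
    ∃ c ∈ L, c ≠ 0 ∧ b = ∏ k ∈ Finset.range p, (s ^ k) c := by
  haveI : FiniteDimensional ℚ K :=
    FiniteDimensional.of_injective (IntermediateField.inclusion hKL).toLinearMap
      (IntermediateField.inclusion hKL).injective
  haveI : NumberField K := ⟨⟩
  haveI hfd := finiteDimensional_extendScalars hKL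
  haveI : NumberField (IntermediateField.extendScalars hKL) := NumberField.of_module_finite K _
  haveI := isGalois_extendScalars hKL s hsK hsL hfix
  have hdeg := finrank_extendScalars hKL s hsK hsL hfix hp hpow hne
  set b₁ : K := ⟨b, hbK⟩ with hb₁def
  have hb₁ : b₁ ≠ 0 := fun h => hb0 (congrArg Subtype.val h)
  have key : ∀ v : HeightOneSpectrum (𝓞 K),
      ApproxNorm K (IntermediateField.extendScalars hKL) v b₁ := by
    intro v n
    obtain ⟨ℓ, A, hℓ, hℓv, hAℓ, -, hdict, -, -⟩ := ValRing.exists_valuationSubring_full K v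
    have hvb : v.valuation K b₁ ≠ 0 := (Valuation.ne_zero_iff _).2 hb₁
    obtain ⟨N₀, hN₀⟩ := WithZero.exists_exp_neg_natCast_lt hvb
    obtain ⟨y, hyL, hy0, hy⟩ := happ ℓ hℓ A hAℓ (n + N₀)
    set y₁ : IntermediateField.extendScalars hKL := ⟨y, hyL⟩ with hy₁def
    have hy₁ : y₁ ≠ 0 := fun h => hy0 (congrArg Subtype.val h)
    refine ⟨y₁, hy₁, ?_⟩
    set d : K := b₁ - Algebra.norm K y₁ with hd
    have hdcoe : (d : Qb) = b - ∏ k ∈ Finset.range p, (s ^ k) y := by
      rw [hd, ← coe_norm_eq_prod hKL s hsK hsL hfix hp hpow hne y₁]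
      rfl
    have hvd : v.valuation K d ≤ WithZero.exp (-((n + N₀ : ℕ) : ℤ)) :=
      valuation_le_of_mem_lvl v hℓ hℓv hdict d _ (hdcoe ▸ hy)
    have hsplit : WithZero.exp (-((n + N₀ : ℕ) : ℤ)) =
        WithZero.exp (-(n : ℤ)) * WithZero.exp (-(N₀ : ℤ)) := by
      rw [← WithZero.exp_add]
      congr 1
      push_cast
      ring
    have hlt : v.valuation K d < v.valuation K b₁ := by
      refine lt_of_le_of_lt (hvd.trans ?_) hN₀
      rw [WithZero.exp_le_exp]
      push_cast
      omega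
    have hN : v.valuation K (Algebra.norm K y₁) = v.valuation K b₁ := by
      have h1 : Algebra.norm K y₁ = b₁ - d := by rw [hd]; ring
      rw [h1]
      exact Valuation.map_sub_eq_of_lt_left _ hlt
    have hN0 : Algebra.norm K y₁ ≠ 0 := Algebra.norm_ne_zero_iff.2 hy₁
    have h2 : b₁ / Algebra.norm K y₁ - 1 = d / Algebra.norm K y₁ := by
      rw [hd]
      field_simp
    rw [h2, map_div₀, hN, div_le_iff₀ (zero_lt_iff.2 hvb)]
    calc v.valuation K d ≤ WithZero.exp (-((n + N₀ : ℕ) : ℤ)) := hvd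
      _ = WithZero.exp (-(n : ℤ)) * WithZero.exp (-(N₀ : ℤ)) := hsplit
      _ ≤ WithZero.exp (-(n : ℤ)) * v.valuation K b₁ := mul_le_mul' le_rfl hN₀.le
  obtain ⟨y₁, hy₁⟩ := hasse_norm_odd_prime K (IntermediateField.extendScalars hKL) hp hodd hdeg
    b₁ hb₁ key
  refine ⟨(y₁ : Qb), y₁.2, ?_, ?_⟩
  · intro h0
    have h1 : y₁ = 0 := Subtype.ext h0
    rw [h1, Algebra.norm_zero] at hy₁
    exact hb₁ hy₁.symm
  · rw [← coe_norm_eq_prod hKL s hsK hsL hfix hp hpow hne y₁, hy₁]

end Fermat.Agent.CFT.Global.HP.FB
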