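import Fermat.Agent.CFT.Global.HP.RealOps

/-!
# `LT` is stable under restriction and reflected by inflation
-/

set_option autoImplicit false

open CategoryTheory groupCohomology

namespace Fermat.Agent.CFT.Global.HP

open Fermat.Agent.S55.GrpCoh

section general

universe u

variable {k G : Type u} [CommRing k] [Group G]

/-- The cocycle representing an inflated class. -/
noncomputable def inflCocycle (A : Rep.{u} k G) (N : Subgroup G) [N.Normal]
    (h : cocycles₂ (A.quotientToInvariants N)) : cocycles₂ A :=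
  mapCocycles₂ (QuotientGroup.mk' N) (Rep.ofHom <| A.ρ.quotientToInvariants_lift N) h

theorem infl_H2π (A : Rep.{u} k G) (N : Subgroup G) [N.Normal]
    (h : cocycles₂ (A.quotientToInvariants N)) :
    infl A N 2 (H2π _ h) = H2π A (inflCocycle A N h) :=
  H2π_comp_map_apply _ _ h

theorem inflCocycle_apply (A : Rep.{u} k G) (N : Subgroup G) [N.Normal]
    (h : cocycles₂ (A.quotientToInvariants N)) (g₁ g₂ : G) :
    inflCocycle A N h (g₁, g₂) = (h ((g₁ : G ⧸ N), (g₂ : G ⧸ N))).1 := rfl

/-- The cocycle representing a restricted class. -/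
noncomputable def restCocycle (A : Rep.{u} k G) (H : Subgroup G) (f : cocycles₂ A) :
    cocycles₂ (Rep.res H.subtype A) :=
  mapCocycles₂ H.subtype (𝟙 _) f

theorem rest_H2π (A : Rep.{u} k G) (H : Subgroup G) (f : cocycles₂ A) :
    rest A H 2 (H2π _ f) = H2π _ (restCocycle A H f) :=
  H2π_comp_map_apply _ _ f

theorem restCocycle_apply (A : Rep.{u} k G) (H : Subgroup G) (f : cocycles₂ A) (h₁ h₂ : H) :
    restCocycle A H f (h₁, h₂) = f ((h₁ : G), (h₂ : G)) := rfl

end general

/-- `LT` from a realisation over a subgroup which is propositionally a fixing subgroup. -/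
theorem LT_of_subgroup {G : Type} [Group G] {A : Rep.{0} ℤ G} (x : groupCohomology A 2)
    (U : Subgroup Gq) (K' : IntermediateField ℚ Qb) (hK' : FiniteDimensional ℚ K')
    (hU : K'.fixingSubgroup = U) (R : Real U G A) (f : cocycles₂ A) (hf : H2π A f = x)
    (hloc : LocTriv U (R.lift₂ f)) : LT G A x := by
  subst hU
  exact ⟨K', hK', R, f, hf, hloc⟩

/-- Local triviality passes to smaller subgroups. -/
theorem LocTrivAt.mono {U V : Subgroup Gq} (hVU : V ≤ U) {a : U × U → Qbˣ} {b : V × V → Qbˣ}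
    {Av : ValuationSubring Qb} (ha : LocTrivAt U a Av)
    (hb : ∀ s t : V, b (s, t) = a (Subgroup.inclusion hVU s, Subgroup.inclusion hVU t)) :
    LocTrivAt V b Av := by
  obtain ⟨u, hu, hdu⟩ := ha
  have hincl : Av.decompositionSubgroup ℚ ⊓ V ≤ Av.decompositionSubgroup ℚ ⊓ U :=
    inf_le_inf_left _ hVU
  refine ⟨fun s => u (Subgroup.inclusion hincl s), ?_, fun s t => ?_⟩
  · obtain ⟨F, hF, h⟩ := hu
    exact ⟨F, hF, fun t s hs => h (Subgroup.inclusion hincl t) (Subgroup.inclusion hincl s) hs⟩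
  · rw [hb]
    exact hdu (Subgroup.inclusion hincl s) (Subgroup.inclusion hincl t)

/-- Local triviality is insensitive to global level-constant coboundaries. -/
theorem LocTrivAt.div {U : Subgroup Gq} {a b : U × U → Qbˣ} {Av : ValuationSubring Qb}
    (ha : LocTrivAt U a Av) (c : U → Qbˣ) (hc : IsLevelConstant₁ (Subgroup.subtype U) c)
    (hb : ∀ s t : U, b (s, t) = a (s, t) / ((s : Gq) • c t / c (s * t) * c s)) :
    LocTrivAt U b Av := by
  obtain ⟨u, hu, hdu⟩ := ha
  obtain ⟨F, hF, h⟩ := hu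
  obtain ⟨F', hF', h'⟩ := hc
  haveI := hF; haveI := hF'
  let ι : ↥(Av.decompositionSubgroup ℚ ⊓ U) →* U := Subgroup.inclusion inf_le_right
  refine ⟨fun s => u s / c (ι s), ⟨F ⊔ F', inferInstance, fun t s hs => ?_⟩, fun s t => ?_⟩
  · have hs1 : ((s : ↥(Av.decompositionSubgroup ℚ ⊓ U)) : Gq) ∈ F.fixingSubgroup :=
      IntermediateField.fixingSubgroup_antitone le_sup_left hs
    have hs2 : ((s : ↥(Av.decompositionSubgroup ℚ ⊓ U)) : Gq) ∈ F'.fixingSubgroup :=
      IntermediateField.fixingSubgroup_antitone le_sup_right hs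
    have e1 := h t s hs1
    have e2 := h' (ι t) (ι s) hs2
    show u (t * s) / c (ι (t * s)) = u t / c (ι t)
    rw [map_mul, e1, e2]
  · rw [hb, hdu s t]
    show (s : Gq) • u t / u (s * t) * u s / ((s : Gq) • c (ι t) / c (ι s * ι t) * c (ι s)) =
      (s : Gq) • (u t / c (ι t)) / (u (s * t) / c (ι (s * t))) * (u s / c (ι s))
    rw [map_mul, smul_div', mul_div_mul_comm, div_div_div_comm]

/-- The subgroup of `Gq` over `H ≤ G` is the fixing subgroup of a number field. -/
theorem Real.exists_fixingSubgroup_eq_subU {K : IntermediateField ℚ Qb} [FiniteDimensional ℚ K]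
    {G : Type} [Group G] {A : Rep.{0} ℤ G} (R : Real K.fixingSubgroup G A) (H : Subgroup G) :
    ∃ K' : IntermediateField ℚ Qb, FiniteDimensional ℚ K' ∧ K'.fixingSubgroup = R.subU H := by
  obtain ⟨F, hF, hlev⟩ := R.level
  haveI := hF
  have hle : (F ⊔ K).fixingSubgroup ≤ R.subU H := by
    intro σ hσ
    rw [IntermediateField.fixingSubgroup_sup] at hσ
    refine (R.mem_subU_iff H σ).2 ⟨hσ.2, ?_⟩
    rw [hlev ⟨σ, hσ.2⟩ hσ.1]
    exact H.one_mem
  exact exists_fixingSubgroup_eq (R.subU H) (F ⊔ K) hle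

/-- `LT` is stable under restriction and reflected by inflation. -/
theorem isLocalTriv_LT : IsLocalTriv (k := ℤ) IsReal LT where
  res G _ _ A H x _ := by
    rintro ⟨K, hK, R, f, rfl, hloc⟩
    haveI := hK
    obtain ⟨K', hK', hfix⟩ := R.exists_fixingSubgroup_eq_subU H
    refine LT_of_subgroup _ (R.subU H) K' hK' hfix (R.res H) (restCocycle A H f)
      (rest_H2π A H f).symm ?_
    intro q hq Av hAv
    exact (hloc q hq Av hAv).mono (R.subU_le H) (fun s t => rfl)
  quot G _ _ A N _ y _ := by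
    rintro ⟨K, hK, R, f, hf, hloc⟩
    induction y using H2_induction_on with
    | h h =>
    rw [infl_H2π, H2π_eq_iff] at hf
    obtain ⟨g0, hg0⟩ := hf
    refine ⟨K, hK, R.quot N, h, rfl, fun q hq Av hAv => ?_⟩
    refine (hloc q hq Av hAv).div (R.lift₁ g0) (R.isLevelConstant₁_lift₁ g0) (fun s t => ?_)
    rw [← R.lift₂_d₁₂ g0 s t, eq_div_iff_mul_eq']
    have hpt := congrFun hg0 (R.π s, R.π t)
    have e2 : (R.quot N).lift₂ ⇑h (s, t) =
        Additive.toMul (R.j (inflCocycle A N h (R.π s, R.π t))) := rfl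
    have e3 : f (R.π s, R.π t) =
        inflCocycle A N h (R.π s, R.π t) + d₁₂ A g0 (R.π s, R.π t) := by
      rw [hpt, Pi.sub_apply]
      abel
    rw [e2, Real.lift₂_apply, Real.lift₂_apply, e3, map_add, toMul_add]

end Fermat.Agent.CFT.Global.HP
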