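import Fermat.Agent.CFT.Global.HP.Density
import Fermat.Agent.CFT.Cyclic.Carry
import Fermat.Prelude.Def_GroupCohomology_ContinuousH2

/-!
# Local triviality of a cyclic class implies approximate local norms (shape (D))

`K ≤ L ≤ Qb` finite over `ℚ`, `L/K` cyclic of prime degree `p`, encoded by an additive character
`χ : Fix K → ZMod p` with kernel `Fix L` and an element `s` with `χ s = 1`.  Let `b ∈ Kˣ` and let
`A` be a valuation subring of `Qb` over the prime `q`, `D' = D(A) ⊓ Fix K`.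

`exists_norm_approx`: if the carry cocycle `carry χ b` is, on `D'`, the coboundary of a
level-constant cochain `u : D' → Qbˣ` (local triviality in shape (D)), then for every `N` there is
`y ∈ L`, `y ≠ 0`, with `b ≡ N_{L/K}(y) = ∏_{k<p} s^k y` modulo `q ^ N • A`.

Nonsplit case: `Carry.exists_norm_of_carry_eq_dOne` + level-constant Hilbert 90 give
`b = N(c)` with `c` in the decomposition field of `L`; `L` is dense there (`Density`).
Split case: weak approximation with the CRT idempotent of `Density` (no hypothesis on `b`).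
-/

set_option autoImplicit false

open scoped Pointwise

namespace Fermat.Agent.CFT.Global.HP.LN

open Fermat.Agent.Lib Fermat.Agent.CFT.Cyclic groupCohomology

local notation "Qb" => AlgebraicClosure ℚ
local notation "Gq" => (AlgebraicClosure ℚ ≃ₐ[ℚ] AlgebraicClosure ℚ)

attribute [local instance] Fermat.Agent.Lib.FrobProfinite.isAlgebraic_Qb
  Fermat.Agent.Lib.FrobProfinite.isAlgClosure_Qb

section aux

variable {A : ValuationSubring Qb} {q : ℕ}

/-- Products of congruent elements of `A` are congruent. -/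
lemma prod_sub_prod_mem_lvl {N : ℕ} (n : ℕ) (a b : ℕ → Qb) (hb : ∀ k < n, b k ∈ A)
    (ha : ∀ k < n, a k ∈ A) (hab : ∀ k < n, a k - b k ∈ lvl A q N) :
    ∏ k ∈ Finset.range n, a k - ∏ k ∈ Finset.range n, b k ∈ lvl A q N := by
  induction n with
  | zero =>
    simp only [Finset.range_zero, Finset.prod_empty, sub_self]
    exact (lvl A q N).zero_mem
  | succ n ih =>
    rw [Finset.prod_range_succ, Finset.prod_range_succ]
    have h1 : (∏ k ∈ Finset.range n, a k) * a n - (∏ k ∈ Finset.range n, b k) * b n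
        = (∏ k ∈ Finset.range n, a k - ∏ k ∈ Finset.range n, b k) * a n
          + (∏ k ∈ Finset.range n, b k) * (a n - b n) := by ring
    rw [h1]
    refine (lvl A q N).add_mem
      (lvl_mul_mem (ih (fun k hk => hb k (by omega)) (fun k hk => ha k (by omega))
        (fun k hk => hab k (by omega))) (ha n (by omega))) ?_
    exact mul_lvl_mem (prod_mem fun k hk => hb k (by have := Finset.mem_range.mp hk; omega))
      (hab n (by omega))

/-- Shifting the level by a bounded denominator. -/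
lemma lvl_mul_of_pow_mul_mem {a M : ℕ} {x c : Qb} (hx : x ∈ lvl A q (a + M))
    (hc : (q : Qb) ^ M * c ∈ A) : x * c ∈ lvl A q a := by
  obtain ⟨w, hw, rfl⟩ := hx
  exact ⟨w * ((q : Qb) ^ M * c), A.mul_mem _ _ hw hc, by ring⟩

end aux

section main

variable {A : ValuationSubring Qb} {q : ℕ} {p : ℕ} [Fact p.Prime]

/-- Elements of `Fix K` fixing a unit fix its value. -/
lemma coe_smul_units (g : Gq) (c : Qbˣ) : ((g • c : Qbˣ) : Qb) = g (c : Qb) := rfl

/-- **Nonsplit case.** -/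
theorem exists_norm_approx_of_nonsplit (hq : q.Prime) (hA : A.LiesOverPrime q)
    (K L : IntermediateField ℚ Qb) [FiniteDimensional ℚ L] (hKL : K ≤ L)
    (χ : K.fixingSubgroup → ZMod p) (hχ : ∀ σ τ, χ (σ * τ) = χ σ + χ τ)
    (hker : ∀ g : K.fixingSubgroup, χ g = 0 ↔ (g : Gq) ∈ L.fixingSubgroup)
    (s : K.fixingSubgroup) (hs : χ s = 1)
    (b : Qbˣ)
    (u : ↥(A.decompositionSubgroup ℚ ⊓ K.fixingSubgroup) → Qbˣ)
    (hlev : IsLevelConstant₁ (Subgroup.subtype (A.decompositionSubgroup ℚ ⊓ K.fixingSubgroup)) u)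
    (hu : ∀ g h : ↥(A.decompositionSubgroup ℚ ⊓ K.fixingSubgroup),
      carry χ b (⟨g, g.2.2⟩, ⟨h, h.2.2⟩) = (g : Gq) • u h / u (g * h) * u g)
    (hbfix : ∀ g : K.fixingSubgroup, (g : Gq) • b = b)
    (d₀ : ↥(A.decompositionSubgroup ℚ ⊓ K.fixingSubgroup)) (hd₀ : χ ⟨d₀, d₀.2.2⟩ ≠ 0)
    (N : ℕ) :
    ∃ y ∈ L, y ≠ 0 ∧ (b : Qb) - ∏ k ∈ Finset.range p, ((s : Gq) ^ k) y ∈ lvl A q N := by
  classical
  have hp : p.Prime := Fact.out
  have hLK : L.fixingSubgroup ≤ K.fixingSubgroup := IntermediateField.fixingSubgroup_antitone hKL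
  let incl : ↥(A.decompositionSubgroup ℚ ⊓ K.fixingSubgroup) → K.fixingSubgroup := fun g => ⟨g, g.2.2⟩
  have hincl_mul : ∀ g h : ↥(A.decompositionSubgroup ℚ ⊓ K.fixingSubgroup), incl (g * h) = incl g * incl h := fun g h => rfl
  let χ' : ↥(A.decompositionSubgroup ℚ ⊓ K.fixingSubgroup) → ZMod p := fun g => χ (incl g)
  have hχ' : ∀ σ τ : ↥(A.decompositionSubgroup ℚ ⊓ K.fixingSubgroup), χ' (σ * τ) = χ' σ + χ' τ := fun σ τ => by
    show χ (incl σ * incl τ) = χ (incl σ) + χ (incl τ)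
    exact hχ _ _
  -- an element of `D'` with `χ' = 1`
  obtain ⟨s', hs'⟩ : ∃ s' : ↥(A.decompositionSubgroup ℚ ⊓ K.fixingSubgroup), χ' s' = 1 := by
    refine ⟨d₀ ^ ((χ' d₀)⁻¹).val, ?_⟩
    rw [map_pow_eq hχ', ZMod.natCast_zmod_val]
    exact inv_mul_cancel₀ hd₀
  -- the hypotheses of the carry lemma
  have hb' : ∀ σ : ↥(A.decompositionSubgroup ℚ ⊓ K.fixingSubgroup), σ • b = b := fun σ => hbfix (incl σ)
  have hu' : carry χ' b = dOne u := by
    funext ⟨g, h⟩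
    exact hu g h
  -- Hilbert 90 on the kernel
  let inclH : ↥(A.decompositionSubgroup ℚ ⊓ L.fixingSubgroup) → ↥(A.decompositionSubgroup ℚ ⊓ K.fixingSubgroup) := fun h => ⟨h, h.2.1, hLK h.2.2⟩
  have hχH : ∀ h : ↥(A.decompositionSubgroup ℚ ⊓ L.fixingSubgroup), χ' (inclH h) = 0 := fun h => (hker _).mpr h.2.2
  have hcocH : ∀ g h : ↥(A.decompositionSubgroup ℚ ⊓ L.fixingSubgroup), u (inclH (g * h)) = g • u (inclH h) * u (inclH g) := by
    intro g h
    have h1 := hu (inclH g) (inclH h)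
    have h2 : carry χ b (⟨inclH g, (inclH g).2.2⟩, ⟨inclH h, (inclH h).2.2⟩) = 1 :=
      carry_of_left_eq_zero χ b _ (hχH g)
    rw [h2] at h1
    have h3 : inclH g * inclH h = inclH (g * h) := rfl
    rw [h3] at h1
    have h4 : ((inclH g : ↥(A.decompositionSubgroup ℚ ⊓ K.fixingSubgroup)) : Gq) • u (inclH h) = g • u (inclH h) := rfl
    rw [h4] at h1
    have h5 := h1.symm
    rw [div_mul_eq_mul_div, div_eq_one] at h5
    exact h5.symm
  have hlevH : ∃ F : IntermediateField ℚ Qb, FiniteDimensional ℚ F ∧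
      ∀ g s : ↥(A.decompositionSubgroup ℚ ⊓ L.fixingSubgroup), (s : Gq) ∈ F.fixingSubgroup → u (inclH (g * s)) = u (inclH g) := by
    obtain ⟨F, hF, h⟩ := hlev
    exact ⟨F, hF, fun g s hs => h (inclH g) (inclH s) hs⟩
  obtain ⟨γ, hγ⟩ := hilbert90_level (A.decompositionSubgroup ℚ ⊓ L.fixingSubgroup) (fun h => u (inclH h)) hcocH hlevH
  have hγ' : ∀ h : ↥(A.decompositionSubgroup ℚ ⊓ K.fixingSubgroup), χ' h = 0 → u h = h • γ / γ := by
    intro h hh
    have hmem : (h : Gq) ∈ L.fixingSubgroup := (hker _).mp hh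
    exact hγ ⟨h, h.2.1, hmem⟩
  obtain ⟨c, hcfix, hbc⟩ := exists_norm_of_carry_eq_dOne hχ' hb' hu' hγ' hs'
  -- `c` lies in the decomposition field of `L`
  have hcfix' : ∀ g ∈ A.decompositionSubgroup ℚ ⊓ L.fixingSubgroup, g (c : Qb) = c := by
    intro g hg
    have h1 : (⟨g, hg.1, hLK hg.2⟩ : ↥(A.decompositionSubgroup ℚ ⊓ K.fixingSubgroup)) • c = c := hcfix _ ((hker _).mpr hg.2)
    exact congrArg Units.val h1
  obtain ⟨M₁, hM₁⟩ := exists_pow_mul_mem (A := A) hq hA (c : Qb)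
  obtain ⟨M₂, hM₂⟩ := exists_not_mem_lvl (A := A) hq hA c.ne_zero
  obtain ⟨y, hyL, hy⟩ := exists_approx_of_fixed hq hA L (c : Qb) hcfix' (N + M₂ + p * M₁)
  have hy0 : y ≠ 0 := by
    rintro rfl
    rw [sub_zero] at hy
    exact hM₂ _ (by omega) hy
  refine ⟨y, hyL, hy0, ?_⟩
  -- `s ^ k` and `s' ^ k` agree on `L`
  have hagree : ∀ k : ℕ, ((s : Gq) ^ k) y = (((s' : ↥(A.decompositionSubgroup ℚ ⊓ K.fixingSubgroup)) : Gq) ^ k) y := by
    intro k
    have h1 : χ ((s ^ k)⁻¹ * incl (s' ^ k)) = 0 := by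
      rw [hχ, map_inv_eq_neg hχ, map_pow_eq hχ, hs]
      have : χ (incl (s' ^ k)) = χ' (s' ^ k) := rfl
      rw [this, map_pow_eq hχ', hs']
      ring
    have h2 := (hker _).mp h1
    rw [IntermediateField.mem_fixingSubgroup_iff] at h2
    have h3 := h2 y hyL
    have h4 : (((s ^ k)⁻¹ * incl (s' ^ k) : K.fixingSubgroup) : Gq) y
        = ((s : Gq) ^ k)⁻¹ ((((s' : ↥(A.decompositionSubgroup ℚ ⊓ K.fixingSubgroup)) : Gq) ^ k) y) := rfl
    rw [h4] at h3
    have h5 : ((s : Gq) ^ k) (((s : Gq) ^ k)⁻¹ ((((s' : ↥(A.decompositionSubgroup ℚ ⊓ K.fixingSubgroup)) : Gq) ^ k) y))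
        = (((s' : ↥(A.decompositionSubgroup ℚ ⊓ K.fixingSubgroup)) : Gq) ^ k) y := AlgEquiv.apply_symm_apply _ _
    rw [h3] at h5
    exact h5
  rw [Finset.prod_congr rfl fun k _ => hagree k]
  -- `b` as a product of conjugates of `c`
  have hbc' : (b : Qb) = ∏ k ∈ Finset.range p, (((s' : ↥(A.decompositionSubgroup ℚ ⊓ K.fixingSubgroup)) : Gq) ^ k) (c : Qb) := by
    rw [hbc, Units.coe_prod]
    rfl
  rw [hbc']
  -- the estimate
  have hs'D : ∀ k : ℕ, ((s' : ↥(A.decompositionSubgroup ℚ ⊓ K.fixingSubgroup)) : Gq) ^ k ∈ A.decompositionSubgroup ℚ := fun k =>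
    Subgroup.pow_mem _ s'.2.1 k
  set a₁ : ℕ → Qb := fun k => (q : Qb) ^ M₁ * (((s' : ↥(A.decompositionSubgroup ℚ ⊓ K.fixingSubgroup)) : Gq) ^ k) (c : Qb) with ha₁
  set b₁ : ℕ → Qb := fun k => (q : Qb) ^ M₁ * (((s' : ↥(A.decompositionSubgroup ℚ ⊓ K.fixingSubgroup)) : Gq) ^ k) y with hb₁
  have ha₁A : ∀ k, a₁ k ∈ A := by
    intro k
    have : a₁ k = (((s' : ↥(A.decompositionSubgroup ℚ ⊓ K.fixingSubgroup)) : Gq) ^ k) ((q : Qb) ^ M₁ * (c : Qb)) := by
      simp only [ha₁, map_mul, map_pow, map_natCast]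
    rw [this]
    exact decomp_mem (hs'D k) hM₁
  have hab₁ : ∀ k, a₁ k - b₁ k ∈ lvl A q (N + M₂ + p * M₁) := by
    intro k
    have : a₁ k - b₁ k = (q : Qb) ^ M₁ * (((s' : ↥(A.decompositionSubgroup ℚ ⊓ K.fixingSubgroup)) : Gq) ^ k) ((c : Qb) - y) := by
      simp only [ha₁, hb₁, map_sub]; ring
    rw [this]
    exact mul_lvl_mem (A.pow_mem (natCast_mem_A q) M₁) (decomp_lvl_mem (hs'D k) hy)
  have hb₁A : ∀ k, b₁ k ∈ A := by
    intro k
    have : b₁ k = a₁ k - (a₁ k - b₁ k) := by ring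
    rw [this]
    exact sub_mem (ha₁A k) (lvl_le (hab₁ k))
  have hprod := prod_sub_prod_mem_lvl (A := A) (q := q) p a₁ b₁ (fun k _ => hb₁A k)
    (fun k _ => ha₁A k) (fun k _ => hab₁ k)
  obtain ⟨w, hw, hweq⟩ := hprod
  have hq0 : (q : Qb) ≠ 0 := Nat.cast_ne_zero.mpr hq.ne_zero
  have hpa : ∏ k ∈ Finset.range p, a₁ k
      = (q : Qb) ^ (p * M₁) * ∏ k ∈ Finset.range p, (((s' : ↥(A.decompositionSubgroup ℚ ⊓ K.fixingSubgroup)) : Gq) ^ k) (c : Qb) := by
    simp only [ha₁]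
    rw [Finset.prod_mul_distrib, Finset.prod_const, Finset.card_range, ← pow_mul, mul_comm M₁ p]
  have hpb : ∏ k ∈ Finset.range p, b₁ k
      = (q : Qb) ^ (p * M₁) * ∏ k ∈ Finset.range p, (((s' : ↥(A.decompositionSubgroup ℚ ⊓ K.fixingSubgroup)) : Gq) ^ k) y := by
    simp only [hb₁]
    rw [Finset.prod_mul_distrib, Finset.prod_const, Finset.card_range, ← pow_mul, mul_comm M₁ p]
  rw [hpa, hpb] at hweq
  refine ⟨(q : Qb) ^ M₂ * w, A.mul_mem _ _ (A.pow_mem (natCast_mem_A q) M₂) hw, ?_⟩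
  have hqp : (q : Qb) ^ (p * M₁) ≠ 0 := pow_ne_zero _ hq0
  apply mul_left_cancel₀ hqp
  rw [mul_sub, hweq]
  ring

/-- **Split case** (weak approximation; no hypothesis on `b`). -/
theorem exists_norm_approx_of_split (hq : q.Prime) (hA : A.LiesOverPrime q)
    (K L : IntermediateField ℚ Qb) [FiniteDimensional ℚ L] (hKL : K ≤ L)
    (χ : K.fixingSubgroup → ZMod p) (hχ : ∀ σ τ, χ (σ * τ) = χ σ + χ τ)
    (hker : ∀ g : K.fixingSubgroup, χ g = 0 ↔ (g : Gq) ∈ L.fixingSubgroup)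
    (s : K.fixingSubgroup) (hs : χ s = 1)
    (b : Qbˣ) (hbfix : ∀ g : K.fixingSubgroup, (g : Gq) • b = b)
    (hsplit : ∀ d : ↥(A.decompositionSubgroup ℚ ⊓ K.fixingSubgroup), χ ⟨d, d.2.2⟩ = 0)
    (N : ℕ) :
    ∃ y ∈ L, y ≠ 0 ∧ (b : Qb) - ∏ k ∈ Finset.range p, ((s : Gq) ^ k) y ∈ lvl A q N := by
  classical
  have hp : p.Prime := Fact.out
  have hgal : IsGalois ℚ Qb := Fermat.Agent.Lib.FrobProfinite.isGalois_Qb
  set β : Qb := (b : Qb) with hβ
  have hβK : β ∈ K := by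
    rw [← InfiniteGalois.fixedField_fixingSubgroup K, IntermediateField.mem_fixedField_iff]
    intro g hg
    exact congrArg Units.val (hbfix ⟨g, hg⟩)
  have hβL : β ∈ L := hKL hβK
  obtain ⟨M, hM⟩ := exists_pow_mul_mem (A := A) hq hA β
  obtain ⟨M₂, hM₂⟩ := exists_not_mem_lvl (A := A) hq hA b.ne_zero
  have hM' : (q : Qb) ^ M * (β - 1) ∈ A := by
    rw [mul_sub, mul_one]
    exact sub_mem hM (A.pow_mem (natCast_mem_A q) M)
  obtain ⟨e, heL, hei, he1, hebad⟩ :=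
    exists_idempotent (A := A) hq hA K L hKL (N + M₂ + M + M)
  have hse : ∀ k, 1 ≤ k → k < p → ((s : Gq) ^ k) e ∈ lvl A q (N + M₂ + M + M) := by
    intro k hk1 hkp
    have hsk : ((s : Gq) ^ k) ∈ K.fixingSubgroup := Subgroup.pow_mem _ s.2 k
    rcases hebad _ hsk with ⟨d, hd, hdx⟩ | h
    · exfalso
      have hd0 : χ ⟨d, hd.2⟩ = 0 := hsplit ⟨d, hd⟩
      have hdL : d ∈ L.fixingSubgroup := (hker _).mp hd0
      have hskL : ((s ^ k : K.fixingSubgroup) : Gq) ∈ L.fixingSubgroup := by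
        rw [IntermediateField.mem_fixingSubgroup_iff]
        intro x hx
        have h1 := hdx x hx
        rw [IntermediateField.mem_fixingSubgroup_iff] at hdL
        rw [hdL x hx] at h1
        exact h1.symm
      have h0 : χ (s ^ k) = 0 := (hker _).mpr hskL
      rw [map_pow_eq hχ, hs, mul_one] at h0
      have hdvd : p ∣ k := (ZMod.natCast_eq_zero_iff k p).mp h0
      exact absurd (Nat.le_of_dvd (by omega) hdvd) (by omega)
    · exact h
  set y : Qb := 1 + e * (β - 1) with hy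
  have hyL : y ∈ L := L.add_mem L.one_mem (L.mul_mem heL (L.sub_mem hβL L.one_mem))
  have hyβ : y - β ∈ lvl A q (N + M₂ + M) := by
    have h1 : y - β = (e - 1) * (β - 1) := by rw [hy]; ring
    rw [h1]
    exact lvl_mul_of_pow_mul_mem he1 hM'
  have hsβ : ∀ k : ℕ, ((s : Gq) ^ k) β = β := fun k => congrArg Units.val (hbfix (s ^ k))
  have hsy : ∀ k, 1 ≤ k → k < p → ((s : Gq) ^ k) y - 1 ∈ lvl A q (N + M₂ + M) := by
    intro k hk1 hkp
    have h1 : ((s : Gq) ^ k) y - 1 = ((s : Gq) ^ k) e * (β - 1) := by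
      rw [hy, map_add, map_one, map_mul, map_sub, map_one, hsβ]; ring
    rw [h1]
    exact lvl_mul_of_pow_mul_mem (hse k hk1 hkp) hM'
  have hy0 : y ≠ 0 := by
    intro h0
    rw [h0, zero_sub] at hyβ
    have h1 : β ∈ lvl A q (N + M₂ + M) := by simpa using (lvl A q _).neg_mem hyβ
    exact hM₂ _ (by omega) h1
  refine ⟨y, hyL, hy0, ?_⟩
  obtain ⟨n, hn⟩ : ∃ n, p = n + 1 := ⟨p - 1, by have := hp.pos; omega⟩
  rw [hn, Finset.prod_range_succ']
  simp only [pow_zero, AlgEquiv.one_apply]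
  set P : Qb := ∏ k ∈ Finset.range n, ((s : Gq) ^ (k + 1)) y with hP
  have hP1 : P - 1 ∈ lvl A q (N + M₂ + M) := by
    have h1 := prod_sub_prod_mem_lvl (A := A) (q := q) (N := N + M₂ + M) n
      (fun k => ((s : Gq) ^ (k + 1)) y) (fun _ => 1) (fun _ _ => A.one_mem) ?_ ?_
    · simp only [Finset.prod_const_one] at h1
      exact h1
    · intro k hk
      have h3 := hsy (k + 1) (by omega) (by omega)
      have h2 : ((s : Gq) ^ (k + 1)) y = 1 + (((s : Gq) ^ (k + 1)) y - 1) := by ring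
      rw [h2]
      exact A.add_mem _ _ A.one_mem (lvl_le h3)
    · intro k hk
      exact hsy (k + 1) (by omega) (by omega)
  have hPA : P ∈ A := by
    have h1 : P = 1 + (P - 1) := by ring
    rw [h1]
    exact A.add_mem _ _ A.one_mem (lvl_le hP1)
  have hfin : β - P * y = -((y - β) * P) - (P - 1) * β := by ring
  rw [hfin]
  refine (lvl A q N).sub_mem ((lvl A q N).neg_mem ?_) ?_
  · exact lvl_anti (by omega) (lvl_mul_mem hyβ hPA)
  · exact lvl_anti (by omega) (lvl_mul_of_pow_mul_mem (a := N + M₂) hP1 hM)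

/-- **(CA) Local triviality implies approximate local norm.**  If the carry cocycle of
`b ∈ Kˣ` for the cyclic extension `L/K` of degree `p` is, on `D(A) ⊓ Fix K`, the coboundary of a
level-constant `Qbˣ`-valued cochain, then `b` is congruent to norms `∏_{k<p} s^k y` (`y ∈ Lˣ`)
modulo `q ^ N • A` for every `N`. -/
theorem exists_norm_approx (hq : q.Prime) (hA : A.LiesOverPrime q)
    (K L : IntermediateField ℚ Qb) [FiniteDimensional ℚ L] (hKL : K ≤ L)
    (χ : K.fixingSubgroup → ZMod p) (hχ : ∀ σ τ, χ (σ * τ) = χ σ + χ τ)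
    (hker : ∀ g : K.fixingSubgroup, χ g = 0 ↔ (g : Gq) ∈ L.fixingSubgroup)
    (s : K.fixingSubgroup) (hs : χ s = 1)
    (b : Qbˣ) (hbfix : ∀ g : K.fixingSubgroup, (g : Gq) • b = b)
    (hloc : ∃ u : ↥(A.decompositionSubgroup ℚ ⊓ K.fixingSubgroup) → Qbˣ,
      IsLevelConstant₁ (Subgroup.subtype (A.decompositionSubgroup ℚ ⊓ K.fixingSubgroup)) u ∧
      ∀ g h : ↥(A.decompositionSubgroup ℚ ⊓ K.fixingSubgroup),
        carry χ b (⟨g, g.2.2⟩, ⟨h, h.2.2⟩) = (g : Gq) • u h / u (g * h) * u g)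
    (N : ℕ) :
    ∃ y ∈ L, y ≠ 0 ∧ (b : Qb) - ∏ k ∈ Finset.range p, ((s : Gq) ^ k) y ∈ lvl A q N := by
  obtain ⟨u, hlev, hu⟩ := hloc
  by_cases h : ∃ d : ↥(A.decompositionSubgroup ℚ ⊓ K.fixingSubgroup), χ ⟨d, d.2.2⟩ ≠ 0
  · obtain ⟨d₀, hd₀⟩ := h
    exact exists_norm_approx_of_nonsplit hq hA K L hKL χ hχ hker s hs b u hlev hu hbfix d₀ hd₀ N
  · push Not at h
    exact exists_norm_approx_of_split hq hA K L hKL χ hχ hker s hs b hbfix h N

end main

end Fermat.Agent.CFT.Global.HP.LN
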