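import Fermat.Agent.CFT.Global.HP.Real
import Fermat.Agent.CFT.Global.LCGlobal

/-!
# HP-K: from `ℚ̄ˣ`-valued to `μ_p`-valued cochains

Everything is for an arbitrary subgroup `U ≤ Gq = Gal(ℚ̄/ℚ)` (in the applications
`U = K.fixingSubgroup`).

* `zpw p k = ζ_p ^ k : Qbˣ` and its calculus (`zpw_add`, `zpw_sub`, `zpw_smul`, `zpw_pow`,
  `zpw_injective`, `exists_zpw_eq`).
* `exists_torsion_cochain` (Kummer descent): a level-constant cochain `c : U → Qbˣ` whose
  coboundary is `p`-torsion can be replaced by a `p`-torsion level-constant cochain with the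
  same coboundary.
* `hp_K_of_units` (ζ-translation): the Hasse principle for `𝔽_p(1)`-valued 2-cocycles of `U`
  (raw functions, twisted by the cyclotomic character) from the Hasse principle for
  `p`-torsion `Qbˣ`-valued 2-cocycles (the conclusion of `Tower.hp_units`, as a hypothesis).
* `hp_K_rep_of_units`: the same in the Prelude language (`levelCocycles₂`,
  `levelCoboundaries₂` for `Rep.res U.subtype (ofChar (cycloChar p))`).
-/

set_option autoImplicit false
set_option linter.style.haveILetI false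

open CategoryTheory groupCohomology ExtCitation

namespace Fermat.Agent.CFT.Global.HP.MuDescent

open Fermat.Agent.CFT.Global.HP Fermat.Agent.CFT.Global.LCGlobal Fermat.Agent.CFT.LocalBr

variable (p : ℕ) [Fact p.Prime]

/-- `k ↦ ζ_p ^ k`, the embedding of `𝔽_p(1)` into `ℚ̄ˣ`. -/
noncomputable def zpw (k : ZMod p) : Qbˣ := Additive.toMul (muEmbQ p k)

theorem zpw_add (k l : ZMod p) : zpw p (k + l) = zpw p k * zpw p l := by
  rw [zpw, map_add]; rfl

theorem zpw_sub (k l : ZMod p) : zpw p (k - l) = zpw p k / zpw p l := by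
  rw [zpw, map_sub]; rfl

theorem zpw_injective : Function.Injective (zpw p) :=
  Additive.toMul.injective.comp (muEmbQ_injective p)

theorem zpw_smul (σ : Gq) (k : ZMod p) :
    σ • zpw p k = zpw p (((cycloChar p σ : (ZMod p)ˣ) : ZMod p) * k) :=
  congrArg Additive.toMul (muEmbQ_equivariant p σ k)

theorem zpw_pow (k : ZMod p) : zpw p k ^ p = 1 := by
  have h : p • muEmbQ p k = 0 := by
    rw [← map_nsmul]
    simp
  exact congrArg Additive.toMul h

theorem exists_zpw_eq (y : Qbˣ) (hy : y ^ p = 1) : ∃ k : ZMod p, zpw p k = y := by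
  have h : Additive.ofMul y ∈ Set.range (muEmbQ p) := by
    rw [mem_range_muEmbQ_iff]
    exact congrArg Additive.ofMul hy
  obtain ⟨k, hk⟩ := h
  exact ⟨k, congrArg Additive.toMul hk⟩


/-- A commutative-group identity. -/
theorem div_twist_aux {M : Type*} [CommGroup M] (A B C P Q Y : M) :
    A / (P / Q) / (B / (P / Y)) * (C / (Q / Y)) = A / B * C := by
  have h : ∀ a b c p q y : Additive M,
      a - (p - q) - (b - (p - y)) + (c - (q - y)) = a - b + c := by
    intros
    abel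
  exact h A B C P Q Y

/-! ### Kummer descent -/

/-- The cochain `s ↦ s • y / y` is level-constant. -/
theorem isLevelConstant₁_smul_div (U : Subgroup Gq) (y : Qbˣ) :
    IsLevelConstant₁ (Subgroup.subtype U) (fun s : U => (s : Gq) • y / y) := by
  haveI : Algebra.IsAlgebraic ℚ Qb := AlgebraicClosure.isAlgebraic ℚ
  refine ⟨IntermediateField.adjoin ℚ {(y : Qb)},
    IntermediateField.adjoin.finiteDimensional (Algebra.IsIntegral.isIntegral _),
    fun g s hs => ?_⟩
  have h1 : ((s : U) : Gq) ∈ (IntermediateField.adjoin ℚ {(y : Qb)}).fixingSubgroup := hs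
  rw [IntermediateField.mem_fixingSubgroup_iff] at h1
  have h2 : ((s : U) : Gq) • y = y :=
    Units.ext (h1 _ (IntermediateField.mem_adjoin_simple_self ℚ _))
  show ((g * s : U) : Gq) • y / y = (g : Gq) • y / y
  rw [Subgroup.coe_mul, mul_smul, h2]

/-- **Kummer descent.** A level-constant cochain `c : U → Qbˣ` whose coboundary is
`p`-torsion can be replaced by a `p`-torsion level-constant cochain with the same coboundary. -/
theorem exists_torsion_cochain (U : Subgroup Gq) (c : U → Qbˣ)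
    (hc : IsLevelConstant₁ (Subgroup.subtype U) c)
    (hpow : ∀ s t : U, ((s : Gq) • c t / c (s * t) * c s) ^ p = 1) :
    ∃ c' : U → Qbˣ, IsLevelConstant₁ (Subgroup.subtype U) c' ∧ (∀ s, c' s ^ p = 1) ∧
      ∀ s t : U, (s : Gq) • c' t / c' (s * t) * c' s = (s : Gq) • c t / c (s * t) * c s := by
  classical
  have hp : p.Prime := Fact.out
  obtain ⟨F, hF, hlev⟩ := hc
  haveI := hF
  -- `c ^ p` is a level-constant 1-cocycle: Hilbert 90
  obtain ⟨x, hx⟩ := Fermat.Agent.CFT.Cyclic.exists_smul_div_eq_of_levelConstant U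
    (fun σ => if h : σ ∈ U then c ⟨σ, h⟩ ^ p else 1)
    (fun g hg h hh => by
      simp only [dif_pos hg, dif_pos hh, dif_pos (U.mul_mem hg hh)]
      have h1 := hpow ⟨g, hg⟩ ⟨h, hh⟩
      rw [mul_pow, div_pow, div_mul_eq_mul_div, div_eq_one] at h1
      rw [smul_pow']
      exact h1.symm)
    F
    (fun g hg s hs hsF => by
      simp only [dif_pos hg, dif_pos (U.mul_mem hg hs)]
      exact congrArg (· ^ p) (hlev ⟨g, hg⟩ ⟨s, hs⟩ hsF))
  have hx' : ∀ s : U, (s : Gq) • x / x = c s ^ p := by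
    intro s
    rw [hx s s.2]
    simp only [dif_pos s.2]
  -- a `p`-th root of `x`
  obtain ⟨z, hz⟩ := IsAlgClosed.exists_pow_nat_eq (x : Qb) hp.pos
  have hz0 : z ≠ 0 := by
    rintro rfl
    rw [zero_pow hp.ne_zero] at hz
    exact x.ne_zero hz.symm
  obtain ⟨y, hy⟩ : ∃ y : Qbˣ, y ^ p = x :=
    ⟨Units.mk0 z hz0, Units.ext (by rw [Units.val_pow_eq_pow_val, Units.val_mk0, hz])⟩
  obtain ⟨F', hF', hlev'⟩ := isLevelConstant₁_smul_div U y
  haveI := hF'
  refine ⟨fun s => c s / ((s : Gq) • y / y), ⟨F ⊔ F', inferInstance, fun g s hs => ?_⟩,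
    fun s => ?_, fun s t => ?_⟩
  · have hs1 : ((s : U) : Gq) ∈ F.fixingSubgroup :=
      IntermediateField.fixingSubgroup_antitone le_sup_left hs
    have hs2 : ((s : U) : Gq) ∈ F'.fixingSubgroup :=
      IntermediateField.fixingSubgroup_antitone le_sup_right hs
    have e1 := hlev g s hs1
    have e2 := hlev' g s hs2
    show c (g * s) / (((g * s : U) : Gq) • y / y) = c g / ((g : Gq) • y / y)
    rw [e1]
    exact congrArg (c g / ·) e2
  · show (c s / ((s : Gq) • y / y)) ^ p = 1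
    rw [div_pow, div_pow, ← smul_pow', hy, hx' s, div_self']
  · show (s : Gq) • (c t / ((t : Gq) • y / y)) / (c (s * t) / (((s * t : U) : Gq) • y / y)) *
        (c s / ((s : Gq) • y / y)) = (s : Gq) • c t / c (s * t) * c s
    rw [Subgroup.coe_mul, mul_smul, smul_div', smul_div']
    exact div_twist_aux ((s : Gq) • c t) (c (s * t)) (c s) ((s : Gq) • (t : Gq) • y)
      ((s : Gq) • y) y

/-! ### ζ-translation -/

/-- A set-theoretic inverse of `zpw` on the `p`-torsion. -/
noncomputable def zlog (y : Qbˣ) : ZMod p :=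
  open Classical in if h : ∃ k : ZMod p, zpw p k = y then h.choose else 0

theorem zpw_zlog (y : Qbˣ) (hy : y ^ p = 1) : zpw p (zlog p y) = y := by
  have h := exists_zpw_eq p y hy
  rw [zlog, dif_pos h]
  exact h.choose_spec

/-- **HP-K, raw form, from the Hasse principle for `p`-torsion `Qbˣ`-valued cocycles.**
`hU` is literally the conclusion of `Tower.hp_units` (for `U = K.fixingSubgroup`). -/
theorem hp_K_of_units (U : Subgroup Gq)
    (hU : ∀ a' : U × U → Qbˣ, IsMulCocycle₂ a' →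
      IsLevelConstant₂ (Subgroup.subtype U) a' → (∀ s t, a' (s, t) ^ p = 1) → LocTriv U a' →
      ∃ c : U → Qbˣ, IsLevelConstant₁ (Subgroup.subtype U) c ∧
        ∀ s t : U, a' (s, t) = (s : Gq) • c t / c (s * t) * c s)
    (a : U × U → ZMod p)
    (hcoc : ∀ g h j : U, a (g * h, j) + a (g, h) =
      ((cycloChar p (g : Gq) : (ZMod p)ˣ) : ZMod p) * a (h, j) + a (g, h * j))
    (hlev : IsLevelConstant₂ (Subgroup.subtype U) a)
    (hloc : ∀ q : ℕ, q.Prime → ∀ Av : ValuationSubring Qb, Av.LiesOverPrime q →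
      ∃ t : ↥(Av.decompositionSubgroup ℚ ⊓ U) → ZMod p,
        IsLevelConstant₁ (Subgroup.subtype (Av.decompositionSubgroup ℚ ⊓ U)) t ∧
        ∀ s s' : ↥(Av.decompositionSubgroup ℚ ⊓ U),
          a (⟨s, s.2.2⟩, ⟨s', s'.2.2⟩) =
            ((cycloChar p (s : Gq) : (ZMod p)ˣ) : ZMod p) * t s' - t (s * s') + t s) :
    ∃ c : U → ZMod p, IsLevelConstant₁ (Subgroup.subtype U) c ∧
      ∀ g h : U, a (g, h) =
        ((cycloChar p (g : Gq) : (ZMod p)ˣ) : ZMod p) * c h - c (g * h) + c g := by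
  obtain ⟨c, hc, hd⟩ := hU (fun st => zpw p (a st))
    (fun g h j => by
      show zpw p (a (g * h, j)) * zpw p (a (g, h)) =
        g • zpw p (a (h, j)) * zpw p (a (g, h * j))
      rw [← zpw_add, hcoc, zpw_add, Subgroup.smul_def, zpw_smul])
    (hlev.comp (zpw p)) (fun s t => zpw_pow p _)
    (fun q hq Av hAv => by
      obtain ⟨t, ht, hdt⟩ := hloc q hq Av hAv
      refine ⟨fun s => zpw p (t s), ht.comp (zpw p), fun s s' => ?_⟩
      show zpw p (a (⟨s, s.2.2⟩, ⟨s', s'.2.2⟩)) = _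
      rw [hdt, zpw_add, zpw_sub, zpw_smul])
  obtain ⟨c', hc', hc'p, hd'⟩ := exists_torsion_cochain p U c hc
    (fun s t => by rw [← hd s t]; exact zpw_pow p _)
  refine ⟨fun s => zlog p (c' s), hc'.comp (zlog p), fun g h => ?_⟩
  apply zpw_injective p
  rw [zpw_add, zpw_sub, ← zpw_smul, zpw_zlog p _ (hc'p h), zpw_zlog p _ (hc'p (g * h)),
    zpw_zlog p _ (hc'p g), hd' g h]
  exact hd g h

/-- **HP-K, Prelude form** (`levelCocycles₂` / `levelCoboundaries₂` for
`Rep.res U.subtype (ofChar (cycloChar p))`), from the Hasse principle for `p`-torsion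
`Qbˣ`-valued cocycles. -/
theorem hp_K_rep_of_units (U : Subgroup Gq)
    (hU : ∀ a' : U × U → Qbˣ, IsMulCocycle₂ a' →
      IsLevelConstant₂ (Subgroup.subtype U) a' → (∀ s t, a' (s, t) ^ p = 1) → LocTriv U a' →
      ∃ c : U → Qbˣ, IsLevelConstant₁ (Subgroup.subtype U) c ∧
        ∀ s t : U, a' (s, t) = (s : Gq) • c t / c (s * t) * c s)
    (a : U × U → muQ p)
    (ha : a ∈ levelCocycles₂ (Subgroup.subtype U) (Rep.res (Subgroup.subtype U) (muQ p)))
    (hloc : ∀ q : ℕ, q.Prime → ∀ Av : ValuationSubring Qb, Av.LiesOverPrime q →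
      (fun st : ↥(Av.decompositionSubgroup ℚ ⊓ U) × ↥(Av.decompositionSubgroup ℚ ⊓ U) =>
          a (⟨st.1, st.1.2.2⟩, ⟨st.2, st.2.2.2⟩)) ∈
        levelCoboundaries₂ (Subgroup.subtype (Av.decompositionSubgroup ℚ ⊓ U))
          (Rep.res (Subgroup.subtype (Av.decompositionSubgroup ℚ ⊓ U)) (muQ p))) :
    a ∈ levelCoboundaries₂ (Subgroup.subtype U) (Rep.res (Subgroup.subtype U) (muQ p)) := by
  obtain ⟨hcoc, hlev⟩ := Submodule.mem_inf.1 ha
  obtain ⟨c, hc, hd⟩ := hp_K_of_units p U hU a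
    (fun g h j => (mem_cocycles₂_iff (A := Rep.res (Subgroup.subtype U) (muQ p)) a).1 hcoc g h j)
    hlev
    (fun q hq Av hAv => by
      obtain ⟨t, ht, hdt⟩ := (mem_levelCoboundaries₂_iff _ _ _).1 (hloc q hq Av hAv)
      refine ⟨t, ht, fun s s' => ?_⟩
      have h1 := congrFun hdt (s, s')
      rw [d₁₂_hom_apply] at h1
      exact h1.symm)
  refine (mem_levelCoboundaries₂_iff (Subgroup.subtype U)
    (Rep.res (Subgroup.subtype U) (muQ p)) a).2 ⟨c, hc, ?_⟩
  funext ⟨g, h⟩
  rw [d₁₂_hom_apply]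
  exact (hd g h).symm

/-- **HP-K, trivial coefficients**: when the cyclotomic character is trivial on `U`
(i.e. `ζ_p` is fixed by `U`), the twist disappears. -/
theorem hp_K_triv_of_units (U : Subgroup Gq)
    (hU : ∀ a' : U × U → Qbˣ, IsMulCocycle₂ a' →
      IsLevelConstant₂ (Subgroup.subtype U) a' → (∀ s t, a' (s, t) ^ p = 1) → LocTriv U a' →
      ∃ c : U → Qbˣ, IsLevelConstant₁ (Subgroup.subtype U) c ∧
        ∀ s t : U, a' (s, t) = (s : Gq) • c t / c (s * t) * c s)
    (hchi : ∀ g : U, cycloChar p (g : Gq) = 1)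
    (a : U × U → ZMod p)
    (hcoc : ∀ g h j : U, a (g * h, j) + a (g, h) = a (h, j) + a (g, h * j))
    (hlev : IsLevelConstant₂ (Subgroup.subtype U) a)
    (hloc : ∀ q : ℕ, q.Prime → ∀ Av : ValuationSubring Qb, Av.LiesOverPrime q →
      ∃ t : ↥(Av.decompositionSubgroup ℚ ⊓ U) → ZMod p,
        IsLevelConstant₁ (Subgroup.subtype (Av.decompositionSubgroup ℚ ⊓ U)) t ∧
        ∀ s s' : ↥(Av.decompositionSubgroup ℚ ⊓ U),
          a (⟨s, s.2.2⟩, ⟨s', s'.2.2⟩) = t s' - t (s * s') + t s) :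
    ∃ c : U → ZMod p, IsLevelConstant₁ (Subgroup.subtype U) c ∧
      ∀ g h : U, a (g, h) = c h - c (g * h) + c g := by
  obtain ⟨c, hc, hd⟩ := hp_K_of_units p U hU a
    (fun g h j => by rw [hchi g, Units.val_one, one_mul]; exact hcoc g h j) hlev
    (fun q hq Av hAv => by
      obtain ⟨t, ht, hdt⟩ := hloc q hq Av hAv
      refine ⟨t, ht, fun s s' => ?_⟩
      rw [hchi ⟨s, s.2.2⟩, Units.val_one, one_mul]
      exact hdt s s')
  refine ⟨c, hc, fun g h => ?_⟩
  have := hd g h
  rwa [hchi g, Units.val_one, one_mul] at this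

end Fermat.Agent.CFT.Global.HP.MuDescent
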