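import Fermat.Agent.CFT.Global.HP.NormQb
import Fermat.Agent.CFT.Global.HP.LocalNormDiv
import Fermat.Agent.CFT.Global.HasseNorm.Final

/-!
# Locally trivial cyclic classes are norms (assembly of the chain (CA) → (CA') → HNT)

`Qb := AlgebraicClosure ℚ`, `Gq := Qb ≃ₐ[ℚ] Qb`.  `K ≤ L ≤ Qb`, `L` finite over `ℚ`, `L / K` cyclic
of odd prime degree `p`, encoded by an additive character `χ : Fix K → ZMod p` with kernel `Fix L`
and an element `s` with `χ s = 1`.

* `hntStmt_of_ne_two`: `HNTStmt p` holds for every prime `p ≠ 2`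
  (`HasseNorm.hasse_norm_odd_prime_of_nonsplit`).
* `exists_norm_eq_of_approx`: `NormQb.exists_norm_eq` without the `HNTStmt` hypothesis.
* `exists_norm_eq_of_locTriv`: if the carry cocycle `carry χ b` of `b ∈ Kˣ` is, on
  `D(A) ⊓ Fix K` for every valuation subring `A` of `Qb` over a prime number, the coboundary of a
  level-constant `Qbˣ`-valued cochain, then `b = ∏_{k<p} s^k y` for some `y ∈ L`
  (`LN.exists_norm_approx_div'` + `exists_norm_eq_of_approx`).
* `exists_norm_eq_of_locTriv_units`: the same with `b : Qbˣ` fixed by `Fix K` and the witness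
  `c : Qbˣ` fixed by the kernel of `χ`, i.e. the hypothesis shape of
  `Cyclic.carry_eq_dOne_of_norm`.
-/

set_option autoImplicit false

namespace Fermat.Agent.CFT.Global.HP.NormQb

open Fermat.Agent.CFT.Global.HasseNorm Fermat.Agent.CFT.Cyclic groupCohomology

local notation "Qb" => AlgebraicClosure ℚ
local notation "Gq" => (AlgebraicClosure ℚ ≃ₐ[ℚ] AlgebraicClosure ℚ)

variable {p : ℕ} [hp : Fact p.Prime]

/-- The Hasse norm theorem in degree `p`, for every odd prime `p`. -/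
theorem hntStmt_of_ne_two (hp2 : p ≠ 2) : HNTStmt p := by
  intro K L _ _ _ _ _ _ hdeg b hb h
  exact hasse_norm_odd_prime_of_nonsplit K L hp.out (hp.out.odd_of_ne_two hp2) hdeg b hb h

/-- **Hasse norm theorem inside `Qb`**, odd prime degree, no hypothesis left: if `b ∈ Kˣ` is
approximated at every valuation subring of `Qb` over a prime number by norms from `L`, then `b`
is a norm from `L`. -/
theorem exists_norm_eq_of_approx (hp2 : p ≠ 2) (K L : IntermediateField ℚ Qb)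
    [FiniteDimensional ℚ L] (hKL : K ≤ L) (χ : ↥K.fixingSubgroup → ZMod p)
    (hadd : ∀ g h, χ (g * h) = χ g + χ h)
    (hker : ∀ g, χ g = 0 ↔ (g : Gq) ∈ L.fixingSubgroup) (s : ↥K.fixingSubgroup) (hs : χ s = 1)
    (b : Qb) (hbK : b ∈ K) (hb : b ≠ 0)
    (happ : ∀ q : ℕ, q.Prime → ∀ A : ValuationSubring Qb, A.LiesOverPrime q → ∀ N : ℕ,
      ∃ y ∈ L, y ≠ 0 ∧ (b - ∏ k ∈ Finset.range p, ((s : Gq) ^ k) y) / (q : Qb) ^ N ∈ A) :
    ∃ y ∈ L, ∏ k ∈ Finset.range p, ((s : Gq) ^ k) y = b :=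
  exists_norm_eq (hntStmt_of_ne_two hp2) K L hKL χ hadd hker s hs b hbK hb happ

/-- **Locally trivial cyclic classes are norms.**  `L / K` cyclic of odd prime degree `p` inside
`Qb`, `b ∈ Kˣ`.  If for every valuation subring `A` of `Qb` over a prime number the carry cocycle
of `b` is, on `D(A) ⊓ Fix K`, the coboundary of a level-constant cochain with values in `Qbˣ`,
then `b` is a norm from `L`. -/
theorem exists_norm_eq_of_locTriv (hp2 : p ≠ 2) (K L : IntermediateField ℚ Qb)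
    [FiniteDimensional ℚ L] (hKL : K ≤ L) (χ : ↥K.fixingSubgroup → ZMod p)
    (hadd : ∀ g h, χ (g * h) = χ g + χ h)
    (hker : ∀ g, χ g = 0 ↔ (g : Gq) ∈ L.fixingSubgroup) (s : ↥K.fixingSubgroup) (hs : χ s = 1)
    (b : Qb) (hbK : b ∈ K) (hb : b ≠ 0)
    (hloc : ∀ q : ℕ, q.Prime → ∀ A : ValuationSubring Qb, A.LiesOverPrime q →
      ∃ u : ↥(A.decompositionSubgroup ℚ ⊓ K.fixingSubgroup) → Qbˣ,
        IsLevelConstant₁ (Subgroup.subtype (A.decompositionSubgroup ℚ ⊓ K.fixingSubgroup)) u ∧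
        ∀ g h : ↥(A.decompositionSubgroup ℚ ⊓ K.fixingSubgroup),
          carry χ (Units.mk0 b hb) (⟨g, g.2.2⟩, ⟨h, h.2.2⟩) = (g : Gq) • u h / u (g * h) * u g) :
    ∃ y ∈ L, ∏ k ∈ Finset.range p, ((s : Gq) ^ k) y = b :=
  exists_norm_eq_of_approx hp2 K L hKL χ hadd hker s hs b hbK hb fun q hq A hA N =>
    LN.exists_norm_approx_div' hq hA K L hKL χ hadd hker s hs b hbK hb (hloc q hq A hA) N

/-- Units form: `b : Qbˣ` fixed by `Fix K`, locally trivial carry cocycle at every valuation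
subring of `Qb` over a prime number; then `b = ∏_{k<p} s^k • c` with `c : Qbˣ` fixed by the kernel
of `χ` (i.e. `c ∈ Lˣ`). -/
theorem exists_norm_eq_of_locTriv_units (hp2 : p ≠ 2) (K L : IntermediateField ℚ Qb)
    [FiniteDimensional ℚ L] (hKL : K ≤ L) (χ : ↥K.fixingSubgroup → ZMod p)
    (hadd : ∀ g h, χ (g * h) = χ g + χ h)
    (hker : ∀ g, χ g = 0 ↔ (g : Gq) ∈ L.fixingSubgroup) (s : ↥K.fixingSubgroup) (hs : χ s = 1)
    (b : Qbˣ) (hbfix : ∀ g : ↥K.fixingSubgroup, (g : Gq) • b = b)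
    (hloc : ∀ q : ℕ, q.Prime → ∀ A : ValuationSubring Qb, A.LiesOverPrime q →
      ∃ u : ↥(A.decompositionSubgroup ℚ ⊓ K.fixingSubgroup) → Qbˣ,
        IsLevelConstant₁ (Subgroup.subtype (A.decompositionSubgroup ℚ ⊓ K.fixingSubgroup)) u ∧
        ∀ g h : ↥(A.decompositionSubgroup ℚ ⊓ K.fixingSubgroup),
          carry χ b (⟨g, g.2.2⟩, ⟨h, h.2.2⟩) = (g : Gq) • u h / u (g * h) * u g) :
    ∃ c : Qbˣ, (∀ h : ↥K.fixingSubgroup, χ h = 0 → (h : Gq) • c = c) ∧
      b = ∏ k ∈ Finset.range p, ((s : Gq) ^ k) • c := by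
  have hgal : IsGalois ℚ Qb := isGalois_Qb'
  have hbK : (b : Qb) ∈ K := by
    rw [← InfiniteGalois.fixedField_fixingSubgroup K, IntermediateField.mem_fixedField_iff]
    intro g hg
    exact congrArg Units.val (hbfix ⟨g, hg⟩)
  have hb0 : (b : Qb) ≠ 0 := b.ne_zero
  have hmk : Units.mk0 (b : Qb) hb0 = b := Units.ext rfl
  obtain ⟨y, hyL, hy⟩ := exists_norm_eq_of_locTriv hp2 K L hKL χ hadd hker s hs (b : Qb) hbK hb0
    (by rw [hmk]; exact hloc)
  have hy0 : y ≠ 0 := by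
    rintro rfl
    have hp0 : p ≠ 0 := hp.out.ne_zero
    have : ∏ k ∈ Finset.range p, ((s : Gq) ^ k) (0 : Qb) = 0 := by
      simp [hp0]
    rw [this] at hy
    exact hb0 hy.symm
  refine ⟨Units.mk0 y hy0, ?_, ?_⟩
  · intro h hh
    apply Units.ext
    have h1 := (hker h).mp hh
    rw [IntermediateField.mem_fixingSubgroup_iff] at h1
    exact h1 y hyL
  · apply Units.ext
    rw [Units.coe_prod, ← hy]
    rfl

end Fermat.Agent.CFT.Global.HP.NormQb
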