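import Fermat.Agent.CFT.Global.HP.Tower
import Fermat.Agent.CFT.Global.HP.LocalNormDiv
import Fermat.Agent.CFT.Global.HP.NormQb
import Fermat.Agent.CFT.Global.HasseNorm.Final

/-!
# Hasse principle (HP-K): the layers of prime degree (`hprime`)

`lt_eq_zero_of_card_eq`: for an odd prime `p`, a realised pair `(G, A)` with `Nat.card G = p` and
a locally trivial class `x ∈ H²(G, A)`, one has `x = 0`.  This is the hypothesis `hprime` of
`hp_units`.

Proof.  `G ≅ ZMod p` (`χG`, generator `sG`).  The cocycle `f` (written multiplicatively) is the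
carry cocycle of its invariant `bA = ∏_{k<p} f (sG^k, sG)` times a coboundary
(`Cyclic.exists_carry_of_isMulCocycle₂`), and it is a coboundary iff `bA` is a norm
(`Cyclic.isMulCoboundary₂_iff_norm`).  Through the realisation, `bA` becomes `b ∈ Kˣ`, the layer
becomes a cyclic extension `L / K` of degree `p` inside `Qb`, local triviality of the lifted
cocycle gives local triviality of `carry χ b` (`LocTrivAt.div`), hence approximate local norms
at every valuation subring (`LN.exists_norm_approx_div'`), hence `b` is a global norm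
(`NormQb.exists_norm_eq` with the Hasse norm theorem `hasse_norm_odd_prime_of_nonsplit`).
-/

set_option autoImplicit false

open CategoryTheory groupCohomology

namespace Fermat.Agent.CFT.Global.HP

open Fermat.Agent.CFT.Cyclic

namespace Prime

/-- The Hasse norm theorem in the form consumed by `NormQb.exists_norm_eq`, for odd primes. -/
theorem hntStmt_of_odd {p : ℕ} (hp : p.Prime) (hodd : Odd p) : NormQb.HNTStmt p :=
  fun K L _ _ _ _ _ _ hdeg b hb h =>
    Fermat.Agent.CFT.Global.HasseNorm.hasse_norm_odd_prime_of_nonsplit K L hp hodd hdeg b hb h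

/-- A group of prime order `p` has an injective additive character to `ZMod p` taking the
value `1`. -/
theorem exists_char_of_card {G : Type} [Group G] {p : ℕ} [Fact p.Prime]
    (hcard : Nat.card G = p) :
    ∃ χ : G → ZMod p, (∀ σ τ, χ (σ * τ) = χ σ + χ τ) ∧ Function.Injective χ ∧ ∃ s, χ s = 1 := by
  subst hcard
  haveI : IsCyclic G := isCyclic_of_prime_card rfl
  let e : G ≃* Multiplicative (ZMod (Nat.card G)) := (zmodCyclicMulEquiv ‹IsCyclic G›).symm
  refine ⟨fun g => Multiplicative.toAdd (e g), fun σ τ => ?_, fun σ τ h => ?_, ?_⟩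
  · show Multiplicative.toAdd (e (σ * τ)) = _
    rw [map_mul]
    rfl
  · exact e.injective (Multiplicative.toAdd.injective h)
  · exact ⟨e.symm (Multiplicative.ofAdd 1), by simp⟩

section wrapper

variable {G : Type} [Group G] (A : Rep.{0} ℤ G)

/-- The action of `G` on `Multiplicative A`. -/
@[reducible] noncomputable def mulAct : MulDistribMulAction G (Multiplicative A) where
  smul g a := Multiplicative.ofAdd (A.ρ g (Multiplicative.toAdd a))
  one_smul a := by
    show Multiplicative.ofAdd (A.ρ 1 (Multiplicative.toAdd a)) = a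
    rw [map_one]
    rfl
  mul_smul g h a := by
    show Multiplicative.ofAdd (A.ρ (g * h) (Multiplicative.toAdd a)) =
      Multiplicative.ofAdd (A.ρ g (A.ρ h (Multiplicative.toAdd a)))
    rw [map_mul]
    rfl
  smul_mul g a b := by
    show Multiplicative.ofAdd (A.ρ g (Multiplicative.toAdd (a * b))) =
      Multiplicative.ofAdd (A.ρ g (Multiplicative.toAdd a)) *
        Multiplicative.ofAdd (A.ρ g (Multiplicative.toAdd b))
    rw [toAdd_mul, map_add]
    rfl
  smul_one g := by
    show Multiplicative.ofAdd (A.ρ g (Multiplicative.toAdd 1)) = 1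
    rw [toAdd_one, map_zero]
    rfl

end wrapper

section transport

variable {U : Subgroup Gq} {G : Type} [Group G] {A : Rep.{0} ℤ G} (R : Real U G A)

/-- `R.j` as a monoid homomorphism `Multiplicative A →* Qbˣ`. -/
noncomputable def jm : Multiplicative A →* Qbˣ where
  toFun a := Additive.toMul (R.j (Multiplicative.toAdd a))
  map_one' := by
    rw [toAdd_one, map_zero]
    rfl
  map_mul' a b := by
    rw [toAdd_mul, map_add]
    rfl

theorem jm_apply (a : Multiplicative A) :
    jm R a = Additive.toMul (R.j (Multiplicative.toAdd a)) := rfl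

theorem jm_injective : Function.Injective (jm R) := fun a b h =>
  Multiplicative.toAdd.injective (R.inj (Additive.toMul.injective h))

attribute [local instance] mulAct

theorem jm_smul (s : U) (a : Multiplicative A) : jm R (R.π s • a) = (s : Gq) • jm R a :=
  R.j_smul s (Multiplicative.toAdd a)

end transport

attribute [local instance] mulAct

/-- **`hprime`.** For an odd prime `p`, a locally trivial class of a realised pair `(G, A)` with
`G` of order `p` vanishes. -/
theorem lt_eq_zero_of_card_eq {p : ℕ} [Fact p.Prime] (hodd : p ≠ 2)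
    (G : Type) [Group G] (A : Rep.{0} ℤ G) (hcard : Nat.card G = p)
    (x : groupCohomology A 2) (hx : LT G A x) : x = 0 := by
  classical
  have hp : p.Prime := Fact.out
  haveI : NeZero p := ⟨hp.ne_zero⟩
  obtain ⟨K, hK, R, f, rfl, hloc⟩ := hx
  haveI := hK
  obtain ⟨χG, hχG, hinj, sG, hsG⟩ := exists_char_of_card (G := G) hcard
  obtain ⟨s, rfl⟩ := R.surj sG
  -- the cocycle, written multiplicatively
  set F : G × G → Multiplicative A := fun x => Multiplicative.ofAdd (f x) with hF
  have hFc : IsMulCocycle₂ F := by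
    intro g h j
    have := (mem_cocycles₂_iff (f : G × G → A)).1 f.2 g h j
    exact congrArg Multiplicative.ofAdd this
  set bA : Multiplicative A := ∏ k ∈ Finset.range p, F (R.π s ^ k, R.π s) with hbA
  have hbAfix : ∀ σ : G, σ • bA = bA := smul_prod_eq_of_isMulCocycle₂ hχG hinj hsG hFc
  obtain ⟨uG, huG⟩ := exists_carry_of_isMulCocycle₂ hχG hinj hsG hFc
  -- the character of `Fix K`
  set χ : K.fixingSubgroup → ZMod p := fun g => χG (R.π g) with hχdef
  have hχ : ∀ σ τ, χ (σ * τ) = χ σ + χ τ := fun σ τ => by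
    simp only [hχdef, map_mul, hχG]
  have hs : χ s = 1 := hsG
  -- the field `L`
  obtain ⟨F0, hF0, hlevπ⟩ := R.level
  haveI := hF0
  set V : Subgroup Gq := (R.π.ker).map K.fixingSubgroup.subtype with hV
  have hV_mem : ∀ g : K.fixingSubgroup, (g : Gq) ∈ V ↔ R.π g = 1 := by
    intro g
    constructor
    · rintro ⟨g', hg', hgg'⟩
      have : g' = g := Subtype.ext hgg'
      rw [← this]
      exact hg'
    · intro hg
      exact ⟨g, hg, rfl⟩
  have hle : (K ⊔ F0).fixingSubgroup ≤ V := by
    intro σ hσ
    rw [IntermediateField.fixingSubgroup_sup] at hσ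
    exact (hV_mem ⟨σ, hσ.1⟩).2 (hlevπ ⟨σ, hσ.1⟩ hσ.2)
  obtain ⟨L, hL, hLV⟩ := exists_fixingSubgroup_eq V (K ⊔ F0) hle
  haveI := hL
  have hVK : L.fixingSubgroup ≤ K.fixingSubgroup := by
    rw [hLV]
    rintro _ ⟨g, -, rfl⟩
    exact g.2
  haveI hAlg : Algebra.IsAlgebraic ℚ Qb := AlgebraicClosure.isAlgebraic ℚ
  haveI hAC : IsAlgClosure ℚ Qb := AlgebraicClosure.instIsAlgClosure ℚ
  haveI hGal : IsGalois ℚ Qb := inferInstance
  have hKL : K ≤ L := by
    have h1 := IntermediateField.fixedField_antitone hVK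
    rwa [InfiniteGalois.fixedField_fixingSubgroup, InfiniteGalois.fixedField_fixingSubgroup] at h1
  have hker : ∀ g : K.fixingSubgroup, χ g = 0 ↔ (g : Gq) ∈ L.fixingSubgroup := by
    intro g
    rw [hLV, hV_mem]
    constructor
    · intro h
      exact hinj ((show χG (R.π g) = 0 from h).trans (map_one_eq_zero hχG).symm)
    · intro h
      simp only [hχdef, h]
      exact map_one_eq_zero hχG
  -- the unit `b`
  set b : Qbˣ := jm R bA with hb
  have hbfix : ∀ g : K.fixingSubgroup, (g : Gq) • b = b := fun g => by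
    rw [hb, ← jm_smul, hbAfix]
  have hbK : (b : Qb) ∈ K := by
    rw [← InfiniteGalois.fixedField_fixingSubgroup K, IntermediateField.mem_fixedField_iff]
    intro g hg
    exact congrArg Units.val (hbfix ⟨g, hg⟩)
  -- local triviality of the carry cocycle
  set v : K.fixingSubgroup → Qbˣ := fun σ => jm R (uG (R.π σ)) with hv
  have hvlev : IsLevelConstant₁ (Subgroup.subtype K.fixingSubgroup) v := by
    refine ⟨F0, hF0, fun t σ hσ => ?_⟩
    simp only [hv, map_mul, hlevπ σ hσ, mul_one]
  have hdecomp : ∀ σ τ : K.fixingSubgroup, R.lift₂ f (σ, τ) =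
      carry χ b (σ, τ) * ((σ : Gq) • v τ / v (σ * τ) * v σ) := by
    intro σ τ
    have h1 := congrArg (jm R) (huG (R.π σ) (R.π τ))
    rw [map_mul] at h1
    have h2 : jm R (F (R.π σ, R.π τ)) = R.lift₂ f (σ, τ) := rfl
    have h3 : jm R (carry χG bA (R.π σ, R.π τ)) = carry χ b (σ, τ) := by
      rw [carry_apply, carry_apply, map_pow]
    have h4 : jm R (dOne uG (R.π σ, R.π τ)) = (σ : Gq) • v τ / v (σ * τ) * v σ := by
      rw [dOne_apply, map_mul, map_div, jm_smul]
      simp only [hv, map_mul]
    rw [← h2, h1, h3, h4]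
  have hcarryloc : ∀ q : ℕ, q.Prime → ∀ Av : ValuationSubring Qb, Av.LiesOverPrime q →
      LocTrivAt K.fixingSubgroup (carry χ b) Av := by
    intro q hq Av hAv
    refine (hloc q hq Av hAv).div v hvlev (fun σ τ => ?_)
    rw [hdecomp σ τ, mul_div_cancel_right]
  -- approximate local norms, then the Hasse norm theorem
  have hb0 : (b : Qb) ≠ 0 := b.ne_zero
  have hbmk : Units.mk0 (b : Qb) hb0 = b := Units.ext rfl
  obtain ⟨y, hyL, hy⟩ := NormQb.exists_norm_eq (hntStmt_of_odd hp (hp.odd_of_ne_two hodd))
    K L hKL χ hχ hker s hs (b : Qb) hbK hb0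
    (fun q hq Av hAv N => LN.exists_norm_approx_div' hq hAv K L hKL χ hχ hker s hs (b : Qb)
      hbK hb0 (by rw [hbmk]; exact hcarryloc q hq Av hAv) N)
  have hy0 : y ≠ 0 := by
    rintro rfl
    apply hb0
    rw [← hy]
    exact Finset.prod_eq_zero (Finset.mem_range.mpr hp.pos) (map_zero _)
  -- back to `A`
  set c : Qbˣ := Units.mk0 y hy0 with hc
  have hcfix : ∀ t : K.fixingSubgroup, R.π t = 1 → (t : Gq) • c = c := by
    intro t ht
    have htL : (t : Gq) ∈ L.fixingSubgroup := by
      rw [hLV]
      exact (hV_mem t).2 ht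
    apply Units.ext
    exact (IntermediateField.mem_fixingSubgroup_iff _ _).1 htL y hyL
  obtain ⟨a, ha⟩ := R.exists_j_eq c hcfix
  set cA : Multiplicative A := Multiplicative.ofAdd a with hcA
  have hjc : jm R cA = c := ha
  have hnorm : bA = ∏ k ∈ Finset.range p, R.π s ^ k • cA := by
    apply jm_injective R
    have hk : ∀ k : ℕ, jm R (R.π s ^ k • cA) = ((s : Gq) ^ k) • c := by
      intro k
      rw [← map_pow, jm_smul, hjc]
      rfl
    have hR : jm R (∏ k ∈ Finset.range p, R.π s ^ k • cA) =
        ∏ k ∈ Finset.range p, ((s : Gq) ^ k) • c := by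
      rw [map_prod]
      exact Finset.prod_congr rfl (fun k _ => hk k)
    rw [hR]
    show b = _
    apply Units.ext
    rw [Units.coe_prod]
    exact hy.symm
  -- conclusion
  obtain ⟨u, hu⟩ := (isMulCoboundary₂_iff_norm hχG hinj hsG hFc).2 ⟨cA, hnorm⟩
  rw [H2π_eq_zero_iff]
  refine ⟨fun g => Multiplicative.toAdd (u g), ?_⟩
  funext ⟨g, h⟩
  rw [d₁₂_hom_apply]
  exact congrArg Multiplicative.toAdd (hu g h)

end Prime

end Fermat.Agent.CFT.Global.HP
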