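import Fermat.Agent.CFT.Global.HP.TowerLift

/-!
# Hasse principle (HP-K): the Sylow/tower instance of the abstract core

`hp_units`: a level-constant `Qbˣ`-valued 2-cocycle of `Fix K` with `p`-torsion values which is
locally trivial at every finite place (shape (D)) is the coboundary of a level-constant
`Qbˣ`-valued cochain, PROVIDED the same holds for all layers of degree `p` (`hprime`, i.e. the
Hasse norm theorem for cyclic extensions of degree `p` through the local-norm adapter).

Inputs proved elsewhere in this directory: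
* `isGaloisLike_isReal`, `isZero_H1_of_isReal` (`RealOps.lean`, `RealBasic.lean`);
* `isLocalTriv_LT` (`LocOps.lean`);
* `lift₂_eq_dOne_of_H2π_eq_zero` (`RealBasic.lean`);
* `exists_real_of_cocycle'` (`TowerLift.lean`, helper236).
-/

set_option autoImplicit false

open CategoryTheory groupCohomology

namespace Fermat.Agent.CFT.Global.HP

open Fermat.Agent.S55.GrpCoh

/-- Every level-constant `Qbˣ`-valued 2-cocycle of `Fix K` is the lift of a 2-cocycle of a
finite layer. -/
theorem exists_real_of_cocycle (K : IntermediateField ℚ Qb) [FiniteDimensional ℚ K]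
    (a : K.fixingSubgroup × K.fixingSubgroup → Qbˣ) (ha : IsMulCocycle₂ a)
    (hlev : IsLevelConstant₂ (Subgroup.subtype K.fixingSubgroup) a) :
    ∃ (G : Type) (_ : Group G) (_ : Finite G) (A : Rep.{0} ℤ G)
      (R : Real K.fixingSubgroup G A) (f : cocycles₂ A),
      ∀ s t, R.lift₂ f (s, t) = a (s, t) :=
  TowerLift.exists_real_of_cocycle' K a ha hlev

/-- **Hasse principle, tower form.** -/
theorem hp_units (p : ℕ) [Fact p.Prime]
    (hprime : ∀ (G : Type) [Group G] [Finite G] (A : Rep.{0} ℤ G), IsReal G A →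
      Nat.card G = p → ∀ x : groupCohomology A 2, LT G A x → x = 0)
    (K : IntermediateField ℚ Qb) [FiniteDimensional ℚ K]
    (a : K.fixingSubgroup × K.fixingSubgroup → Qbˣ) (ha : IsMulCocycle₂ a)
    (hlev : IsLevelConstant₂ (Subgroup.subtype K.fixingSubgroup) a)
    (hpow : ∀ s t, a (s, t) ^ p = 1) (hloc : LocTriv K.fixingSubgroup a) :
    ∃ c : K.fixingSubgroup → Qbˣ, IsLevelConstant₁ (Subgroup.subtype K.fixingSubgroup) c ∧
      ∀ s t : K.fixingSubgroup, a (s, t) = (s : Gq) • c t / c (s * t) * c s := by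
  obtain ⟨G, _, _, A, R, f, hf⟩ := exists_real_of_cocycle K a ha hlev
  have hA : IsReal G A := ⟨K, inferInstance, ⟨R⟩⟩
  have hlift : R.lift₂ f = a := funext (fun st => hf st.1 st.2)
  have hLTx : LT G A (H2π A f) := ⟨K, inferInstance, R, f, rfl, by rw [hlift]; exact hloc⟩
  have hpf : (p : ℤ) • f = 0 := by
    apply Subtype.ext
    funext st
    obtain ⟨g1, g2⟩ := st
    obtain ⟨s, rfl⟩ := R.surj g1
    obtain ⟨t, rfl⟩ := R.surj g2
    apply R.inj
    have h1 : Additive.toMul (R.j (f (R.π s, R.π t))) = a (s, t) := hf s t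
    show R.j ((p : ℤ) • f (R.π s, R.π t)) = R.j 0
    rw [map_zsmul, map_zero]
    apply Additive.toMul.injective
    rw [toMul_zsmul, h1, zpow_natCast, hpow, toMul_zero]
  have hpx : ((p : ℤ) ^ 1) • H2π A f = 0 := by
    rw [pow_one, ← map_zsmul, hpf, map_zero]
  have hx : H2π A f = 0 :=
    eq_zero_of_locallyTrivial_of_pow_smul p IsReal isGaloisLike_isReal LT isLocalTriv_LT
      (fun G _ _ A hA _ => isZero_H1_of_isReal hA) hprime G A hA (H2π A f) 1
      ((int_smul_eq_zsmul _ _ _).trans hpx) hLTx
  obtain ⟨c, hc, hcd⟩ := lift₂_eq_dOne_of_H2π_eq_zero R f hx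
  exact ⟨c, hc, fun s t => by rw [← hf s t]; exact hcd s t⟩

end Fermat.Agent.CFT.Global.HP
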