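import Fermat.Agent.CFT.Global.HP.NormQbFinal
import Fermat.Agent.CFT.Global.HP.Tower
import Fermat.Agent.CFT.Cyclic.Split

/-!
# Hasse principle (HP-K): the prime-degree layers

`lt_eq_zero_of_card_eq`: for a realised pair `(G, A)` with `G` of odd prime order `p`, a class of
`H²(G, A)` which is locally trivial at every finite place (`LT`) vanishes.  This is the hypothesis
`hprime` of `Tower.hp_units`; `hp_units_odd` is the resulting hypothesis-free Hasse principle for
`Qbˣ`-valued `p`-torsion 2-cocycles of `Fix K`.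

Proof: the lift `a` of a cocycle to `U = Fix K` is inflated from the cyclic quotient `G`, hence
`a = carry χ b * dOne u` (`Cyclic.exists_carry_of_inflated`); local triviality of `a` gives local
triviality of `carry χ b`, so `b` is a norm (`NormQb.exists_norm_eq_of_locTriv_units` =
(CA) + (CA') + Hasse norm theorem), `carry χ b = dOne (normCochain)` and `a` is the coboundary of
a cochain inflated from `G` with values in the image of `A`.
-/

set_option autoImplicit false

open CategoryTheory groupCohomology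

namespace Fermat.Agent.CFT.Global.HP.PrimeAlt

open Fermat.Agent.CFT.Global.HP Fermat.Agent.CFT.Cyclic

/-- A faithful additive character of a group of prime order. -/
theorem exists_char_of_card {G : Type} [Group G] [Finite G] {p : ℕ} [Fact p.Prime]
    (hcard : Nat.card G = p) :
    ∃ (χ₀ : G → ZMod p) (σ : G), (∀ g h, χ₀ (g * h) = χ₀ g + χ₀ h) ∧
      Function.Injective χ₀ ∧ χ₀ σ = 1 := by
  subst hcard
  have hcyc : IsCyclic G := isCyclic_of_prime_card rfl
  let e : Multiplicative (ZMod (Nat.card G)) ≃* G := zmodCyclicMulEquiv hcyc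
  refine ⟨fun g => Multiplicative.toAdd (e.symm g), e (Multiplicative.ofAdd 1), ?_, ?_, ?_⟩
  · intro g h
    show Multiplicative.toAdd (e.symm (g * h)) = _
    rw [map_mul]
    rfl
  · intro g h hgh
    exact e.symm.injective (Multiplicative.toAdd.injective hgh)
  · show Multiplicative.toAdd (e.symm (e (Multiplicative.ofAdd 1))) = 1
    rw [MulEquiv.symm_apply_apply]
    rfl

variable {p : ℕ} [Fact p.Prime]

/-- **The prime-degree case of the Hasse principle** (`hprime` of `Tower.hp_units`). -/
theorem lt_eq_zero_of_card_eq (hp2 : p ≠ 2) (G : Type) [Group G] [Finite G] (A : Rep.{0} ℤ G)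
    (hcard : Nat.card G = p) (x : groupCohomology A 2) (hx : LT G A x) : x = 0 := by
  classical
  obtain ⟨K, hK, R, f, rfl, hloc⟩ := hx
  haveI := hK
  obtain ⟨χ₀, σ, hχ₀, hinj, hσ⟩ := exists_char_of_card (p := p) hcard
  have hχ₀1 : χ₀ 1 = 0 := map_one_eq_zero hχ₀
  -- the character of `U = Fix K`
  set χ : ↥K.fixingSubgroup → ZMod p := fun s => χ₀ (R.π s) with hχdef
  have hχ : ∀ s t, χ (s * t) = χ s + χ t := fun s t => by
    simp only [hχdef, map_mul, hχ₀]
  have hχ0 : ∀ m, χ m = 0 ↔ R.π m = 1 := fun m =>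
    ⟨fun h => hinj (by rw [hχ₀1]; exact h), fun h => by simp only [hχdef, h, hχ₀1]⟩
  obtain ⟨s₀, hs₀⟩ := R.surj σ
  have hs : χ s₀ = 1 := by simp only [hχdef, hs₀, hσ]
  -- the lifted cocycle
  set a : ↥K.fixingSubgroup × ↥K.fixingSubgroup → Qbˣ := R.lift₂ f with hadef
  have ha : IsMulCocycle₂ a := by
    intro g h j
    have h1 := (mem_cocycles₂_iff (f : G × G → A)).1 f.2 (R.π g) (R.π h) (R.π j)
    have h2 := congrArg (fun z => Additive.toMul (R.j z)) h1
    simp only [map_add, toMul_add] at h2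
    rw [R.j_smul] at h2
    simp only [hadef, Real.lift₂_apply, map_mul]
    exact h2
  have hr2 : ∀ g h m, χ m = 0 → a (g, h * m) = a (g, h) := fun g h m hm => by
    simp only [hadef, Real.lift₂_apply, map_mul, (hχ0 m).1 hm, mul_one]
  have hr1 : ∀ g h m, χ m = 0 → a (g * m, h) = a (g, h) := fun g h m hm => by
    simp only [hadef, Real.lift₂_apply, map_mul, (hχ0 m).1 hm, mul_one]
  have hfix : ∀ g h m, χ m = 0 → m • a (g, h) = a (g, h) := fun g h m hm => by
    have h1 := R.j_smul m (f (R.π g, R.π h))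
    rw [(hχ0 m).1 hm, map_one] at h1
    simp only [hadef, Real.lift₂_apply]
    exact h1.symm
  -- the carry decomposition
  obtain ⟨u, hu1, hu2, hu⟩ := exists_carry_of_inflated hχ hs ha hr2 hr1 hfix
  set b : Qbˣ := ∏ k ∈ Finset.range p, a (s₀ ^ k, s₀) with hbdef
  have hbfix : ∀ g : ↥K.fixingSubgroup, (g : Gq) • b = b :=
    fun g => smul_prod_eq_of_inflated hχ hs ha hr2 hr1 hfix g
  obtain ⟨F, hF, hlev⟩ := R.level
  haveI := hF
  have hulev : IsLevelConstant₁ (Subgroup.subtype K.fixingSubgroup) u :=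
    ⟨F, hF, fun t m hm => hu1 t m ((hχ0 m).2 (hlev m hm))⟩
  -- local triviality of the carry cocycle
  have hlocb : ∀ q : ℕ, q.Prime → ∀ Av : ValuationSubring Qb, Av.LiesOverPrime q →
      LocTrivAt K.fixingSubgroup (carry χ b) Av := by
    intro q hq Av hAv
    refine (hloc q hq Av hAv).div u hulev (fun s t => ?_)
    rw [hu s t, dOne_apply]
    exact (mul_div_cancel_right _ _).symm
  -- the kernel field
  obtain ⟨L, hLfin, hL⟩ := exists_fixingSubgroup_eq (R.π.ker.map K.fixingSubgroup.subtype)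
    (K ⊔ F) (by
      intro g hg
      have hgK : g ∈ K.fixingSubgroup := IntermediateField.fixingSubgroup_antitone le_sup_left hg
      have hgF : g ∈ F.fixingSubgroup := IntermediateField.fixingSubgroup_antitone le_sup_right hg
      exact ⟨⟨g, hgK⟩, hlev ⟨g, hgK⟩ hgF, rfl⟩)
  haveI := hLfin
  have hker : ∀ g : ↥K.fixingSubgroup, χ g = 0 ↔ (g : Gq) ∈ L.fixingSubgroup := by
    intro g
    rw [hL, hχ0]
    constructor
    · intro h
      exact ⟨g, h, rfl⟩
    · rintro ⟨g', hg', hgg'⟩
      have : g' = g := Subtype.ext hgg'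
      rw [← this]
      exact hg'
  have hKL : K ≤ L := by
    haveI hAlg : Algebra.IsAlgebraic ℚ Qb := AlgebraicClosure.isAlgebraic ℚ
    haveI hAC : IsAlgClosure ℚ Qb := AlgebraicClosure.instIsAlgClosure ℚ
    haveI hGal : IsGalois ℚ Qb := inferInstance
    have h1 : L.fixingSubgroup ≤ K.fixingSubgroup := by
      rw [hL]
      exact Subgroup.map_subtype_le _
    have h2 := IntermediateField.fixedField_antitone h1
    rwa [InfiniteGalois.fixedField_fixingSubgroup, InfiniteGalois.fixedField_fixingSubgroup] at h2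
  -- `b` is a norm
  obtain ⟨c, hcfix, hbc⟩ := NormQb.exists_norm_eq_of_locTriv_units hp2 K L hKL χ hχ hker s₀ hs b
    hbfix hlocb
  have hcfix' : ∀ h : ↥K.fixingSubgroup, χ h = 0 → h • c = c := hcfix
  have hbc' : b = ∏ k ∈ Finset.range p, s₀ ^ k • c := hbc
  have hcarry : carry χ b = dOne (normCochain χ s₀ c) := by
    rw [hbc']
    exact carry_eq_dOne_of_norm hχ hs hcfix'
  -- the primitive
  set w : ↥K.fixingSubgroup → Qbˣ := normCochain χ s₀ c * u with hwdef
  have haw : ∀ s t, a (s, t) = dOne w (s, t) := fun s t => by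
    rw [hu s t, hcarry, hwdef, dOne_mul]
  have hw1 : ∀ t m, χ m = 0 → w (t * m) = w t := fun t m hm => by
    simp only [hwdef, Pi.mul_apply, hu1 t m hm]
    rw [normCochain_eq_of_map_eq s₀ c (show χ (t * m) = χ t by rw [hχ, hm, add_zero])]
  have hw2 : ∀ t m, χ m = 0 → m • w t = w t := fun t m hm => by
    have h1 : m • normCochain χ s₀ c t = normCochain χ s₀ c t :=
      smul_normCochain_of_map_eq_zero (A := Qbˣ) hχ hcfix' hm t
    simp only [hwdef, Pi.mul_apply, smul_mul', hu2 t m hm, h1]
  -- descent of the primitive to `G`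
  choose tg htg using R.surj
  have hex : ∀ g : G, ∃ a' : A, Additive.toMul (R.j a') = w (tg g) := fun g =>
    R.exists_j_eq (w (tg g)) (fun m hm => hw2 (tg g) m ((hχ0 m).2 hm))
  choose g₀ hg₀ using hex
  have hlift : ∀ t, R.lift₁ g₀ t = w t := by
    intro t
    rw [Real.lift₁_apply, hg₀]
    have hm : χ ((tg (R.π t))⁻¹ * t) = 0 := by
      rw [hχ0, map_mul, map_inv, htg, inv_mul_cancel]
    have h1 := hw1 (tg (R.π t)) _ hm
    rw [mul_inv_cancel_left] at h1
    exact h1.symm
  rw [H2π_eq_zero_iff]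
  refine ⟨g₀, ?_⟩
  funext st
  obtain ⟨g1, g2⟩ := st
  obtain ⟨s, rfl⟩ := R.surj g1
  obtain ⟨t, rfl⟩ := R.surj g2
  apply R.inj
  apply Additive.toMul.injective
  have h1 := R.lift₂_d₁₂ g₀ s t
  rw [Real.lift₂_apply] at h1
  rw [h1, hlift, hlift, hlift]
  have h2 := haw s t
  rw [hadef, Real.lift₂_apply, dOne_apply] at h2
  exact h2.symm

/-- **Hasse principle for `Qbˣ`-valued `p`-torsion 2-cocycles of `Fix K`** (`p` odd), no
hypothesis left: a level-constant cocycle with `p`-torsion values which is locally trivial at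
every finite place (shape (D)) is the coboundary of a level-constant cochain. -/
theorem hp_units_odd (hp2 : p ≠ 2) (K : IntermediateField ℚ Qb) [FiniteDimensional ℚ K]
    (a : K.fixingSubgroup × K.fixingSubgroup → Qbˣ) (ha : IsMulCocycle₂ a)
    (hlev : IsLevelConstant₂ (Subgroup.subtype K.fixingSubgroup) a)
    (hpow : ∀ s t, a (s, t) ^ p = 1) (hloc : LocTriv K.fixingSubgroup a) :
    ∃ c : K.fixingSubgroup → Qbˣ, IsLevelConstant₁ (Subgroup.subtype K.fixingSubgroup) c ∧
      ∀ s t : K.fixingSubgroup, a (s, t) = (s : Gq) • c t / c (s * t) * c s :=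
  hp_units p (fun G _ _ A _ hcard x hx => lt_eq_zero_of_card_eq hp2 G A hcard x hx)
    K a ha hlev hpow hloc

end Fermat.Agent.CFT.Global.HP.PrimeAlt
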