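import Fermat.Agent.S55.GrpCoh.HassePrinciple
import Fermat.Agent.CFT.Cyclic.Galois
import Fermat.Prelude.Def_FLTPrelim_Ramification
import Fermat.Prelude.Def_GroupCohomology_ContinuousH2

/-!
# Hasse principle (HP-K), arithmetic instance of the abstract core: definitions

Everything lives inside `Qb = AlgebraicClosure ℚ`, `Gq = Gal(Qb/ℚ)`.

* `Real U G A` : a *realisation* of a pair (group `G`, `ℤ[G]`-module `A`) by a finite layer
  of a subgroup `U ≤ Gq` (in the applications `U = K.fixingSubgroup`, `K` a number field):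
  a surjection `π : U → G` trivial on some finite level, and an equivariant injection
  `j : A → Qbˣ` whose image is the group of `ker π`-fixed units
  (so `(G, A) ≅ (Gal(L/K), Lˣ)` for `L` the fixed field of `ker π`).
* `IsReal G A` : `(G, A)` has a realisation over some number field (`P` of the abstract core).
* `LocTrivAt U a Av`, `LocTriv U a` : shape (D) of local triviality for a `Qbˣ`-valued 2-cochain
  `a` of `U`: on `D' = D(Av) ⊓ U` it is the coboundary of a level-constant 1-cochain
  with values in `Qbˣ` (no completions).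
* `LT G A x` : the class `x ∈ H²(G, A)` has a cocycle representative whose lift to `Fix K`
  along some realisation is locally trivial at every finite place (`LT` of the abstract core).
-/

set_option autoImplicit false

open CategoryTheory groupCohomology

namespace Fermat.Agent.CFT.Global.HP

/-- `ℚ̄`. -/
abbrev Qb : Type := AlgebraicClosure ℚ

/-- `Gal(ℚ̄/ℚ)`. -/
abbrev Gq : Type := Qb ≃ₐ[ℚ] Qb

/-- A realisation of `(G, A)` by a finite layer of the subgroup `U` of `Gq`. -/
structure Real (U : Subgroup Gq) (G : Type) [Group G] (A : Rep.{0} ℤ G) where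
  /-- the projection of `U` onto `G` -/
  π : U →* G
  surj : Function.Surjective π
  level : ∃ F : IntermediateField ℚ Qb, FiniteDimensional ℚ F ∧
    ∀ s : U, (s : Gq) ∈ F.fixingSubgroup → π s = 1
  /-- the embedding of the module into `Qbˣ` -/
  j : A →+ Additive Qbˣ
  inj : Function.Injective j
  equiv : ∀ (s : U) (a : A),
    j (A.ρ (π s) a) = Additive.ofMul ((s : Gq) • Additive.toMul (j a))
  image : ∀ y : Qbˣ, (∀ s : U, π s = 1 → (s : Gq) • y = y) →
    ∃ a : A, j a = Additive.ofMul y

/-- `(G, A)` is realised by a finite layer over some number field inside `Qb`. -/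
def IsReal (G : Type) [Group G] (A : Rep.{0} ℤ G) : Prop :=
  ∃ K : IntermediateField ℚ Qb, FiniteDimensional ℚ K ∧ Nonempty (Real K.fixingSubgroup G A)

namespace Real

variable {U : Subgroup Gq} {G : Type} [Group G] {A : Rep.{0} ℤ G}

/-- Lift of a 1-cochain of `G` to a `Qbˣ`-valued 1-cochain of `U`. -/
noncomputable def lift₁ (R : Real U G A) (g : G → A) : U → Qbˣ :=
  fun s => Additive.toMul (R.j (g (R.π s)))

/-- Lift of a 2-cochain of `G` to a `Qbˣ`-valued 2-cochain of `U`. -/
noncomputable def lift₂ (R : Real U G A) (f : G × G → A) : U × U → Qbˣ :=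
  fun st => Additive.toMul (R.j (f (R.π st.1, R.π st.2)))

end Real

/-- Shape (D): the 2-cochain `a` of `U` is, on `D' = D(Av) ⊓ U`, the coboundary of a
level-constant `Qbˣ`-valued 1-cochain. -/
def LocTrivAt (U : Subgroup Gq) (a : U × U → Qbˣ) (Av : ValuationSubring Qb) : Prop :=
  ∃ u : ↥(Av.decompositionSubgroup ℚ ⊓ U) → Qbˣ,
    IsLevelConstant₁ (Subgroup.subtype (Av.decompositionSubgroup ℚ ⊓ U)) u ∧
    ∀ s t : ↥(Av.decompositionSubgroup ℚ ⊓ U),
      a (⟨s, s.2.2⟩, ⟨t, t.2.2⟩) = (s : Gq) • u t / u (s * t) * u s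

/-- Local triviality at every finite place. -/
def LocTriv (U : Subgroup Gq) (a : U × U → Qbˣ) : Prop :=
  ∀ q : ℕ, q.Prime → ∀ Av : ValuationSubring Qb, Av.LiesOverPrime q → LocTrivAt U a Av

/-- The predicate "locally trivial" on classes of `H²(G, A)` (for the abstract Hasse principle). -/
def LT (G : Type) [Group G] (A : Rep.{0} ℤ G) (x : groupCohomology A 2) : Prop :=
  ∃ (K : IntermediateField ℚ Qb) (_ : FiniteDimensional ℚ K) (R : Real K.fixingSubgroup G A)
    (f : cocycles₂ A), H2π A f = x ∧ LocTriv K.fixingSubgroup (R.lift₂ f)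

end Fermat.Agent.CFT.Global.HP
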