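import Fermat.Agent.CFT.Global.HP.Real

/-!
# Realisations: basic lemmas (lifts of cochains, Hilbert 90)
-/

set_option autoImplicit false

open CategoryTheory groupCohomology

namespace Fermat.Agent.CFT.Global.HP

open Fermat.Agent.S55.GrpCoh

namespace Real

variable {U : Subgroup Gq} {G : Type} [Group G] {A : Rep.{0} ℤ G} (R : Real U G A)

theorem lift₁_apply (g : G → A) (s : U) :
    R.lift₁ g s = Additive.toMul (R.j (g (R.π s))) := rfl

theorem lift₂_apply (f : G × G → A) (s t : U) :
    R.lift₂ f (s, t) = Additive.toMul (R.j (f (R.π s, R.π t))) := rfl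

/-- Lifts of 1-cochains are level-constant. -/
theorem isLevelConstant₁_lift₁ (g : G → A) :
    IsLevelConstant₁ (Subgroup.subtype U) (R.lift₁ g) := by
  obtain ⟨F, hF, h⟩ := R.level
  refine ⟨F, hF, fun t s hs => ?_⟩
  rw [lift₁_apply, lift₁_apply, map_mul, h s hs, mul_one]

theorem j_smul (s : U) (a : A) :
    Additive.toMul (R.j (A.ρ (R.π s) a)) = (s : Gq) • Additive.toMul (R.j a) := by
  rw [R.equiv]; rfl

/-- The lift of a coboundary is the (multiplicative) coboundary of the lift. -/
theorem lift₂_d₁₂ (g : G → A) (s t : U) :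
    R.lift₂ (d₁₂ A g) (s, t) =
      (s : Gq) • R.lift₁ g t / R.lift₁ g (s * t) * R.lift₁ g s := by
  rw [lift₂_apply, d₁₂_hom_apply]
  simp only [map_add, map_sub, toMul_add, toMul_sub, lift₁_apply, map_mul]
  rw [R.j_smul]

/-- The element of `A` with a given `ker π`-fixed image. -/
theorem exists_j_eq (y : Qbˣ) (hy : ∀ s : U, R.π s = 1 → (s : Gq) • y = y) :
    ∃ a : A, Additive.toMul (R.j a) = y := by
  obtain ⟨a, ha⟩ := R.image y hy
  exact ⟨a, by rw [ha]; rfl⟩

end Real

/-- Hilbert 90 for realised pairs. -/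
theorem isZero_H1_of_real {U : Subgroup Gq} {G : Type} [Group G] {A : Rep.{0} ℤ G}
    (R : Real U G A) : Limits.IsZero (groupCohomology A 1) := by
  classical
  have key : ∀ x : cocycles₁ A, H1π A x = 0 := by
    intro x
    rw [H1π_eq_zero_iff]
    -- the lifted cocycle, extended by `1` outside `U`
    set f : Gq → Qbˣ := fun σ => if h : σ ∈ U then R.lift₁ x ⟨σ, h⟩ else 1 with hf
    have hcoc : ∀ s t : U, R.lift₁ x (s * t) = (s : Gq) • R.lift₁ x t * R.lift₁ x s := by
      intro s t
      have h1 := (mem_cocycles₁_iff (x : G → A)).1 x.2 (R.π s) (R.π t)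
      rw [Real.lift₁_apply, map_mul, h1, map_add, toMul_add, R.j_smul]
      rfl
    obtain ⟨F, hF, hlev⟩ := R.isLevelConstant₁_lift₁ x
    haveI := hF
    obtain ⟨y, hy⟩ := Fermat.Agent.CFT.Cyclic.exists_smul_div_eq_of_levelConstant U f
      (fun g hg h hh => by
        simp only [hf, dif_pos hg, dif_pos hh, dif_pos (U.mul_mem hg hh)]
        exact hcoc ⟨g, hg⟩ ⟨h, hh⟩)
      F
      (fun g hg s hs hsF => by
        simp only [hf, dif_pos hg, dif_pos (U.mul_mem hg hs)]
        exact hlev ⟨g, hg⟩ ⟨s, hs⟩ hsF)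
    have hy' : ∀ s : U, (s : Gq) • y / y = R.lift₁ x s := by
      intro s
      rw [hy s s.2]
      simp only [hf, dif_pos s.2]
    have hx1 : x (1 : G) = 0 := by
      have h1 := (mem_cocycles₁_iff (x : G → A)).1 x.2 1 1
      simpa using h1
    obtain ⟨a, ha⟩ := R.exists_j_eq y (fun s hs => by
      have h2 := hy' s
      rw [Real.lift₁_apply, hs, hx1, map_zero] at h2
      have h3 : (s : Gq) • y / y = 1 := h2
      exact div_eq_one.mp h3)
    refine ⟨a, ?_⟩
    funext g
    obtain ⟨s, rfl⟩ := R.surj g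
    apply R.inj
    apply Additive.toMul.injective
    rw [d₀₁_hom_apply, map_sub, toMul_sub, R.j_smul, ha]
    exact hy' s
  have hsub : Subsingleton (groupCohomology A 1) := by
    refine ⟨fun a b => ?_⟩
    have h0 : ∀ c : groupCohomology A 1, c = 0 := by
      intro c
      induction c using H1_induction_on with
      | h x => exact key x
    rw [h0 a, h0 b]
  exact ModuleCat.isZero_of_subsingleton _

/-- If the class of `f` vanishes, its lift is the coboundary of a level-constant cochain. -/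
theorem lift₂_eq_dOne_of_H2π_eq_zero {U : Subgroup Gq} {G : Type} [Group G]
    {A : Rep.{0} ℤ G} (R : Real U G A) (f : cocycles₂ A) (h : H2π A f = 0) :
    ∃ c : U → Qbˣ, IsLevelConstant₁ (Subgroup.subtype U) c ∧
      ∀ s t : U, R.lift₂ f (s, t) = (s : Gq) • c t / c (s * t) * c s := by
  rw [H2π_eq_zero_iff] at h
  obtain ⟨g, hg⟩ := h
  refine ⟨R.lift₁ g, R.isLevelConstant₁_lift₁ g, fun s t => ?_⟩
  rw [← R.lift₂_d₁₂ g s t]
  have : (f : G × G → A) = d₁₂ A g := hg.symm
  rw [this]

end Fermat.Agent.CFT.Global.HP
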