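/-
HP-K: every level-constant `Qbˣ`-valued 2-cocycle of a subgroup `U ≤ Gal(ℚ̄/ℚ)` is the lift of
a 2-cocycle of a finite layer `(U ⧸ N, (ℚ̄^×)^N)` (a `Real`isation in the sense of `HP/Real`).
Proof: the LC bridge (`LC/Finite`, `Global/LCGlobal`).
-/
import Fermat.Agent.CFT.Global.HP.Real
import Fermat.Agent.CFT.Global.LCGlobal

set_option autoImplicit false

open CategoryTheory groupCohomology

namespace Fermat.Agent.CFT.Global.HP.RealOfCocycle

open Fermat.Agent.CFT.LC Fermat.Agent.CFT.Global.LCGlobal Fermat.Agent.CFT.Global.HP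

/-- The realisation of the layer `(U ⧸ N, (ℚ̄^×)^N)` for a normal subgroup `N` of `U` containing
a finite level. -/
noncomputable def realOfNormal (U : Subgroup Gq) (N : Subgroup ↥U) [N.Normal]
    (hN : ∃ F : IntermediateField ℚ Qb, FiniteDimensional ℚ F ∧
      ∀ s : U, (s : Gq) ∈ F.fixingSubgroup → s ∈ N) :
    Real U (↥U ⧸ N) ((Rep.res U.subtype unitsQ).quotientToInvariants N) where
  π := QuotientGroup.mk' N
  surj := QuotientGroup.mk'_surjective N
  level := by
    obtain ⟨F, hF, h⟩ := hN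
    exact ⟨F, hF, fun s hs => (QuotientGroup.eq_one_iff s).2 (h s hs)⟩
  j := (Submodule.subtype _).toAddMonoidHom
  inj := Subtype.val_injective
  equiv := fun _ _ => rfl
  image := fun y hy =>
    ⟨⟨Additive.ofMul y, fun n => congrArg Additive.ofMul
      (hy n.1 ((QuotientGroup.eq_one_iff (n : ↥U)).2 n.2))⟩, rfl⟩

/-- Every level-constant `Qbˣ`-valued 2-cocycle of `U` is the lift of a 2-cocycle of a finite
layer. -/
theorem exists_real_of_cocycle' (U : Subgroup Gq)
    (a : U × U → Qbˣ) (ha : IsMulCocycle₂ a)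
    (hlev : IsLevelConstant₂ (Subgroup.subtype U) a) :
    ∃ (G : Type) (_ : Group G) (_ : Finite G) (A : Rep.{0} ℤ G)
      (R : Real U G A) (f : cocycles₂ A),
      ∀ s t, R.lift₂ f (s, t) = a (s, t) := by
  have hlev' : IsLevelConstant₂ (Subgroup.subtype U)
      (fun st : U × U => (Additive.ofMul (a st) : unitsQ)) := hlev.comp Additive.ofMul
  have hbot : Normal ℚ (⊥ : IntermediateField ℚ Qb) :=
    Normal.of_algEquiv (IntermediateField.botEquiv ℚ Qb).symm
  obtain ⟨F, hF, hFn, -, hl⟩ := exists_isLevel₂_glob U hlev' ⊥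
  have hNn : (lev U.subtype F).Normal := lev_normal U.subtype F
  have hNf : (lev U.subtype F).FiniteIndex := lev_finiteIndex U.subtype F
  have hfin : Finite (↥U ⧸ lev U.subtype F) := Subgroup.finite_quotient_of_finiteIndex
  obtain ⟨φ, hφ⟩ := exists_inflFun₂_eq hl
  have hcoc : IsCoc₂ (Rep.res U.subtype unitsQ)
      (fun st : U × U => (Additive.ofMul (a st) : unitsQ)) := by
    intro g h j
    exact congrArg Additive.ofMul (ha g h j)
  have hφc : φ ∈ cocycles₂ ((Rep.res U.subtype unitsQ).quotientToInvariants (lev U.subtype F)) :=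
    (isCoc₂_inflFun₂_iff φ).1 (hφ ▸ hcoc)
  refine ⟨↥U ⧸ lev U.subtype F, inferInstance, hfin, _,
    realOfNormal U (lev U.subtype F) ⟨F, hF, fun s hs => hs⟩, ⟨φ, hφc⟩, fun s t => ?_⟩
  have h1 := congrFun hφ (s, t)
  exact congrArg Additive.toMul h1

end Fermat.Agent.CFT.Global.HP.RealOfCocycle
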