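import Fermat.Agent.CFT.Global.HP.RealBasic

/-!
# Realisations: restriction to subgroups and passage to quotients

`IsReal` is `IsGaloisLike` (`isGaloisLike_isReal`).
-/

set_option autoImplicit false

open CategoryTheory groupCohomology

namespace Fermat.Agent.CFT.Global.HP

open Fermat.Agent.S55.GrpCoh

/-- A subgroup of `Gq` containing the fixing subgroup of a number field is the fixing subgroup
of a number field. -/
theorem exists_fixingSubgroup_eq (V : Subgroup Gq) (E : IntermediateField ℚ Qb)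
    [FiniteDimensional ℚ E] (h : E.fixingSubgroup ≤ V) :
    ∃ K' : IntermediateField ℚ Qb, FiniteDimensional ℚ K' ∧ K'.fixingSubgroup = V := by
  haveI hAlg : Algebra.IsAlgebraic ℚ Qb := AlgebraicClosure.isAlgebraic ℚ
  haveI hAC : IsAlgClosure ℚ Qb := AlgebraicClosure.instIsAlgClosure ℚ
  haveI hGal : IsGalois ℚ Qb := inferInstance
  have hopen : IsOpen (V : Set Gq) := Subgroup.isOpen_mono h E.fixingSubgroup_isOpen
  have hclosed : IsClosed (V : Set Gq) := Subgroup.isClosed_of_isOpen V hopen
  refine ⟨IntermediateField.fixedField V, ?_, ?_⟩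
  · have hle : IntermediateField.fixedField V ≤ E := by
      have h1 := IntermediateField.fixedField_antitone h
      rwa [InfiniteGalois.fixedField_fixingSubgroup E] at h1
    exact FiniteDimensional.of_injective (IntermediateField.inclusion hle).toLinearMap
      (IntermediateField.inclusion_injective hle)
  · exact InfiniteGalois.fixingSubgroup_fixedField ⟨V, hclosed⟩

namespace Real

variable {U : Subgroup Gq} {G : Type} [Group G] {A : Rep.{0} ℤ G} (R : Real U G A)

/-- The subgroup of `Gq` lying over a subgroup `H` of `G`. -/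
noncomputable def subU (H : Subgroup G) : Subgroup Gq := (H.comap R.π).map U.subtype

theorem subU_le (H : Subgroup G) : R.subU H ≤ U := Subgroup.map_subtype_le _

theorem mem_subU_iff (H : Subgroup G) (σ : Gq) :
    σ ∈ R.subU H ↔ ∃ h : σ ∈ U, R.π ⟨σ, h⟩ ∈ H := by
  constructor
  · rintro ⟨s, hs, rfl⟩
    exact ⟨s.2, hs⟩
  · rintro ⟨h, hH⟩
    exact ⟨⟨σ, h⟩, hH, rfl⟩

/-- The restriction of a realisation to a subgroup `H` of `G`. -/
noncomputable def res (H : Subgroup G) : Real (R.subU H) H (Rep.res H.subtype A) where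
  π := (R.π.comp (Subgroup.inclusion (R.subU_le H))).codRestrict H (fun σ => by
    obtain ⟨h, hH⟩ := (R.mem_subU_iff H σ).1 σ.2
    exact hH)
  surj := by
    intro h
    obtain ⟨s, hs⟩ := R.surj (h : G)
    refine ⟨⟨s, (R.mem_subU_iff H s).2 ⟨s.2, by rw [Subtype.coe_eta, hs]; exact h.2⟩⟩, ?_⟩
    apply Subtype.ext
    exact hs
  level := by
    obtain ⟨F, hF, h⟩ := R.level
    refine ⟨F, hF, fun σ hσ => ?_⟩
    apply Subtype.ext
    exact h ⟨σ, R.subU_le H σ.2⟩ hσ
  j := R.j
  inj := R.inj
  equiv := fun σ a => R.equiv ⟨σ, R.subU_le H σ.2⟩ a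
  image := fun y hy => R.image y (fun s hs => by
    have hmem : (s : Gq) ∈ R.subU H :=
      (R.mem_subU_iff H s).2 ⟨s.2, by rw [Subtype.coe_eta, hs]; exact H.one_mem⟩
    exact hy ⟨s, hmem⟩ (by apply Subtype.ext; exact hs))

theorem res_π_coe (H : Subgroup G) (σ : R.subU H) :
    ((R.res H).π σ : G) = R.π ⟨σ, R.subU_le H σ.2⟩ := rfl

theorem res_j (H : Subgroup G) (a : A) : (R.res H).j a = R.j a := rfl

/-- The realisation of `(G ⧸ N, A^N)` induced by a realisation of `(G, A)`. -/
noncomputable def quot (N : Subgroup G) [N.Normal] :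
    Real U (G ⧸ N) (A.quotientToInvariants N) where
  π := (QuotientGroup.mk' N).comp R.π
  surj := (QuotientGroup.mk'_surjective N).comp R.surj
  level := by
    obtain ⟨F, hF, h⟩ := R.level
    refine ⟨F, hF, fun s hs => ?_⟩
    rw [MonoidHom.comp_apply, h s hs, map_one]
  j := R.j.comp (Submodule.subtype _).toAddMonoidHom
  inj := R.inj.comp Subtype.val_injective
  equiv := fun s a => R.equiv s a.1
  image := fun y hy => by
    obtain ⟨a, ha⟩ := R.image y (fun s hs => hy s (by rw [MonoidHom.comp_apply, hs, map_one]))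
    have hinv : ∀ n : N, A.ρ (n : G) a = a := by
      intro n
      obtain ⟨s, hs⟩ := R.surj (n : G)
      apply R.inj
      rw [← hs, R.equiv, ha]
      have : (s : Gq) • y = y := hy s (by
        rw [MonoidHom.comp_apply, hs]
        exact (QuotientGroup.eq_one_iff _).2 n.2)
      rw [toMul_ofMul, this]
    exact ⟨⟨a, fun n => hinv n⟩, ha⟩

theorem quot_π (N : Subgroup G) [N.Normal] (s : U) :
    (R.quot N).π s = (R.π s : G ⧸ N) := rfl

theorem quot_j (N : Subgroup G) [N.Normal] (a : A.quotientToInvariants N) :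
    (R.quot N).j a = R.j a.1 := rfl

end Real

/-- `IsReal` is stable under subgroups and quotients. -/
theorem isGaloisLike_isReal : IsGaloisLike (k := ℤ) IsReal where
  res G _ A H := by
    rintro ⟨K, hK, ⟨R⟩⟩
    obtain ⟨F, hF, hlev⟩ := R.level
    haveI := hK; haveI := hF
    have hle : (F ⊔ K).fixingSubgroup ≤ R.subU H := by
      intro σ hσ
      rw [IntermediateField.fixingSubgroup_sup] at hσ
      refine (R.mem_subU_iff H σ).2 ⟨hσ.2, ?_⟩
      rw [hlev ⟨σ, hσ.2⟩ hσ.1]
      exact H.one_mem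
    obtain ⟨K', hK', hfix⟩ := exists_fixingSubgroup_eq (R.subU H) (F ⊔ K) hle
    refine ⟨K', hK', ?_⟩
    rw [hfix]
    exact ⟨R.res H⟩
  quot G _ A N _ := by
    rintro ⟨K, hK, ⟨R⟩⟩
    exact ⟨K, hK, ⟨R.quot N⟩⟩

/-- Hilbert 90 for realised pairs. -/
theorem isZero_H1_of_isReal {G : Type} [Group G] {A : Rep.{0} ℤ G} (hA : IsReal G A) :
    Limits.IsZero (groupCohomology A 1) := by
  obtain ⟨K, -, ⟨R⟩⟩ := hA
  exact isZero_H1_of_real R

end Fermat.Agent.CFT.Global.HP
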