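import Fermat.Agent.CFT.Global.HP.LocOps

/-!
# Hasse principle (HP-K), tower instance: realising cocycles by finite layers

Bodies for the two remaining statements of `HP/Tower.lean`:

* `exists_real_of_cocycle'` : a level-constant `Qbˣ`-valued 2-cocycle of `Fix K` is the lift of a
  2-cocycle of a finite layer (`G = Fix K ⧸ lev`, `A` = the units fixed by `lev`).
* `hp_units'` : the tower form of the Hasse principle (literally `Tower.hp_units`), from
  `isGaloisLike_isReal`, `isLocalTriv_LT`, `isZero_H1_of_isReal` and the abstract core.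
-/

set_option autoImplicit false

open CategoryTheory groupCohomology

namespace Fermat.Agent.CFT.Global.HP.TowerLift

open Fermat.Agent.S55.GrpCoh

theorem isGalois_Qb_tl : IsGalois ℚ Qb :=
  haveI : IsAlgClosure ℚ Qb := AlgebraicClosure.instIsAlgClosure ℚ
  IsAlgClosure.isGalois ℚ Qb

attribute [local instance] isGalois_Qb_tl

section Construct

variable (K F : IntermediateField ℚ Qb)

/-- The subgroup of `Fix K` fixing the normal closure of `F`. -/
noncomputable def lev : Subgroup K.fixingSubgroup :=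
  (IntermediateField.normalClosure ℚ F Qb).fixingSubgroup.subgroupOf K.fixingSubgroup

theorem mem_lev_iff (s : K.fixingSubgroup) :
    s ∈ lev K F ↔ (s : Gq) ∈ (IntermediateField.normalClosure ℚ F Qb).fixingSubgroup :=
  Subgroup.mem_subgroupOf

instance lev_normal : (lev K F).Normal := by
  unfold lev
  have : (IntermediateField.normalClosure ℚ F Qb).fixingSubgroup.Normal := inferInstance
  exact this.subgroupOf _

theorem lev_le (s : K.fixingSubgroup) (hs : s ∈ lev K F) : (s : Gq) ∈ F.fixingSubgroup :=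
  IntermediateField.fixingSubgroup_antitone (IntermediateField.le_normalClosure F)
    ((mem_lev_iff K F s).1 hs)

instance lev_finiteIndex [FiniteDimensional ℚ F] : (lev K F).FiniteIndex := by
  unfold lev
  have : (IntermediateField.normalClosure ℚ F Qb).fixingSubgroup.FiniteIndex := by
    constructor
    rw [← IntermediateField.finrank_eq_fixingSubgroup_index]
    exact Module.finrank_pos.ne'
  infer_instance

/-- The units of `Qb` fixed by `lev K F`. -/
def fixedUnits : Subgroup Qbˣ where
  carrier := {y | ∀ n : K.fixingSubgroup, n ∈ lev K F → (n : Gq) • y = y}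
  one_mem' := fun n _ => smul_one _
  mul_mem' := fun {a b} ha hb n hn => by rw [smul_mul', ha n hn, hb n hn]
  inv_mem' := fun {a} ha n hn => by rw [smul_inv', ha n hn]

theorem mem_fixedUnits_iff (y : Qbˣ) :
    y ∈ fixedUnits K F ↔ ∀ n : K.fixingSubgroup, n ∈ lev K F → (n : Gq) • y = y := Iff.rfl

theorem smul_mem_fixedUnits (s : K.fixingSubgroup) {y : Qbˣ} (hy : y ∈ fixedUnits K F) :
    (s : Gq) • y ∈ fixedUnits K F := by
  intro n hn
  have h1 : s⁻¹ * n * s ∈ lev K F := by
    have := (lev_normal K F).conj_mem n hn s⁻¹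
    simpa using this
  have h2 := hy _ h1
  have h3 : (n : Gq) • (s : Gq) • y = (s : Gq) • ((s⁻¹ * n * s : K.fixingSubgroup) : Gq) • y := by
    rw [← mul_smul, ← mul_smul]
    congr 1
    push_cast
    group
  rw [h3, h2]

/-- `Fix K` acts on the units fixed by `lev K F`. -/
noncomputable instance fixAction : MulDistribMulAction K.fixingSubgroup (fixedUnits K F) where
  smul s y := ⟨(s : Gq) • (y : Qbˣ), smul_mem_fixedUnits K F s y.2⟩
  one_smul y := Subtype.ext (one_smul Gq (y : Qbˣ))
  mul_smul s t y := Subtype.ext (mul_smul (s : Gq) (t : Gq) (y : Qbˣ))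
  smul_mul s y z := Subtype.ext (smul_mul' (s : Gq) (y : Qbˣ) (z : Qbˣ))
  smul_one s := Subtype.ext (smul_one (s : Gq))

theorem coe_fixAction_smul (s : K.fixingSubgroup) (y : fixedUnits K F) :
    ((s • y : fixedUnits K F) : Qbˣ) = (s : Gq) • (y : Qbˣ) := rfl

/-- The action of `Fix K` on the fixed units as a homomorphism, trivial on `lev K F`. -/
noncomputable def actHom : K.fixingSubgroup →* MulAut (fixedUnits K F) :=
  MulDistribMulAction.toMulAut K.fixingSubgroup (fixedUnits K F)

theorem lev_le_ker_actHom : lev K F ≤ (actHom K F).ker := by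
  intro n hn
  rw [MonoidHom.mem_ker]
  apply MulEquiv.ext
  intro y
  apply Subtype.ext
  exact y.2 n hn

/-- The finite quotient `Fix K ⧸ lev K F` acts on the fixed units. -/
noncomputable instance quotAction :
    MulDistribMulAction (K.fixingSubgroup ⧸ lev K F) (fixedUnits K F) :=
  MulDistribMulAction.compHom (fixedUnits K F)
    (QuotientGroup.lift (lev K F) (actHom K F) (lev_le_ker_actHom K F))

theorem coe_quotAction_mk_smul (s : K.fixingSubgroup) (y : fixedUnits K F) :
    (((s : K.fixingSubgroup ⧸ lev K F) • y : fixedUnits K F) : Qbˣ) = (s : Gq) • (y : Qbˣ) := rfl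

/-- The module of the realisation. -/
noncomputable def repA : Rep.{0} ℤ (K.fixingSubgroup ⧸ lev K F) :=
  Rep.ofMulDistribMulAction (K.fixingSubgroup ⧸ lev K F) (fixedUnits K F)

/-- The inclusion of the module into `Additive Qbˣ`. -/
noncomputable def inclA : repA K F →+ Additive Qbˣ :=
  (MonoidHom.toAdditive (fixedUnits K F).subtype : Additive (fixedUnits K F) →+ Additive Qbˣ)

theorem inclA_apply (a : Additive (fixedUnits K F)) :
    inclA K F a = Additive.ofMul ((Additive.toMul a : fixedUnits K F) : Qbˣ) := rfl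

theorem inclA_injective : Function.Injective (inclA K F) := by
  intro a b h
  have h' : Additive.ofMul ((Additive.toMul (a : Additive (fixedUnits K F)) : fixedUnits K F) : Qbˣ)
      = Additive.ofMul ((Additive.toMul (b : Additive (fixedUnits K F)) : fixedUnits K F) : Qbˣ) := h
  exact Additive.toMul.injective (Subtype.ext (Additive.ofMul.injective h'))

/-- The realisation of `(Fix K ⧸ lev K F, fixed units)`. -/
noncomputable def real [FiniteDimensional ℚ F] :
    Real K.fixingSubgroup (K.fixingSubgroup ⧸ lev K F) (repA K F) where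
  π := QuotientGroup.mk' (lev K F)
  surj := QuotientGroup.mk'_surjective _
  level := ⟨IntermediateField.normalClosure ℚ F Qb, inferInstance, fun s hs =>
    (QuotientGroup.eq_one_iff s).2 ((mem_lev_iff K F s).2 hs)⟩
  j := inclA K F
  inj := inclA_injective K F
  equiv := fun _ _ => rfl
  image := fun y hy => ⟨Additive.ofMul (⟨y, fun n hn =>
    hy n ((QuotientGroup.eq_one_iff n).2 hn)⟩ : fixedUnits K F), rfl⟩

variable {K F}

/-- The values of a cocycle which is constant modulo `lev K F` are fixed by `lev K F`. -/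
theorem mem_fixedUnits_of_cocycle {a : K.fixingSubgroup × K.fixingSubgroup → Qbˣ}
    (ha : IsMulCocycle₂ a)
    (hlev : ∀ g g' s s' : K.fixingSubgroup, s ∈ lev K F → s' ∈ lev K F →
      a (g * s, g' * s') = a (g, g'))
    (t u : K.fixingSubgroup) : a (t, u) ∈ fixedUnits K F := by
  intro n hn
  have h1 : a (n * t, u) = a (t, u) := by
    have hc : t⁻¹ * n * t ∈ lev K F := by simpa using (lev_normal K F).conj_mem n hn t⁻¹
    have := hlev t u (t⁻¹ * n * t) 1 hc (one_mem _)
    rw [mul_one] at this
    rw [← this]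
    congr 2
    group
  have h2 : a (n, t) = a (1, 1) := by
    have := hlev 1 t n 1 hn (one_mem _)
    rw [one_mul, mul_one] at this
    rw [this, map_one_fst_of_isMulCocycle₂ ha]
  have h3 : a (n, t * u) = a (1, 1) := by
    have := hlev 1 (t * u) n 1 hn (one_mem _)
    rw [one_mul, mul_one] at this
    rw [this, map_one_fst_of_isMulCocycle₂ ha]
  have h4 := ha n t u
  rw [h1, h2, h3] at h4
  exact (mul_right_cancel h4).symm

/-- The cocycle induced on the quotient. -/
noncomputable def cocQ (a : K.fixingSubgroup × K.fixingSubgroup → Qbˣ)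
    (hfix : ∀ t u, a (t, u) ∈ fixedUnits K F) :
    (K.fixingSubgroup ⧸ lev K F) × (K.fixingSubgroup ⧸ lev K F) → fixedUnits K F :=
  fun gh => ⟨a (gh.1.out, gh.2.out), hfix _ _⟩

theorem cocQ_mk (a : K.fixingSubgroup × K.fixingSubgroup → Qbˣ)
    (hfix : ∀ t u, a (t, u) ∈ fixedUnits K F)
    (hlev : ∀ g g' s s' : K.fixingSubgroup, s ∈ lev K F → s' ∈ lev K F →
      a (g * s, g' * s') = a (g, g'))
    (s t : K.fixingSubgroup) :
    cocQ a hfix ((s : K.fixingSubgroup ⧸ lev K F), (t : K.fixingSubgroup ⧸ lev K F))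
      = ⟨a (s, t), hfix s t⟩ := by
  obtain ⟨n, hn⟩ := QuotientGroup.mk_out_eq_mul (lev K F) s
  obtain ⟨m, hm⟩ := QuotientGroup.mk_out_eq_mul (lev K F) t
  apply Subtype.ext
  show a (_, _) = a (s, t)
  rw [hn, hm]
  exact hlev s t n m n.2 m.2

theorem isMulCocycle₂_cocQ {a : K.fixingSubgroup × K.fixingSubgroup → Qbˣ}
    (ha : IsMulCocycle₂ a) (hfix : ∀ t u, a (t, u) ∈ fixedUnits K F)
    (hlev : ∀ g g' s s' : K.fixingSubgroup, s ∈ lev K F → s' ∈ lev K F →
      a (g * s, g' * s') = a (g, g')) :
    IsMulCocycle₂ (cocQ a hfix) := by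
  intro g h j
  induction g using QuotientGroup.induction_on with
  | _ s =>
  induction h using QuotientGroup.induction_on with
  | _ t =>
  induction j using QuotientGroup.induction_on with
  | _ u =>
  rw [← QuotientGroup.mk_mul, ← QuotientGroup.mk_mul, cocQ_mk a hfix hlev, cocQ_mk a hfix hlev,
    cocQ_mk a hfix hlev, cocQ_mk a hfix hlev]
  apply Subtype.ext
  exact ha s t u

end Construct

/-- Every level-constant `Qbˣ`-valued 2-cocycle of `Fix K` is the lift of a 2-cocycle of a
finite layer. -/
theorem exists_real_of_cocycle' (K : IntermediateField ℚ Qb) [FiniteDimensional ℚ K]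
    (a : K.fixingSubgroup × K.fixingSubgroup → Qbˣ) (ha : IsMulCocycle₂ a)
    (hlev : IsLevelConstant₂ (Subgroup.subtype K.fixingSubgroup) a) :
    ∃ (G : Type) (_ : Group G) (_ : Finite G) (A : Rep.{0} ℤ G)
      (R : Real K.fixingSubgroup G A) (f : cocycles₂ A),
      ∀ s t, R.lift₂ f (s, t) = a (s, t) := by
  obtain ⟨F, hF, hl⟩ := hlev
  have hl' : ∀ g g' s s' : K.fixingSubgroup, s ∈ lev K F → s' ∈ lev K F →
      a (g * s, g' * s') = a (g, g') :=
    fun g g' s s' hs hs' => hl g g' s s' (lev_le K F s hs) (lev_le K F s' hs')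
  have hfix := mem_fixedUnits_of_cocycle ha hl'
  refine ⟨K.fixingSubgroup ⧸ lev K F, inferInstance, inferInstance, repA K F, real K F,
    cocyclesOfIsMulCocycle₂ (isMulCocycle₂_cocQ ha hfix hl'), fun s t => ?_⟩
  show ((cocQ a hfix (QuotientGroup.mk s, QuotientGroup.mk t) : fixedUnits K F) : Qbˣ) = a (s, t)
  rw [cocQ_mk a hfix hl' s t]

/-- **Hasse principle, tower form** (literally the statement of `Tower.hp_units`). -/
theorem hp_units' (p : ℕ) [Fact p.Prime]
    (hprime : ∀ (G : Type) [Group G] [Finite G] (A : Rep.{0} ℤ G), IsReal G A →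
      Nat.card G = p → ∀ x : groupCohomology A 2, LT G A x → x = 0)
    (K : IntermediateField ℚ Qb) [FiniteDimensional ℚ K]
    (a : K.fixingSubgroup × K.fixingSubgroup → Qbˣ) (ha : IsMulCocycle₂ a)
    (hlev : IsLevelConstant₂ (Subgroup.subtype K.fixingSubgroup) a)
    (hpow : ∀ s t, a (s, t) ^ p = 1) (hloc : LocTriv K.fixingSubgroup a) :
    ∃ c : K.fixingSubgroup → Qbˣ, IsLevelConstant₁ (Subgroup.subtype K.fixingSubgroup) c ∧
      ∀ s t : K.fixingSubgroup, a (s, t) = (s : Gq) • c t / c (s * t) * c s := by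
  obtain ⟨G, _, _, A, R, f, hf⟩ := exists_real_of_cocycle' K a ha hlev
  have hfa : R.lift₂ f = a := funext fun st => hf st.1 st.2
  have hx : LT G A (H2π A f) := ⟨K, inferInstance, R, f, rfl, hfa ▸ hloc⟩
  have hpf : p • f = 0 := by
    apply cocycles₂_ext
    intro g h
    obtain ⟨s, rfl⟩ := R.surj g
    obtain ⟨t, rfl⟩ := R.surj h
    apply R.inj
    have h1 : R.j (f (R.π s, R.π t)) = Additive.ofMul (a (s, t)) := by
      rw [← hf s t]; rfl
    have h2 : (p • f) (R.π s, R.π t) = p • f (R.π s, R.π t) := rfl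
    have h3 : (0 : cocycles₂ A) (R.π s, R.π t) = 0 := rfl
    rw [h2, h3, map_nsmul, h1, map_zero, ← ofMul_pow, hpow s t, ofMul_one]
  have h0 : H2π A f = 0 := by
    refine eq_zero_of_locallyTrivial_of_pow_smul p IsReal isGaloisLike_isReal LT isLocalTriv_LT
      (fun G _ _ A hA _ => isZero_H1_of_isReal hA) hprime G A ⟨K, inferInstance, ⟨R⟩⟩
      (H2π A f) 1 ?_ hx
    rw [pow_one, Nat.cast_smul_eq_nsmul ℤ]
    have h5 : p • (H2π A).hom f = (H2π A).hom (p • f) := (map_nsmul (H2π A).hom p f).symm
    exact h5.trans (by rw [hpf, map_zero])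
  obtain ⟨c, hc, hcd⟩ := lift₂_eq_dOne_of_H2π_eq_zero R f h0
  exact ⟨c, hc, fun s t => by rw [← hf s t]; exact hcd s t⟩

end Fermat.Agent.CFT.Global.HP.TowerLift
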